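/-
T14 / SI: shared definitions for the second inequality (finite-level local conditions).
FROZEN once landed.  namespace Fermat.Agent.S14.SI
-/
import Fermat.Agent.S14.Defs

set_option autoImplicit false

open NumberField IsDedekindDomain

namespace Fermat.Agent.S14.SI

variable {K : Type*} [Field K] [NumberField K]

/-- Multiplicative congruence `x ≡ 1 mod v^n` for `x ∈ Kˣ`: `x = a/b` with `a, b ∈ 𝓞 K` prime to `v`
and `a ≡ b mod v^n`.  (`n = 0`: `x` is a unit at `v`.) -/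
def OneModPow (v : Ideal (𝓞 K)) (n : ℕ) (x : Kˣ) : Prop :=
  ∃ a b : 𝓞 K, a ∉ v ∧ b ∉ v ∧ a - b ∈ v ^ n ∧ (x : K) * (b : K) = (a : K)

/-- `x` is a unit at `v`. -/
def IsUnitAt (v : Ideal (𝓞 K)) (x : Kˣ) : Prop := OneModPow v 0 x

/-- `x` is a `p`-th power at `v` up to precision `n`: `x = y^p u` with `u ≡ 1 mod v^n`. -/
def IsLocalPow (p : ℕ) (v : Ideal (𝓞 K)) (n : ℕ) (x : Kˣ) : Prop :=
  ∃ y : Kˣ, OneModPow v n (x / y ^ p)

/-- The exponent of `v` in the ideal `(p)`. -/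
noncomputable def ordP (p : ℕ) (v : Ideal (𝓞 K)) : ℕ :=
  multiplicity v (Ideal.span {(p : 𝓞 K)})

/-- The precision `N_v = p e_v/(p-1) + 1` (`= 1` if `v ∤ p`) beyond which `1 + v^N` consists of
`p`-th powers locally. -/
noncomputable def prec (p : ℕ) (v : Ideal (𝓞 K)) : ℕ := p * ordP p v / (p - 1) + 1

omit [NumberField K] in
lemma oneModPow_one (v : Ideal (𝓞 K)) [v.IsPrime] (n : ℕ) : OneModPow v n (1 : Kˣ) :=
  ⟨1, 1, fun h => (Ideal.IsPrime.ne_top ‹_›) ((Ideal.eq_top_iff_one _).2 h),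
    fun h => (Ideal.IsPrime.ne_top ‹_›) ((Ideal.eq_top_iff_one _).2 h), by simp, by simp⟩

omit [NumberField K] in
lemma OneModPow.mul {v : Ideal (𝓞 K)} [v.IsPrime] {n : ℕ} {x y : Kˣ}
    (hx : OneModPow v n x) (hy : OneModPow v n y) : OneModPow v n (x * y) := by
  obtain ⟨a, b, ha, hb, hab, h⟩ := hx
  obtain ⟨a', b', ha', hb', hab', h'⟩ := hy
  refine ⟨a * a', b * b', fun hh => ?_, fun hh => ?_, ?_, ?_⟩
  · rcases Ideal.IsPrime.mem_or_mem ‹_› hh with h1 | h1
    exacts [ha h1, ha' h1]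
  · rcases Ideal.IsPrime.mem_or_mem ‹_› hh with h1 | h1
    exacts [hb h1, hb' h1]
  · have : a * a' - b * b' = a * (a' - b') + b' * (a - b) := by ring
    rw [this]
    exact Ideal.add_mem _ (Ideal.mul_mem_left _ _ hab') (Ideal.mul_mem_left _ _ hab)
  · push_cast
    calc (x : K) * (y : K) * ((b : K) * (b' : K)) = ((x : K) * b) * ((y : K) * b') := by ring
      _ = (a : K) * (a' : K) := by rw [h, h']

omit [NumberField K] in
lemma OneModPow.inv {v : Ideal (𝓞 K)} {n : ℕ} {x : Kˣ}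
    (hx : OneModPow v n x) : OneModPow v n x⁻¹ := by
  obtain ⟨a, b, ha, hb, hab, h⟩ := hx
  refine ⟨b, a, hb, ha, ?_, ?_⟩
  · have : b - a = -(a - b) := by ring
    rw [this]; exact Ideal.neg_mem_iff _ |>.2 hab
  · rw [← h]
    simp [Units.val_inv_eq_inv_val]

/-- the subgroup of `x ∈ Kˣ` with `x ≡ 1 mod v^n` -/
def oneModPowSubgroup (v : Ideal (𝓞 K)) [v.IsPrime] (n : ℕ) : Subgroup Kˣ where
  carrier := {x | OneModPow v n x}
  mul_mem' := OneModPow.mul
  one_mem' := oneModPow_one v n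
  inv_mem' := OneModPow.inv

/-- the subgroup of local `p`-th powers at `v` up to precision `n` -/
def localPowSubgroupN (p : ℕ) (v : Ideal (𝓞 K)) [v.IsPrime] (n : ℕ) : Subgroup Kˣ where
  carrier := {x | IsLocalPow p v n x}
  mul_mem' := by
    rintro x x' ⟨y, hy⟩ ⟨y', hy'⟩
    refine ⟨y * y', ?_⟩
    have : x * x' / (y * y') ^ p = (x / y ^ p) * (x' / y' ^ p) := by
      rw [mul_pow, div_mul_div_comm]
    rw [this]
    exact hy.mul hy'
  one_mem' := ⟨1, by simpa using oneModPow_one v n⟩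
  inv_mem' := by
    rintro x ⟨y, hy⟩
    refine ⟨y⁻¹, ?_⟩
    have : x⁻¹ / y⁻¹ ^ p = (x / y ^ p)⁻¹ := by
      rw [inv_pow, inv_div_inv, inv_div]
    rw [this]
    exact hy.inv

/-- the subgroup of local `p`-th powers at `v` (precision `prec p v`) -/
noncomputable def localPowSubgroup (p : ℕ) (v : Ideal (𝓞 K)) [v.IsPrime] : Subgroup Kˣ :=
  localPowSubgroupN p v (prec p v)

end Fermat.Agent.S14.SI
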