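/-
T14 / SI package KU, global (algebraic) half: proofs for `SI/Kummer.lean`
(`kummerExt_isGalois`, `finrank_kummerExt`, (KU-int), (KU-res)).
-/
import Fermat.Agent.S14.SI.Defs

set_option autoImplicit false

open NumberField IsDedekindDomain Polynomial

namespace Fermat.Agent.S14.SI.KummerGlobal

variable {K : Type*} [Field K] [NumberField K]

theorem splittingField_isGalois (p : ℕ) (x : K) :
    IsGalois K (X ^ p - C x : K[X]).SplittingField := by
  have : Normal K (X ^ p - C x : K[X]).SplittingField :=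
    Normal.of_isSplittingField (X ^ p - C x : K[X])
  exact ⟨⟩

omit [NumberField K] in
theorem finrank_splittingField {p : ℕ} (hp : p.Prime) (ζ : K) (hζ : IsPrimitiveRoot ζ p) (x : K)
    (hx : ∀ y : K, y ^ p ≠ x) :
    Module.finrank K (X ^ p - C x : K[X]).SplittingField = p := by
  have H : Irreducible (X ^ p - C x : K[X]) := X_pow_sub_C_irreducible_of_prime hp hx
  exact finrank_of_isSplittingField_X_pow_sub_C
    ⟨ζ, (mem_primitiveRoots hp.pos).mpr hζ⟩ H _

variable {L : Type*} [Field L] [NumberField L] [Algebra K L]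

/-- (KU-int) -/
theorem ku_int {p : ℕ} (hp : p.Prime) (ζ : K) (hζ : IsPrimitiveRoot ζ p)
    [IsGalois K L] (hdeg : Module.finrank K L = p)
    (a : Kˣ) (α : L) (hα : α ^ p = algebraMap K L a) (hαK : ∀ y : K, y ^ p ≠ a)
    (x : Kˣ) (β : L) (hβ : β ^ p = algebraMap K L x) :
    ∃ (j : ℕ) (y : Kˣ), x = a ^ j * y ^ p := by
  have : Fact p.Prime := ⟨hp⟩
  have : NeZero p := ⟨hp.ne_zero⟩
  have : FiniteDimensional K L := Module.finite_of_finrank_pos (by rw [hdeg]; exact hp.pos)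
  have hinj : Function.Injective (algebraMap K L) := (algebraMap K L).injective
  have hcard : Nat.card (L ≃ₐ[K] L) = p := by rw [IsGalois.card_aut_eq_finrank, hdeg]
  have hα0 : α ≠ 0 := by
    intro h
    rw [h, zero_pow hp.ne_zero] at hα
    exact a.ne_zero (hinj (by rw [← hα, map_zero]))
  have hβ0 : β ≠ 0 := by
    intro h
    rw [h, zero_pow hp.ne_zero] at hβ
    exact x.ne_zero (hinj (by rw [← hβ, map_zero]))
  have hζL : IsPrimitiveRoot (algebraMap K L ζ) p := hζ.map_of_injective hinj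
  -- `α ∉ K`
  have hαK' : α ∉ Set.range (algebraMap K L) := by
    rintro ⟨y, rfl⟩
    rw [← map_pow] at hα
    exact hαK y (hinj hα)
  rw [IsGalois.mem_range_algebraMap_iff_fixed] at hαK'
  push Not at hαK'
  obtain ⟨σ, hσα⟩ := hαK'
  have hσ1 : σ ≠ 1 := by
    rintro rfl
    exact hσα rfl
  -- the multipliers
  have hmult : ∀ γ : L, γ ≠ 0 → (∃ c : K, γ ^ p = algebraMap K L c) →
      ∃ i < p, σ γ = algebraMap K L ζ ^ i * γ := by
    intro γ hγ0 ⟨c, hc⟩
    have h1 : (σ γ / γ) ^ p = 1 := by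
      rw [div_pow, ← map_pow, hc, AlgEquiv.commutes, div_self]
      rw [← hc]
      exact pow_ne_zero _ hγ0
    obtain ⟨i, hi, hi'⟩ := hζL.eq_pow_of_pow_eq_one h1
    exact ⟨i, hi, by rw [hi']; field_simp⟩
  obtain ⟨i, hi, hσα'⟩ := hmult α hα0 ⟨a, hα⟩
  obtain ⟨j, hj, hσβ'⟩ := hmult β hβ0 ⟨x, hβ⟩
  have hi0 : (i : ZMod p) ≠ 0 := by
    intro h0
    rw [ZMod.natCast_eq_zero_iff] at h0
    have : i = 0 := Nat.eq_zero_of_dvd_of_lt h0 hi
    rw [this, pow_zero, one_mul] at hσα'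
    exact hσα hσα'
  set j' : ℕ := ((j : ZMod p) * (i : ZMod p)⁻¹).val with hj'
  have hmod : i * j' ≡ j [MOD p] := by
    rw [← ZMod.natCast_eq_natCast_iff]
    push_cast
    rw [hj', ZMod.natCast_zmod_val, mul_comm (j : ZMod p), ← mul_assoc, mul_inv_cancel₀ hi0, one_mul]
  have hpow : (algebraMap K L ζ ^ i) ^ j' = algebraMap K L ζ ^ j := by
    rw [← pow_mul, pow_eq_pow_mod (i * j') hζL.pow_eq_one, pow_eq_pow_mod j hζL.pow_eq_one]
    congr 1
  -- the element `β / α ^ j'` is fixed by `σ`, hence by the whole Galois group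
  set y₀ : L := β / α ^ j' with hy₀
  have hσy : σ y₀ = y₀ := by
    rw [hy₀, map_div₀, map_pow, hσβ', hσα', mul_pow, hpow]
    have hz : algebraMap K L ζ ^ j ≠ 0 := pow_ne_zero _ (hζL.ne_zero hp.ne_zero)
    field_simp
  have htop : Subgroup.zpowers σ = ⊤ := zpowers_eq_top_of_prime_card hcard hσ1
  have hfix : ∀ τ : L ≃ₐ[K] L, τ y₀ = y₀ := by
    intro τ
    have hmem : τ ∈ Subgroup.zpowers σ := by rw [htop]; trivial
    have hle : Subgroup.zpowers σ ≤ MulAction.stabilizer (L ≃ₐ[K] L) y₀ := by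
      rw [Subgroup.zpowers_le]
      exact hσy
    exact hle hmem
  obtain ⟨y, hy⟩ := (IsGalois.mem_range_algebraMap_iff_fixed y₀).mpr hfix
  have hy0 : y ≠ 0 := by
    intro h
    rw [h, map_zero] at hy
    exact div_ne_zero hβ0 (pow_ne_zero _ hα0) hy.symm
  refine ⟨j', Units.mk0 y hy0, ?_⟩
  apply Units.ext
  apply hinj
  simp only [Units.val_mul, Units.val_pow_eq_pow_val, Units.val_mk0, map_mul, map_pow]
  rw [← hβ, ← hα, hy, hy₀, div_pow, ← pow_mul, ← pow_mul, mul_comm p j']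
  field_simp

/-- (KU-res) -/
theorem ku_res {p : ℕ}
    (x : Kˣ) (β : L) (hβ : β ^ p = algebraMap K L x)
    (P : Ideal (𝓞 L)) [P.IsPrime] (hP : P ≠ ⊥)
    (hx : IsUnitAt (P.under (𝓞 K)) x)
    (hres : ∀ z : 𝓞 L, ∃ w : 𝓞 K, z - algebraMap (𝓞 K) (𝓞 L) w ∈ P) :
    IsLocalPow p (P.under (𝓞 K)) 1 x := by
  rcases Nat.eq_zero_or_pos p with rfl | hp0
  · -- `p = 0`: `x = 1`
    rw [pow_zero] at hβ
    have hx1 : x = 1 := by
      apply Units.ext
      apply (algebraMap K L).injective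
      rw [← hβ, Units.val_one, map_one]
    exact ⟨1, by rw [hx1]; simpa using oneModPow_one (P.under (𝓞 K)) 1⟩
  obtain ⟨a, b, ha, hb, -, hab⟩ := hx
  have hab' : (x : K) * algebraMap (𝓞 K) K b = algebraMap (𝓞 K) K a := hab
  have hb0 : b ≠ 0 := by
    rintro rfl
    exact hb (Ideal.zero_mem _)
  -- `γ = b β` is integral
  have hγp : ((algebraMap K L (algebraMap (𝓞 K) K b)) * β) ^ p =
      algebraMap K L (algebraMap (𝓞 K) K (a * b ^ (p - 1))) := by
    rw [mul_pow, hβ, ← map_pow, ← map_mul]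
    congr 1
    rw [map_mul, map_pow, ← hab']
    have : (algebraMap (𝓞 K) K b) ^ p = (algebraMap (𝓞 K) K b) ^ (p - 1) * algebraMap (𝓞 K) K b := by
      rw [← pow_succ, Nat.sub_add_cancel hp0]
    rw [this]
    ring
  have hγint : IsIntegral ℤ ((algebraMap K L (algebraMap (𝓞 K) K b)) * β) := by
    refine IsIntegral.of_pow hp0 ?_
    rw [hγp]
    exact ((a * b ^ (p - 1) : 𝓞 K)).isIntegral_coe.map (algebraMap K L).toIntAlgHom
  set γ : 𝓞 L := ⟨(algebraMap K L (algebraMap (𝓞 K) K b)) * β, hγint⟩ with hγ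
  obtain ⟨w, hw⟩ := hres γ
  -- `a b^(p-1) - w^p ∈ v`
  have h1 : algebraMap (𝓞 K) (𝓞 L) (a * b ^ (p - 1)) = γ ^ p := by
    apply RingOfIntegers.ext
    show algebraMap (𝓞 L) L (algebraMap (𝓞 K) (𝓞 L) (a * b ^ (p - 1))) = algebraMap (𝓞 L) L (γ ^ p)
    rw [← IsScalarTower.algebraMap_apply (𝓞 K) (𝓞 L) L,
      IsScalarTower.algebraMap_apply (𝓞 K) K L, ← hγp, map_pow]
    rfl
  have hmem : a * b ^ (p - 1) - w ^ p ∈ P.under (𝓞 K) := by
    rw [Ideal.under_def, Ideal.mem_comap, map_sub, map_pow, h1]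
    exact Ideal.mem_of_dvd _ (sub_dvd_pow_sub_pow γ (algebraMap (𝓞 K) (𝓞 L) w) p) hw
  have hprime : (P.under (𝓞 K)).IsPrime := inferInstance
  have hab1 : a * b ^ (p - 1) ∉ P.under (𝓞 K) := by
    intro h
    rcases hprime.mem_or_mem h with h | h
    · exact ha h
    · exact hb (hprime.mem_of_pow_mem _ h)
  have hwp : w ^ p ∉ P.under (𝓞 K) := by
    intro h
    apply hab1
    have := Ideal.add_mem _ hmem h
    rwa [sub_add_cancel] at this
  have hw0 : w ≠ 0 := by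
    rintro rfl
    apply hwp
    rw [zero_pow hp0.ne']
    exact Ideal.zero_mem _
  have hbK : algebraMap (𝓞 K) K b ≠ 0 := by
    simpa using hb0
  have hwK : algebraMap (𝓞 K) K w ≠ 0 := by
    simpa using hw0
  refine ⟨Units.mk0 (algebraMap (𝓞 K) K w / algebraMap (𝓞 K) K b) (div_ne_zero hwK hbK),
    a * b ^ (p - 1), w ^ p, hab1, hwp, by simpa using hmem, ?_⟩
  show ((x / Units.mk0 (algebraMap (𝓞 K) K w / algebraMap (𝓞 K) K b) (div_ne_zero hwK hbK) ^ p : Kˣ) : K) *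
    algebraMap (𝓞 K) K (w ^ p) = algebraMap (𝓞 K) K (a * b ^ (p - 1))
  rw [Units.val_div_eq_div_val, Units.val_pow_eq_pow_val, Units.val_mk0, map_pow, map_mul, map_pow,
    ← hab']
  have : (algebraMap (𝓞 K) K b) ^ p = (algebraMap (𝓞 K) K b) ^ (p - 1) * algebraMap (𝓞 K) K b := by
    rw [← pow_succ, Nat.sub_add_cancel hp0]
  rw [div_pow, this]
  field_simp

end Fermat.Agent.S14.SI.KummerGlobal
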