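/-
T14 / SI package KU, item (KU-ram): tame ramification of a Kummer extension of prime degree `p`
at a prime `P ∤ p` where `p ∤ ord_v x`.  Proved here with the binder list of
`Fermat.Agent.S14.SI.tame_of_not_dvd_ord` (file `SI/Kummer.lean`).

By-products (exported): the dictionary `IsUnitAt v u ↔ v-adic valuation of u is 1`,
`β ∉ K`, the inertia group is everything, `τ β = β → τ = 1`.
-/
import Fermat.Agent.S14.SI.Defs

set_option autoImplicit false
set_option linter.unusedSectionVars false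

open NumberField IsDedekindDomain WithZero

namespace Fermat.Agent.S14.SI.KummerRam

open Fermat.Agent.S14.SI

section Bridge

variable {K : Type*} [Field K] [NumberField K]

/-- `IsUnitAt` from the adic valuation. -/
theorem isUnitAt_of_valuation_eq_one (v : HeightOneSpectrum (𝓞 K)) (u : Kˣ)
    (h : v.valuation K (u : K) = 1) : IsUnitAt v.asIdeal u := by
  obtain ⟨n, d, hnd⟩ := v.exists_primeCompl_mul_eq_of_integer (u : K) h.le
  refine ⟨n, d, ?_, d.2, by simp, hnd⟩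
  rw [← v.valuation_eq_one_iff_notMem (K := K), ← hnd, map_mul, h, one_mul]
  exact (v.valuation_eq_one_iff_notMem (K := K)).mpr d.2

/-- the adic valuation of a unit at `v` is `1`. -/
theorem valuation_eq_one_of_isUnitAt (v : HeightOneSpectrum (𝓞 K)) (u : Kˣ)
    (h : IsUnitAt v.asIdeal u) : v.valuation K (u : K) = 1 := by
  obtain ⟨a, b, ha, hb, -, hab⟩ := h
  have h1 : v.valuation K (u : K) * v.valuation K (algebraMap (𝓞 K) K b) =
      v.valuation K (algebraMap (𝓞 K) K a) := by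
    rw [← map_mul]; exact congrArg _ hab
  rw [(v.valuation_eq_one_iff_notMem (K := K)).mpr ha,
    (v.valuation_eq_one_iff_notMem (K := K)).mpr hb, mul_one] at h1
  exact h1

theorem isUnitAt_iff_valuation_eq_one (v : HeightOneSpectrum (𝓞 K)) (u : Kˣ) :
    IsUnitAt v.asIdeal u ↔ v.valuation K (u : K) = 1 :=
  ⟨valuation_eq_one_of_isUnitAt v u, isUnitAt_of_valuation_eq_one v u⟩

/-- If the valuation of `x` is a `p`-th power in the value group, `x` is a unit at `v` up to a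
`p`-th power. -/
theorem exists_isUnitAt_div_pow (v : HeightOneSpectrum (𝓞 K)) (p : ℕ) (x : Kˣ) (γ : ℤᵐ⁰)
    (hγ : v.valuation K (x : K) = γ ^ p) : ∃ y : Kˣ, IsUnitAt v.asIdeal (x / y ^ p) := by
  rcases Nat.eq_zero_or_pos p with rfl | hp
  · refine ⟨1, isUnitAt_of_valuation_eq_one v _ ?_⟩
    simpa using hγ
  have hγ0 : γ ≠ 0 := by
    rintro rfl
    rw [zero_pow hp.ne'] at hγ
    exact (Valuation.ne_zero_iff _).mpr x.ne_zero hγ
  obtain ⟨y, hy⟩ := v.valuation_surjective K γ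
  have hy0 : y ≠ 0 := by
    rintro rfl
    rw [map_zero] at hy
    exact hγ0 hy.symm
  refine ⟨Units.mk0 y hy0, isUnitAt_of_valuation_eq_one v _ ?_⟩
  simp only [Units.val_div_eq_div_val, Units.val_pow_eq_pow_val, Units.val_mk0, map_div₀, map_pow,
    hy, hγ]
  exact div_self (pow_ne_zero _ hγ0)

end Bridge


section Generic

variable {S : Type*} [CommRing S] [IsDedekindDomain S]

/-- a ring endomorphism that is trivial modulo `P` maps `P ^ k` into itself. -/
theorem map_mem_pow (P : Ideal S) (f : S →+* S) (hf : ∀ z, f z - z ∈ P) (k : ℕ) {z : S}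
    (hz : z ∈ P ^ k) : f z ∈ P ^ k := by
  have h1 : P.map f ≤ P := by
    rw [Ideal.map_le_iff_le_comap]
    intro z hz
    have : f z = (f z - z) + z := by ring
    rw [Ideal.mem_comap, this]
    exact Ideal.add_mem _ (hf z) hz
  have h2 : f z ∈ (P ^ k).map f := Ideal.mem_map_of_mem f hz
  rw [Ideal.map_pow] at h2
  exact Ideal.pow_right_mono h1 k h2

/-- if `f π ≡ π mod P²` then `f π ^ m ≡ π ^ m mod P ^ (m+1)`. -/
theorem pow_sub_pow_mem (P : Ideal S) (a b : S) (ha : a ∈ P) (hb : b ∈ P) (hab : a - b ∈ P ^ 2)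
    (m : ℕ) : a ^ m - b ^ m ∈ P ^ (m + 1) := by
  induction m with
  | zero => simp
  | succ m ih =>
    have : a ^ (m + 1) - b ^ (m + 1) = a * (a ^ m - b ^ m) + b ^ m * (a - b) := by ring
    rw [this]
    refine Ideal.add_mem _ ?_ ?_
    · rw [pow_succ' P (m + 1)]
      exact Ideal.mul_mem_mul ha ih
    · have h3 : b ^ m * (a - b) ∈ P ^ m * P ^ 2 := Ideal.mul_mem_mul (Ideal.pow_mem_pow hb m) hab
      rwa [← pow_add] at h3

/-- **Core of tameness**: let `f` be a ring endomorphism of a Dedekind domain which is trivial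
modulo `P` and satisfies `f π ≡ π mod P²` for a uniformiser `π`.  If `f B = c * B` with `B ≠ 0`
then `c ≡ 1 mod P`. -/
theorem sub_one_mem_of_map_eq_mul (P : Ideal S) [P.IsPrime] (hP : P ≠ ⊥)
    (f : S →+* S) (hf : ∀ z, f z - z ∈ P) (π : S) (hπ : π ∈ P) (hπ2 : π ∉ P ^ 2)
    (hfπ : f π - π ∈ P ^ 2) (B c : S) (hB : B ≠ 0) (hfB : f B = c * B) : c - 1 ∈ P := by
  classical
  let w : HeightOneSpectrum S := ⟨P, inferInstance, hP⟩
  have hmem : ∀ (z : S) (n : ℕ), z ∈ P ^ n ↔ w.intValuation z ≤ exp (-(n : ℤ)) :=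
    fun z n => (w.intValuation_le_pow_iff_mem z n).symm
  -- the order of `B`
  obtain ⟨m, hm⟩ : ∃ m : ℕ, w.intValuation B = exp (-(m : ℤ)) :=
    ⟨_, w.intValuation_eq_exp_neg_multiplicity hB⟩
  have hBm : B ∈ P ^ m := by rw [hmem, hm]
  have hBm' : B ∉ P ^ (m + 1) := by
    rw [hmem, hm, exp_le_exp]
    push_cast
    omega
  -- the order of `π` is one
  have hπ0 : π ≠ 0 := by
    rintro rfl
    exact hπ2 (Ideal.zero_mem _)
  obtain ⟨j, hj⟩ : ∃ j : ℕ, w.intValuation π = exp (-(j : ℤ)) :=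
    ⟨_, w.intValuation_eq_exp_neg_multiplicity hπ0⟩
  have hj1 : j = 1 := by
    have h1 : π ∈ P ^ 1 := by simpa using hπ
    rw [hmem, hj, exp_le_exp] at h1
    rw [hmem, hj, exp_le_exp] at hπ2
    push_cast at h1 hπ2
    omega
  subst hj1
  have hπm : π ^ m ∈ P ^ m := Ideal.pow_mem_pow hπ m
  have hπm' : π ^ m ∉ P ^ (m + 1) := by
    rw [hmem, map_pow, hj, ← exp_nsmul, exp_le_exp]
    push_cast
    simp
  obtain ⟨d, e, he, hde⟩ := Ideal.exists_mul_add_mem_pow_succ hP (π ^ m) B hπm hπm' hBm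
  have hfπP : f π ∈ P := by
    have : f π = (f π - π) + π := by ring
    rw [this]
    exact Ideal.add_mem _ (hf π) hπ
  have key : f B - B ∈ P ^ (m + 1) := by
    have h1 : f B - B = (f π ^ m - π ^ m) * f d + π ^ m * (f d - d) + (f e - e) := by
      rw [← hde]
      simp only [map_add, map_mul, map_pow]
      ring
    rw [h1]
    refine Ideal.add_mem _ (Ideal.add_mem _ ?_ ?_) ?_
    · exact Ideal.mul_mem_right _ _ (pow_sub_pow_mem P _ _ hfπP hπ hfπ m)
    · rw [pow_succ P m]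
      exact Ideal.mul_mem_mul hπm (hf d)
    · exact Ideal.sub_mem _ (map_mem_pow P f hf _ he) he
  have key2 : B * (c - 1) ∈ P ^ (m + 1) := by
    have : B * (c - 1) = f B - B := by rw [hfB]; ring
    rw [this]
    exact key
  exact Ideal.mem_prime_of_mul_mem_pow hP hBm' key2

end Generic

section Main

variable {K : Type*} [Field K] [NumberField K]
variable {L : Type*} [Field L] [NumberField L] [Algebra K L]

theorem coe_smul_integer (τ : L ≃ₐ[K] L) (z : 𝓞 L) : ((τ • z : 𝓞 L) : L) = τ (z : L) := rfl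

/-- (Step A) under `hord`, `β` is not in `K`. -/
theorem beta_notMem_range {p : ℕ} (hp : p.Prime) (x : Kˣ) (β : L)
    (hβ : β ^ p = algebraMap K L x) (v : Ideal (𝓞 K)) [v.IsPrime]
    (hord : ¬ ∃ y : Kˣ, IsUnitAt v (x / y ^ p)) : β ∉ Set.range (algebraMap K L) := by
  rintro ⟨y, rfl⟩
  have hy : y ^ p = (x : K) := by
    apply (algebraMap K L).injective
    rw [map_pow]; exact hβ
  have hy0 : y ≠ 0 := by
    rintro rfl
    rw [zero_pow hp.ne_zero] at hy
    exact x.ne_zero hy.symm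
  refine hord ⟨Units.mk0 y hy0, ?_⟩
  have : x / (Units.mk0 y hy0) ^ p = 1 := by
    rw [div_eq_one]
    ext
    simp [hy]
  rw [this]
  exact oneModPow_one v 0

/-- (Step B) under `hord` the inertia group of `P` is the whole Galois group. -/
theorem inertia_eq_top {p : ℕ} (hp : p.Prime) [IsGalois K L] (hdeg : Module.finrank K L = p)
    (x : Kˣ) (β : L) (hβ : β ^ p = algebraMap K L x)
    (P : Ideal (𝓞 L)) [P.IsPrime] (hP : P ≠ ⊥)
    (hord : ¬ ∃ y : Kˣ, IsUnitAt (P.under (𝓞 K)) (x / y ^ p)) :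
    P.inertia (L ≃ₐ[K] L) = ⊤ := by
  have : Fact (Nat.Prime (Nat.card (L ≃ₐ[K] L))) :=
    ⟨by rw [IsGalois.card_aut_eq_finrank, hdeg]; exact hp⟩
  rcases Subgroup.eq_bot_or_eq_top_of_prime_card (P.inertia (L ≃ₐ[K] L)) with h | h
  swap
  · exact h
  exfalso
  have hv : P.under (𝓞 K) ≠ ⊥ := Ideal.under_ne_bot (𝓞 K) hP
  have hcard : Nat.card (P.inertia (L ≃ₐ[K] L)) = 1 := by rw [h]; exact Subgroup.card_bot
  have he : (P.under (𝓞 K)).ramificationIdx' P = 1 := by
    rw [Ideal.ramificationIdx'_eq_ramificationIdx (P.under (𝓞 K)) P hv,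
      ← Ideal.ramificationIdxIn_eq_ramificationIdx (P.under (𝓞 K)) P (L ≃ₐ[K] L),
      ← Ideal.card_inertia_eq_ramificationIdxIn (G := L ≃ₐ[K] L) (P.under (𝓞 K)) P, hcard]
  let vv : HeightOneSpectrum (𝓞 K) := ⟨P.under (𝓞 K), inferInstance, hv⟩
  let ww : HeightOneSpectrum (𝓞 L) := ⟨P, inferInstance, hP⟩
  have : ww.asIdeal.LiesOver vv.asIdeal := inferInstanceAs (P.LiesOver (P.under (𝓞 K)))
  have hval := HeightOneSpectrum.valuation_liesOver L vv ww (x : K)
  have he' : vv.asIdeal.ramificationIdx' ww.asIdeal = 1 := he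
  rw [he', pow_one, ← hβ, map_pow] at hval
  exact hord (exists_isUnitAt_div_pow vv p x _ hval)

/-- (Step C1) a nontrivial element of the Galois group moves `β`. -/
theorem eq_one_of_apply_eq {p : ℕ} (hp : p.Prime) [IsGalois K L]
    (hdeg : Module.finrank K L = p) (β : L) (hβK : β ∉ Set.range (algebraMap K L))
    (τ : L ≃ₐ[K] L) (hτ : τ β = β) : τ = 1 := by
  have : Fact (Nat.Prime (Nat.card (L ≃ₐ[K] L))) :=
    ⟨by rw [IsGalois.card_aut_eq_finrank, hdeg]; exact hp⟩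
  have hmem : τ ∈ MulAction.stabilizer (L ≃ₐ[K] L) β := hτ
  rcases Subgroup.eq_bot_or_eq_top_of_prime_card (MulAction.stabilizer (L ≃ₐ[K] L) β) with h | h
  · rw [h] at hmem
    exact Subgroup.mem_bot.mp hmem
  · exfalso
    apply hβK
    rw [IsGalois.mem_range_algebraMap_iff_fixed]
    intro f
    have : f ∈ MulAction.stabilizer (L ≃ₐ[K] L) β := by rw [h]; exact Subgroup.mem_top f
    exact this


/-- `1 - ξ` divides `p` for a primitive `p`-th root of unity `ξ` in a domain. -/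
theorem one_sub_dvd_prime {R : Type*} [CommRing R] [IsDomain R] {p : ℕ} (hp : p.Prime) {ξ : R}
    (hξ : IsPrimitiveRoot ξ p) : (1 - ξ) ∣ (p : R) := by
  obtain ⟨n, rfl⟩ : ∃ n, p = n + 1 := ⟨p - 1, (Nat.succ_pred_eq_of_pos hp.pos).symm⟩
  have h := hξ.prod_one_sub_pow_eq_order
  have hn : 0 < n := by
    have := hp.two_le
    omega
  have hdvd : (1 - ξ ^ (0 + 1)) ∣ ∏ k ∈ Finset.range n, (1 - ξ ^ (k + 1)) :=
    Finset.dvd_prod_of_mem _ (Finset.mem_range.mpr hn)
  rw [h] at hdvd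
  simpa using hdvd

/-- (Step C) tameness: a nontrivial `τ` moves every uniformiser at `P` nontrivially modulo `P²`. -/
theorem smul_sub_notMem_sq {p : ℕ} (hp : p.Prime) [IsGalois K L]
    (hdeg : Module.finrank K L = p) (x : Kˣ) (β : L) (hβ : β ^ p = algebraMap K L x)
    (hβK : β ∉ Set.range (algebraMap K L))
    (P : Ideal (𝓞 L)) [P.IsPrime] (hP : P ≠ ⊥) (hPp : (p : 𝓞 L) ∉ P)
    (τ : L ≃ₐ[K] L) (hτ : ∀ z : 𝓞 L, τ • z - z ∈ P) (hτ1 : τ ≠ 1)
    (π : 𝓞 L) (hπ : π ∈ P) (hπ2 : π ∉ P ^ 2) : τ • π - π ∉ P ^ 2 := by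
  intro hcontra
  have hβ0 : β ≠ 0 := by
    rintro rfl
    rw [zero_pow hp.ne_zero] at hβ
    exact (_root_.map_ne_zero (algebraMap K L)).mpr x.ne_zero hβ.symm
  -- the root of unity `ξ = τ β / β`
  set ξ : L := τ β / β with hξdef
  have hτβ : τ β = ξ * β := by rw [hξdef, div_mul_cancel₀ _ hβ0]
  have hξp : ξ ^ p = 1 := by
    rw [hξdef, div_pow, ← map_pow, hβ, AlgEquiv.commutes, div_self]
    rw [← hβ]; exact pow_ne_zero _ hβ0
  have hξ1 : ξ ≠ 1 := by
    intro h1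
    apply hτ1
    apply eq_one_of_apply_eq hp hdeg β hβK τ
    rw [hτβ, h1, one_mul]
  have : Fact p.Prime := ⟨hp⟩
  have hξprim : IsPrimitiveRoot ξ p := by
    have := IsPrimitiveRoot.orderOf ξ
    rwa [orderOf_eq_prime hξp hξ1] at this
  have hξint : IsIntegral ℤ ξ := hξprim.isIntegral hp.pos
  let ξi : 𝓞 L := ⟨ξ, hξint⟩
  have hξi : IsPrimitiveRoot ξi p := by
    refine IsPrimitiveRoot.of_map_of_injective (f := algebraMap (𝓞 L) L) ?_
      (RingOfIntegers.coe_injective)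
    exact hξprim
  -- an integral multiple of `β`
  have halg : IsAlgebraic ℤ β :=
    (IsFractionRing.isAlgebraic_iff ℤ ℚ L).mpr (Algebra.IsAlgebraic.isAlgebraic β)
  obtain ⟨d, hd0, hdint⟩ := halg.exists_integral_multiple
  let B : 𝓞 L := ⟨d • β, hdint⟩
  have hB0 : B ≠ 0 := by
    intro h
    have h' : (B : L) = 0 := by rw [h]; rfl
    have : d • β = 0 := h'
    rw [zsmul_eq_mul, mul_eq_zero] at this
    rcases this with h1 | h1
    · exact hd0 (by exact_mod_cast h1)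
    · exact hβ0 h1
  have hτB : τ • B = ξi * B := by
    apply RingOfIntegers.coe_injective
    show τ (d • β) = ξ * (d • β)
    rw [zsmul_eq_mul, map_mul, map_intCast, hτβ]
    ring
  -- apply the core lemma
  have hmem : ξi - 1 ∈ P :=
    sub_one_mem_of_map_eq_mul P hP (MulSemiringAction.toRingHom (L ≃ₐ[K] L) (𝓞 L) τ)
      (fun z => hτ z) π hπ hπ2 hcontra B ξi hB0 hτB
  obtain ⟨c, hc⟩ := one_sub_dvd_prime hp hξi
  apply hPp
  rw [hc]
  have : (1 - ξi) = -(ξi - 1) := by ring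
  rw [this]
  exact Ideal.mul_mem_right _ _ (Ideal.neg_mem_iff _ |>.mpr hmem)

/-- **(KU-ram)** with the binder list of `Fermat.Agent.S14.SI.tame_of_not_dvd_ord`. -/
theorem tame_of_not_dvd_ord' {p : ℕ} (hp : p.Prime) (ζ : K) (_hζ : IsPrimitiveRoot ζ p)
    [IsGalois K L] (hdeg : Module.finrank K L = p)
    (x : Kˣ) (β : L) (hβ : β ^ p = algebraMap K L x)
    (P : Ideal (𝓞 L)) [P.IsPrime] (hP : P ≠ ⊥) (hPp : (p : 𝓞 L) ∉ P)
    (hord : ¬ ∃ y : Kˣ, IsUnitAt (P.under (𝓞 K)) (x / y ^ p)) :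
    (∀ (τ : L ≃ₐ[K] L) (z : 𝓞 L), τ • z - z ∈ P) ∧
    (∀ (τ : L ≃ₐ[K] L), τ ≠ 1 → ∀ π : 𝓞 L, π ∈ P → π ∉ P ^ 2 → τ • π - π ∉ P ^ 2) := by
  have h1 : ∀ (τ : L ≃ₐ[K] L) (z : 𝓞 L), τ • z - z ∈ P := by
    intro τ
    have hI := inertia_eq_top hp hdeg x β hβ P hP hord
    have : τ ∈ P.inertia (L ≃ₐ[K] L) := by rw [hI]; exact Subgroup.mem_top τ
    exact AddSubgroup.mem_inertia.mp this
  refine ⟨h1, fun τ hτ1 π hπ hπ2 => ?_⟩
  exact smul_sub_notMem_sq hp hdeg x β hβ (beta_notMem_range hp x β hβ _ hord) P hP hPp τ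
    (h1 τ) hτ1 π hπ hπ2

end Main

end Fermat.Agent.S14.SI.KummerRam
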