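/-
T14 / SI package KU, local theorem (KU-split), helper78.
`β ∈ L`, `β^p = x ∈ Kˣ`, `L = K(β)` Galois; `P` a prime of `L`, `v = P ∩ K`;
`x` a local `p`-th power at `v` up to precision `prec p v`  ⟹  the decomposition group of `P`
is trivial.

Proof.  `x / y^p = a / b`, `a, b ∈ 𝓞 K ∖ v`, `a ≡ b mod v^n`, `n = prec p v = p·ord_v(ζ-1) + 1`.
`γ := b β / y` satisfies `γ^p - b^p = b^(p-1) (a - b)`, so `w(γ^p - b^p) < w(ζ-1)^p` for the `P`-adic
valuation `w` of `L`.  Apply the abstract ultrametric lemma `root_eq_one_of_decomp`.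
-/
import Fermat.Agent.S14.SI.Defs
import Fermat.Agent.S14_helper78.KummerVal

set_option autoImplicit false

open NumberField IsDedekindDomain Polynomial

namespace Fermat.Agent.S14.SI.KummerSplit

open Fermat.Agent.S14_helper78

variable {K : Type*} [Field K] [NumberField K]
variable {L : Type*} [Field L] [NumberField L] [Algebra K L]

omit [NumberField K] in
/-- An automorphism in the decomposition group of `P` preserves the maximal ideal of the
`P`-adic valuation. -/
lemma valuation_lt_one_of_decomp (w : HeightOneSpectrum (𝓞 L)) (τ : L ≃ₐ[K] L)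
    (hτ : ∀ z : 𝓞 L, z ∈ w.asIdeal → τ • z ∈ w.asIdeal) (z : L)
    (hz : w.valuation L z < 1) : w.valuation L (τ z) < 1 := by
  obtain ⟨n, d, hnd⟩ := w.exists_primeCompl_mul_eq_of_integer z hz.le
  have hd1 : w.valuation L (algebraMap (𝓞 L) L d) = 1 :=
    (w.valuation_eq_one_iff_notMem).mpr d.2
  have hn' : w.valuation L (algebraMap (𝓞 L) L n) < 1 := by
    rw [← hnd, map_mul, hd1, mul_one]; exact hz
  have hn : n ∈ w.asIdeal := (w.valuation_lt_one_iff_mem (K := L) n).mp hn'
  -- the preimage of `P` under `τ` is `P`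
  have hmax : w.asIdeal.IsMaximal := w.isPrime.isMaximal w.ne_bot
  have hτd : τ • (d : 𝓞 L) ∉ w.asIdeal := by
    intro hmem
    let Q : Ideal (𝓞 L) := w.asIdeal.comap (MulSemiringAction.toRingHom (L ≃ₐ[K] L) (𝓞 L) τ)
    have hle : w.asIdeal ≤ Q := fun u hu => hτ u hu
    have hQ : Q ≠ ⊤ := by
      intro h
      have h1 : (1 : 𝓞 L) ∈ Q := h ▸ Submodule.mem_top
      have h2 : τ • (1 : 𝓞 L) ∈ w.asIdeal := h1
      rw [smul_one] at h2
      exact w.isPrime.ne_top ((Ideal.eq_top_iff_one _).mpr h2)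
    have hQeq : w.asIdeal = Q := hmax.eq_of_le hQ hle
    have : (d : 𝓞 L) ∈ Q := hmem
    rw [← hQeq] at this
    exact d.2 this
  have hτd1 : w.valuation L (τ (algebraMap (𝓞 L) L d)) = 1 := by
    have : τ (algebraMap (𝓞 L) L d) = algebraMap (𝓞 L) L (τ • (d : 𝓞 L)) := rfl
    rw [this]
    exact (w.valuation_eq_one_iff_notMem).mpr hτd
  have hτn : w.valuation L (τ (algebraMap (𝓞 L) L n)) < 1 := by
    have : τ (algebraMap (𝓞 L) L n) = algebraMap (𝓞 L) L (τ • n) := rfl
    rw [this]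
    exact (w.valuation_lt_one_iff_mem _).mpr (hτ n hn)
  have h := congrArg τ hnd
  rw [map_mul] at h
  have h2 : w.valuation L (τ z) * 1 = w.valuation L (τ (algebraMap (𝓞 L) L n)) := by
    rw [← hτd1, ← map_mul, h]
  rw [mul_one] at h2
  rw [h2]; exact hτn

/-- the valuation of `ζ - 1` controls `prec`: if `vv (ζ-1) = exp (-c)` then `prec p v = p c + 1`. -/
lemma prec_eq {p : ℕ} (hp : p.Prime) (ζ : K) (hζ : IsPrimitiveRoot ζ p)
    (v : HeightOneSpectrum (𝓞 K)) :
    ∃ c : ℕ, v.valuation K (ζ - 1) = WithZero.exp (-(c : ℤ)) ∧ prec p v.asIdeal = p * c + 1 := by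
  have hp0 := hp.ne_zero
  have hζint : IsIntegral ℤ ζ := by
    refine IsIntegral.of_pow hp.pos ?_
    rw [hζ.pow_eq_one]; exact isIntegral_one
  set ζ' : 𝓞 K := ⟨ζ, hζint⟩ with hζ'
  have hne : ζ' - 1 ≠ 0 := by
    intro h
    have h1 := congrArg (algebraMap (𝓞 K) K) h
    rw [map_sub, map_one, map_zero] at h1
    exact hζ.ne_one hp.one_lt (sub_eq_zero.mp h1)
  have hval : v.valuation K (ζ - 1) = v.intValuation (ζ' - 1) := by
    rw [← v.valuation_of_algebraMap (K := K) (ζ' - 1)]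
    rfl
  refine ⟨multiplicity v.asIdeal (Ideal.span {ζ' - 1}), ?_, ?_⟩
  · rw [hval, v.intValuation_eq_exp_neg_multiplicity hne]
  · set c := multiplicity v.asIdeal (Ideal.span {ζ' - 1}) with hc
    have hpne : (p : 𝓞 K) ≠ 0 := by
      exact_mod_cast (Nat.cast_ne_zero (R := 𝓞 K)).mpr hp0
    have h1 : v.valuation K (p : K) = WithZero.exp (-((ordP p v.asIdeal : ℕ) : ℤ)) := by
      have : (p : K) = algebraMap (𝓞 K) K (p : 𝓞 K) := by simp
      rw [this, v.valuation_of_algebraMap, v.intValuation_eq_exp_neg_multiplicity hpne]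
      rfl
    have h2 := val_prime_eq (v.valuation K) hp hζ
    rw [h1, hval, v.intValuation_eq_exp_neg_multiplicity hne, ← WithZero.exp_nsmul,
      WithZero.exp_inj] at h2
    have h3 : ordP p v.asIdeal = (p - 1) * c := by
      have : ((ordP p v.asIdeal : ℕ) : ℤ) = ((p - 1 : ℕ) : ℤ) * (c : ℤ) := by
        rw [nsmul_eq_mul] at h2; linarith
      exact_mod_cast this
    unfold prec
    rw [h3]
    have hp1 : 0 < p - 1 := by have := hp.one_lt; omega
    have : p * ((p - 1) * c) / (p - 1) = p * c := by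
      rw [show p * ((p - 1) * c) = (p - 1) * (p * c) by ring]
      exact Nat.mul_div_cancel_left _ hp1
    rw [this]

/-- (KU-split) -/
theorem decomposition_trivial_of_isLocalPow {p : ℕ} (hp : p.Prime) (_hp2 : p ≠ 2)
    (ζ : K) (hζ : IsPrimitiveRoot ζ p) [IsGalois K L]
    (x : Kˣ) (β : L) (hβ : β ^ p = algebraMap K L x)
    (hL : IntermediateField.adjoin K {β} = ⊤)
    (P : Ideal (𝓞 L)) [P.IsPrime] (hP : P ≠ ⊥)
    (hloc : IsLocalPow p (P.under (𝓞 K)) (prec p (P.under (𝓞 K))) x)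
    (τ : L ≃ₐ[K] L) (hτ : ∀ z : 𝓞 L, z ∈ P → τ • z ∈ P) : τ = 1 := by
  have hp0 : p ≠ 0 := hp.ne_zero
  have : NeZero p := ⟨hp0⟩
  -- the two height one primes
  have hv0 : P.under (𝓞 K) ≠ ⊥ := Ideal.IsIntegral.comap_ne_bot (𝓞 K) hP
  let v : HeightOneSpectrum (𝓞 K) := ⟨P.under (𝓞 K), inferInstance, hv0⟩
  let w : HeightOneSpectrum (𝓞 L) := ⟨P, inferInstance, hP⟩
  have : w.asIdeal.LiesOver v.asIdeal := inferInstanceAs (P.LiesOver (P.under (𝓞 K)))
  obtain ⟨y, a, b, ha, hb, hab, habx⟩ := hloc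
  obtain ⟨c, hc, hprec⟩ := prec_eq hp ζ hζ v
  have hprec' : prec p (P.under (𝓞 K)) = p * c + 1 := hprec
  rw [hprec'] at hab
  -- basic elements
  have hb0 : (b : K) ≠ 0 := by
    intro h
    apply hb
    have : b = 0 := by
      apply RingOfIntegers.ext
      simpa using h
    rw [this]; exact Ideal.zero_mem _
  have hy0 : (y : K) ≠ 0 := y.ne_zero
  have hx0 : (x : K) ≠ 0 := x.ne_zero
  set ζL : L := algebraMap K L ζ with hζL
  have hζLprim : IsPrimitiveRoot ζL p := hζ.map_of_injective (algebraMap K L).injective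
  set yL : L := algebraMap K L (y : K) with hyL
  set bL : L := algebraMap K L (b : K) with hbL
  set aL : L := algebraMap K L (a : K) with haL
  have hyL0 : yL ≠ 0 := (map_ne_zero (algebraMap K L)).2 hy0
  have hbL0 : bL ≠ 0 := (map_ne_zero (algebraMap K L)).2 hb0
  have hβ0 : β ≠ 0 := by
    intro h
    rw [h, zero_pow hp0] at hβ
    exact (map_ne_zero (algebraMap K L)).2 hx0 hβ.symm
  set γ : L := bL * β / yL with hγ
  -- γ^p - b^p = b^(p-1) (a - b)
  have hγp : γ ^ p - bL ^ p = bL ^ (p - 1) * (aL - bL) := by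
    have h1 : ((x / y ^ p : Kˣ) : K) = (x : K) / (y : K) ^ p := by
      simp [Units.val_div_eq_div_val]
    have h2 : (x : K) / (y : K) ^ p * (b : K) = (a : K) := by rw [← h1]; exact habx
    have h3 : algebraMap K L (x : K) / yL ^ p * bL = aL := by
      rw [haL, ← h2, map_mul, map_div₀, map_pow]
    have hbp : bL ^ p = bL ^ (p - 1) * bL := by
      rw [← pow_succ, Nat.sub_add_cancel hp.one_le]
    rw [hγ, div_pow, mul_pow, hβ, mul_sub, ← hbp, ← h3, hbp]
    field_simp
  -- valuations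
  have hwb : w.valuation L bL = 1 := by
    have : bL = algebraMap (𝓞 L) L (algebraMap (𝓞 K) (𝓞 L) b) := by
      rw [hbL, ← IsScalarTower.algebraMap_apply (𝓞 K) (𝓞 L) L,
        IsScalarTower.algebraMap_apply (𝓞 K) K L]
    rw [this, w.valuation_eq_one_iff_notMem]
    exact fun h => hb h
  have hclose : w.valuation L (γ ^ p - bL ^ p) < w.valuation L (ζL - 1) ^ p := by
    rw [hγp, map_mul, map_pow, hwb, one_pow, one_mul]
    have e0 : v.asIdeal.ramificationIdx' w.asIdeal ≠ 0 :=
      Ideal.IsDedekindDomain.ramificationIdx'_ne_zero_of_liesOver w.asIdeal v.ne_bot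
    have h1 : aL - bL = algebraMap K L ((a : K) - (b : K)) := by rw [map_sub]
    have h2 : ζL - 1 = algebraMap K L (ζ - 1) := by rw [map_sub, map_one]
    rw [h1, h2, ← v.valuation_liesOver L w, ← v.valuation_liesOver L w, ← pow_mul, mul_comm,
      pow_mul]
    refine pow_lt_pow_left₀ ?_ zero_le e0
    rw [hc, ← WithZero.exp_nsmul]
    have h3 : v.valuation K ((a : K) - (b : K)) ≤ WithZero.exp (-((p * c + 1 : ℕ) : ℤ)) := by
      have : (a : K) - (b : K) = algebraMap (𝓞 K) K (a - b) := by rw [map_sub]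
      rw [this, v.valuation_of_algebraMap, v.intValuation_le_pow_iff_mem]
      exact hab
    refine lt_of_le_of_lt h3 ?_
    rw [WithZero.exp_lt_exp]
    push_cast
    rw [nsmul_eq_mul]
    linarith
  -- the root of unity τβ/β
  have hωp : (τ β / β) ^ p = 1 := by
    rw [div_pow, ← map_pow, hβ, AlgEquiv.commutes, div_self]
    rw [← hβ]; exact pow_ne_zero _ hβ0
  obtain ⟨j, -, hj⟩ := hζLprim.eq_pow_of_pow_eq_one hωp
  have hτβ' : τ β = ζL ^ j * β := by
    rw [hj]; field_simp
  have hτγ : τ.toRingEquiv γ = ζL ^ j * γ := by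
    show τ γ = ζL ^ j * γ
    rw [hγ, map_div₀, map_mul, hτβ', hbL, hyL, AlgEquiv.commutes, AlgEquiv.commutes]
    ring
  have hone : ζL ^ j = 1 :=
    root_eq_one_of_decomp (w.valuation L) hp hζLprim hwb hclose τ.toRingEquiv
      (fun z hz => valuation_lt_one_of_decomp w τ hτ z hz)
      (by show τ ζL = ζL; rw [hζL, AlgEquiv.commutes])
      (by show τ bL = bL; rw [hbL, AlgEquiv.commutes]) hτγ
  have hτβ : τ β = β := by rw [hτβ', hone, one_mul]
  -- conclude
  have hfix : ∀ z ∈ IntermediateField.adjoin K {β}, τ z = z := by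
    intro z hz
    induction hz using IntermediateField.adjoin_induction with
    | mem u hu =>
      rw [Set.mem_singleton_iff] at hu
      rw [hu]; exact hτβ
    | algebraMap u => exact τ.commutes u
    | add u u' _ _ hu hu' => rw [map_add, hu, hu']
    | inv u _ hu => rw [map_inv₀, hu]
    | mul u u' _ _ hu hu' => rw [map_mul, hu, hu']
  ext z
  exact hfix z (by rw [hL]; exact IntermediateField.mem_top)

end Fermat.Agent.S14.SI.KummerSplit
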