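/-
T14 / SI package KU, local theorem (KU-unram), helper55.
`β ∈ L`, `β^p = x ∈ Kˣ`, `L = K(β)` Galois; `P` a prime of `L` not above `p`, `v = P ∩ K`,
`p ∣ ord_v x` (in the form: `x / y^p` is a unit at `v` for some `y`) ⟹ the inertia group of `P`
is trivial.

Proof.  `x / y^p = a / b` with `a, b ∈ 𝓞 K ∖ v`.  `δ := (β / y) b` satisfies `δ^p = a b^(p-1) =: c`,
`c ∈ 𝓞 K ∖ v`, so `δ ∈ 𝓞 L ∖ P`.  For `τ` in the inertia group, `ω := τδ/δ` is a `p`-th root of unity
(integral) with `(ω - 1) δ ∈ P`, hence `ω ≡ 1 mod P`; if `ω ≠ 1` then `1 + ω + … + ω^(p-1) = 0`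
reduces to `p ≡ 0 mod P`, a contradiction.  So `τδ = δ`, `τβ = β`, and `τ = 1` as `L = K(β)`.
-/
import Fermat.Agent.S14.SI.Defs

set_option autoImplicit false

open NumberField IsDedekindDomain Polynomial

namespace Fermat.Agent.S14.SI.KummerUnram

variable {K : Type*} [Field K] [NumberField K]
variable {L : Type*} [Field L] [NumberField L] [Algebra K L]

/-- A `p`-th root of unity `ω ≠ 1` in a domain with `ω - 1 ∈ P` forces `p ∈ P`. -/
lemma natCast_mem_of_pow_eq_one {R : Type*} [CommRing R] [IsDomain R] (P : Ideal R) {p : ℕ}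
    (ω : R) (hω : ω ^ p = 1) (hω1 : ω ≠ 1) (hmem : ω - 1 ∈ P) : (p : R) ∈ P := by
  have hsum : ∑ i ∈ Finset.range p, ω ^ i = 0 := by
    have h := geom_sum_mul ω p
    rw [hω, sub_self] at h
    rcases mul_eq_zero.1 h with h0 | h0
    · exact h0
    · exact absurd (sub_eq_zero.1 h0) hω1
  have hmk : Ideal.Quotient.mk P ω = 1 := by
    have := Ideal.Quotient.eq_zero_iff_mem.2 hmem
    rwa [map_sub, map_one, sub_eq_zero] at this
  have : Ideal.Quotient.mk P (p : R) = 0 := by
    have h2 : Ideal.Quotient.mk P (∑ i ∈ Finset.range p, ω ^ i) = (p : R ⧸ P) := by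
      simp [map_sum, map_pow, hmk]
    rw [map_natCast, ← h2, hsum, map_zero]
  exact Ideal.Quotient.eq_zero_iff_mem.1 this

/-- (KU-unram) -/
theorem inertia_trivial_of_dvd_ord {p : ℕ} (hp : p.Prime) (ζ : K) (hζ : IsPrimitiveRoot ζ p)
    [IsGalois K L] (x : Kˣ) (β : L) (hβ : β ^ p = algebraMap K L x)
    (hL : IntermediateField.adjoin K {β} = ⊤)
    (P : Ideal (𝓞 L)) [P.IsPrime] (hP : P ≠ ⊥) (hPp : (p : 𝓞 L) ∉ P)
    (hord : ∃ y : Kˣ, IsUnitAt (P.under (𝓞 K)) (x / y ^ p))
    (τ : L ≃ₐ[K] L) (hτ : ∀ z : 𝓞 L, τ • z - z ∈ P) : τ = 1 := by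
  obtain ⟨y, a, b, ha, hb, -, hab⟩ := hord
  have hp0 : p ≠ 0 := hp.ne_zero
  have hb0 : (b : K) ≠ 0 := by
    intro h
    apply hb
    have : b = 0 := by
      apply RingOfIntegers.ext
      simpa using h
    rw [this]; exact Ideal.zero_mem _
  have hy0 : (y : K) ≠ 0 := y.ne_zero
  -- the element `δ`
  set yL : L := algebraMap K L (y : K) with hyL
  set bL : L := algebraMap K L (b : K) with hbL
  have hyL0 : yL ≠ 0 := by
    rw [hyL]; exact (map_ne_zero (algebraMap K L)).2 hy0
  have hbL0 : bL ≠ 0 := by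
    rw [hbL]; exact (map_ne_zero (algebraMap K L)).2 hb0
  set δ : L := β / yL * bL with hδ
  set c : 𝓞 K := a * b ^ (p - 1) with hc
  have hδp : δ ^ p = algebraMap K L (c : K) := by
    have h1 : ((x / y ^ p : Kˣ) : K) = (x : K) / (y : K) ^ p := by
      simp [Units.val_div_eq_div_val]
    have h2 : (x : K) / (y : K) ^ p * (b : K) = (a : K) := by rw [← h1]; exact hab
    have h3 : (c : K) = (x : K) / (y : K) ^ p * (b : K) ^ p := by
      have h4 : (c : K) = (a : K) * (b : K) ^ (p - 1) := by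
        rw [hc]
        show algebraMap (𝓞 K) K (a * b ^ (p - 1)) = _
        rw [map_mul, map_pow]
      rw [h4, ← h2]
      have : (b : K) ^ p = (b : K) * (b : K) ^ (p - 1) := by
        rw [← pow_succ', Nat.sub_add_cancel hp.one_le]
      rw [this]; ring
    rw [hδ, mul_pow, div_pow, hβ, h3, map_mul, map_div₀, map_pow, map_pow]
  -- `δ` is integral
  have hδint : IsIntegral ℤ δ := by
    have hcint : IsIntegral ℤ (algebraMap K L (c : K)) := by
      have : IsIntegral ℤ (c : K) := RingOfIntegers.isIntegral_coe c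
      exact this.map (IsScalarTower.toAlgHom ℤ K L)
    rw [← hδp] at hcint
    exact IsIntegral.of_pow hp.pos hcint
  set δ' : 𝓞 L := ⟨δ, hδint⟩ with hδ'
  have hδ'c : δ' ^ p = algebraMap (𝓞 K) (𝓞 L) c := by
    apply RingOfIntegers.ext
    show (algebraMap (𝓞 L) L) (δ' ^ p) = algebraMap (𝓞 L) L (algebraMap (𝓞 K) (𝓞 L) c)
    rw [map_pow, ← IsScalarTower.algebraMap_apply (𝓞 K) (𝓞 L) L,
      IsScalarTower.algebraMap_apply (𝓞 K) K L]
    exact hδp
  have hcv : c ∉ P.under (𝓞 K) := by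
    intro h
    rcases Ideal.IsPrime.mem_or_mem (inferInstance : (P.under (𝓞 K)).IsPrime) h with h1 | h1
    · exact ha h1
    · exact hb (Ideal.IsPrime.mem_of_pow_mem inferInstance _ h1)
  have hδP : δ' ∉ P := by
    intro h
    apply hcv
    rw [Ideal.under_def, Ideal.mem_comap, ← hδ'c]
    exact Ideal.pow_mem_of_mem _ h _ hp.pos
  have hδ0 : δ ≠ 0 := by
    intro h
    apply hδP
    have : δ' = 0 := by
      apply RingOfIntegers.ext
      show δ = ((0 : 𝓞 L) : L)
      rw [h]; exact (map_zero (algebraMap (𝓞 L) L)).symm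
    rw [this]; exact Ideal.zero_mem _
  -- `τ δ = δ`
  have hτδ : τ δ = δ := by
    by_contra hne
    set ω : L := τ δ / δ with hω
    have hωp : ω ^ p = 1 := by
      rw [hω, div_pow, ← map_pow, hδp, AlgEquiv.commutes, div_self]
      rw [← hδp]; exact pow_ne_zero _ hδ0
    have hωint : IsIntegral ℤ ω := by
      refine IsIntegral.of_pow hp.pos ?_
      rw [hωp]; exact isIntegral_one
    set ω' : 𝓞 L := ⟨ω, hωint⟩ with hω'
    have hω'p : ω' ^ p = 1 := by
      apply RingOfIntegers.ext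
      show (algebraMap (𝓞 L) L) (ω' ^ p) = algebraMap (𝓞 L) L 1
      rw [map_pow, map_one]; exact hωp
    have hω'1 : ω' ≠ 1 := by
      intro h
      apply hne
      have h1 : ω = 1 := by
        have h2 := congrArg (algebraMap (𝓞 L) L) h
        rw [map_one] at h2
        exact h2
      rw [hω] at h1
      exact (div_eq_one_iff_eq hδ0).1 h1
    have hmul : (ω' - 1) * δ' = τ • δ' - δ' := by
      apply RingOfIntegers.ext
      show (algebraMap (𝓞 L) L) ((ω' - 1) * δ') = algebraMap (𝓞 L) L (τ • δ' - δ')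
      rw [map_mul, map_sub, map_sub, map_one]
      show (ω - 1) * δ = τ δ - δ
      rw [hω]; field_simp
    have hmem : ω' - 1 ∈ P := by
      have h := hτ δ'
      rw [← hmul] at h
      rcases Ideal.IsPrime.mem_or_mem inferInstance h with h1 | h1
      · exact h1
      · exact absurd h1 hδP
    exact hPp (natCast_mem_of_pow_eq_one P ω' hω'p hω'1 hmem)
  -- `τ β = β`
  have hβδ : β = δ * yL / bL := by
    rw [hδ]; field_simp
  have hτβ : τ β = β := by
    rw [hβδ, map_div₀, map_mul, hτδ, hyL, hbL, AlgEquiv.commutes, AlgEquiv.commutes]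
  -- conclude
  have hfix : ∀ z ∈ IntermediateField.adjoin K {β}, τ z = z := by
    intro z hz
    induction hz using IntermediateField.adjoin_induction with
    | mem w hw =>
      rw [Set.mem_singleton_iff] at hw
      rw [hw]; exact hτβ
    | algebraMap w => exact τ.commutes w
    | add w w' _ _ hw hw' => rw [map_add, hw, hw']
    | inv w _ hw => rw [map_inv₀, hw]
    | mul w w' _ _ hw hw' => rw [map_mul, hw, hw']
  ext z
  exact hfix z (by rw [hL]; exact IntermediateField.mem_top)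

end Fermat.Agent.S14.SI.KummerUnram
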