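/-
T14 / SI package KU (Kummer toolkit for degree `p` over a number field `K ⊇ μ_p`).
`kummerExt K p x` := splitting field of `X^p - x` (a number field, Galois over `K`, of degree `p`
unless `x` is a `p`-th power).  Mathlib: `Mathlib/FieldTheory/KummerExtension.lean`.

(KU-int)   `L = K(α)`, `α^p = a ∈ Kˣ`; if `x ∈ Kˣ` is a `p`-th power in `L` then `x = a^j y^p` in `K`
           (`β` with `β^p = x`: `σβ = ζ^j β` for a generator `σ` with `σα = ζα`, so `β/α^j ∈ K`).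
(KU-unram) `β ∈ L`, `β^p = x ∈ Kˣ`, `L = K(β)` Galois; `P` a prime of `L` not above `p`, `v = P ∩ K`,
           `p ∣ ord_v x` ⟹ inertia group of `P` trivial   (WLOG `x` unit at `v`; `X^p - x` separable mod `P`:
           if `τ` is in the inertia group then `τβ/β ∈ μ_p` is `≡ 1 mod P`, and `μ_p → (𝓞/P)ˣ` is injective).
(KU-ram)   same setting, `p ∤ ord_v x`, `L ≠ K` ⟹ every `τ ∈ Gal(L/K)` is in the inertia group of `P`
           (`e = p`: `p · ord_P β = e · ord_v x`), and for `π ∈ P \ P²`, `τ ≠ 1`: `τπ - π ∉ P²`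
           (`τβ/β = ζ^j = (τπ/π)^(ord_P β) · unit≡1`).
(KU-split) `IsLocalPow p v (prec p v) x` ⟹ every prime of `L = K(β)`, `β^p = x`, above `v` has
           trivial decomposition group.  (WLOG `x ≡ 1 mod v^n`; `t := (β-1)/(1-ζ)` is a root of a monic
           integral polynomial `≡ T^p - T mod v`, which has `p` distinct roots in `k_v`; lying-over
           gives `p` distinct primes above `v`.)
(KU-res)   converse, easy: `P` over `v` with `𝓞 K/v → 𝓞 L/P` onto, `x` unit at `v`, `β^p = x`, `β ∈ L`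
           ⟹ `IsLocalPow p v 1 x`.
-/
import Fermat.Agent.S14.SI.Defs
import Fermat.Agent.S14.SI.KummerGlobal
import Fermat.Agent.S14.SI.KummerUnram
import Fermat.Agent.S14.SI.KummerRam
import Fermat.Agent.S14.SI.KummerSplit

set_option autoImplicit false

open NumberField IsDedekindDomain Polynomial

namespace Fermat.Agent.S14.SI

variable (K : Type*) [Field K] [NumberField K]

/-- `K(x^(1/p))` as the splitting field of `X^p - x`. -/
abbrev kummerExt (p : ℕ) (x : K) : Type _ := (X ^ p - C x : K[X]).SplittingField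

noncomputable instance (p : ℕ) (x : K) : NumberField (kummerExt K p x) :=
  NumberField.of_module_finite K _

variable {K}

theorem kummerExt_isGalois {p : ℕ} (hp : p.Prime) (ζ : K) (hζ : IsPrimitiveRoot ζ p) (x : K) :
    IsGalois K (kummerExt K p x) :=
  KummerGlobal.splittingField_isGalois p x

theorem finrank_kummerExt {p : ℕ} (hp : p.Prime) (ζ : K) (hζ : IsPrimitiveRoot ζ p) (x : K)
    (hx : ∀ y : K, y ^ p ≠ x) : Module.finrank K (kummerExt K p x) = p :=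
  KummerGlobal.finrank_splittingField hp ζ hζ x hx

variable {L : Type*} [Field L] [NumberField L] [Algebra K L]

/-- (KU-int) -/
theorem eq_pow_mul_pow_of_isPow_top {p : ℕ} (hp : p.Prime) (ζ : K) (hζ : IsPrimitiveRoot ζ p)
    [IsGalois K L] (hdeg : Module.finrank K L = p)
    (a : Kˣ) (α : L) (hα : α ^ p = algebraMap K L a) (hαK : ∀ y : K, y ^ p ≠ a)
    (x : Kˣ) (β : L) (hβ : β ^ p = algebraMap K L x) :
    ∃ (j : ℕ) (y : Kˣ), x = a ^ j * y ^ p :=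
  KummerGlobal.ku_int hp ζ hζ hdeg a α hα hαK x β hβ

/-- (KU-unram) -/
theorem inertia_trivial_of_dvd_ord {p : ℕ} (hp : p.Prime) (ζ : K) (hζ : IsPrimitiveRoot ζ p)
    [IsGalois K L] (x : Kˣ) (β : L) (hβ : β ^ p = algebraMap K L x)
    (hL : IntermediateField.adjoin K {β} = ⊤)
    (P : Ideal (𝓞 L)) [P.IsPrime] (hP : P ≠ ⊥) (hPp : (p : 𝓞 L) ∉ P)
    (hord : ∃ y : Kˣ, IsUnitAt (P.under (𝓞 K)) (x / y ^ p))
    (τ : L ≃ₐ[K] L) (hτ : ∀ z : 𝓞 L, τ • z - z ∈ P) : τ = 1 :=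
  KummerUnram.inertia_trivial_of_dvd_ord hp ζ hζ x β hβ hL P hP hPp hord τ hτ

/-- (KU-ram) -/
theorem tame_of_not_dvd_ord {p : ℕ} (hp : p.Prime) (ζ : K) (hζ : IsPrimitiveRoot ζ p)
    [IsGalois K L] (hdeg : Module.finrank K L = p)
    (x : Kˣ) (β : L) (hβ : β ^ p = algebraMap K L x)
    (P : Ideal (𝓞 L)) [P.IsPrime] (hP : P ≠ ⊥) (hPp : (p : 𝓞 L) ∉ P)
    (hord : ¬ ∃ y : Kˣ, IsUnitAt (P.under (𝓞 K)) (x / y ^ p)) :
    (∀ (τ : L ≃ₐ[K] L) (z : 𝓞 L), τ • z - z ∈ P) ∧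
    (∀ (τ : L ≃ₐ[K] L), τ ≠ 1 → ∀ π : 𝓞 L, π ∈ P → π ∉ P ^ 2 → τ • π - π ∉ P ^ 2) :=
  KummerRam.tame_of_not_dvd_ord' hp ζ hζ hdeg x β hβ P hP hPp hord

/-- (KU-split) -/
theorem decomposition_trivial_of_isLocalPow {p : ℕ} (hp : p.Prime) (hp2 : p ≠ 2)
    (ζ : K) (hζ : IsPrimitiveRoot ζ p) [IsGalois K L]
    (x : Kˣ) (β : L) (hβ : β ^ p = algebraMap K L x)
    (hL : IntermediateField.adjoin K {β} = ⊤)
    (P : Ideal (𝓞 L)) [P.IsPrime] (hP : P ≠ ⊥)
    (hloc : IsLocalPow p (P.under (𝓞 K)) (prec p (P.under (𝓞 K))) x)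
    (τ : L ≃ₐ[K] L) (hτ : ∀ z : 𝓞 L, z ∈ P → τ • z ∈ P) : τ = 1 :=
  KummerSplit.decomposition_trivial_of_isLocalPow hp hp2 ζ hζ x β hβ hL P hP hloc τ hτ

/-- (KU-res) -/
theorem isLocalPow_one_of_residue_surjective {p : ℕ}
    (x : Kˣ) (β : L) (hβ : β ^ p = algebraMap K L x)
    (P : Ideal (𝓞 L)) [P.IsPrime] (hP : P ≠ ⊥)
    (hx : IsUnitAt (P.under (𝓞 K)) x)
    (hres : ∀ z : 𝓞 L, ∃ w : 𝓞 K, z - algebraMap (𝓞 K) (𝓞 L) w ∈ P) :
    IsLocalPow p (P.under (𝓞 K)) 1 x :=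
  KummerGlobal.ku_res x β hβ P hP hx hres

end Fermat.Agent.S14.SI
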