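/-
T14 / SI package WA (weak approximation at finite level, = CRT).
For finitely many distinct nonzero primes `v` of `𝓞 K`, prescribed `x_v ∈ Kˣ` and precisions `n_v`,
there is `x ∈ Kˣ` with `x / x_v ≡ 1 mod v^(n_v)` for all `v`.  (In particular `ord_v x = ord_v x_v`.)
Proof: common denominator `d`, `x_v = a_v / d`; CRT gives `A ≡ a_v` modulo `v^(n_v + 1 + ord_v a_v)`;
put `x = A / d`; then `x / x_v - 1 = (A - a_v) / a_v` has valuation `≤ exp (-(n_v + 1))`.
-/
import Fermat.Agent.S14.SI.Defs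

set_option autoImplicit false

open NumberField IsDedekindDomain WithZero

namespace Fermat.Agent.S14.SI

/-- valuation criterion for `OneModPow` -/
theorem oneModPow_of_valuation {K : Type*} [Field K] [NumberField K]
    (v : HeightOneSpectrum (𝓞 K)) (n : ℕ) (z : Kˣ)
    (h1 : v.valuation K (z : K) = 1) (h2 : v.valuation K ((z : K) - 1) ≤ exp (-(n : ℤ))) :
    OneModPow v.asIdeal n z := by
  obtain ⟨a, ⟨b, hb⟩, hab⟩ := v.exists_primeCompl_mul_eq_of_integer (z : K) h1.le
  have hbv : v.intValuation b = 1 := (v.intValuation_eq_one_iff_mem_primeCompl b).mpr hb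
  have hbK : v.valuation K (algebraMap (𝓞 K) K b) = 1 := by
    rw [HeightOneSpectrum.valuation_of_algebraMap, hbv]
  refine ⟨a, b, ?_, hb, ?_, hab⟩
  · rw [← v.intValuation_lt_one_iff_mem, not_lt, ← HeightOneSpectrum.valuation_of_algebraMap (K := K),
      Algebra.cast, ← hab, map_mul, h1, hbK, mul_one]
  · rw [← v.intValuation_le_pow_iff_mem, ← HeightOneSpectrum.valuation_of_algebraMap (K := K),
      Algebra.cast, map_sub, ← hab]
    have : (z : K) * algebraMap (𝓞 K) K b - algebraMap (𝓞 K) K b =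
        ((z : K) - 1) * algebraMap (𝓞 K) K b := by ring
    rw [this, map_mul, hbK, mul_one]
    exact h2

theorem OneModPow.of_le {K : Type*} [Field K] [NumberField K] {v : Ideal (𝓞 K)} {n m : ℕ}
    (h : m ≤ n) {x : Kˣ} (hx : OneModPow v n x) : OneModPow v m x := by
  obtain ⟨a, b, ha, hb, hab, hx⟩ := hx
  exact ⟨a, b, ha, hb, Ideal.pow_le_pow_right h hab, hx⟩

theorem exists_approx {K : Type*} [Field K] [NumberField K]
    (S : Finset (HeightOneSpectrum (𝓞 K))) (x : HeightOneSpectrum (𝓞 K) → Kˣ)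
    (n : HeightOneSpectrum (𝓞 K) → ℕ) :
    ∃ y : Kˣ, ∀ v ∈ S, OneModPow v.asIdeal (n v) (y / x v) := by
  classical
  rcases S.eq_empty_or_nonempty with rfl | hS
  · exact ⟨1, by simp⟩
  -- a common denominator
  obtain ⟨d, hd⟩ := IsLocalization.exist_integer_multiples_of_finset (nonZeroDivisors (𝓞 K))
    (S.image fun v => ((x v : Kˣ) : K))
  have hd0 : (algebraMap (𝓞 K) K (d : 𝓞 K)) ≠ 0 := by
    have : (d : 𝓞 K) ≠ 0 := nonZeroDivisors.coe_ne_zero d
    simp [this]
  have ha : ∀ v ∈ S, ∃ a : 𝓞 K, algebraMap (𝓞 K) K a = algebraMap (𝓞 K) K (d : 𝓞 K) * (x v : K) := by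
    intro v hv
    obtain ⟨a, ha⟩ := hd _ (Finset.mem_image_of_mem _ hv)
    exact ⟨a, by rw [ha, Algebra.smul_def]⟩
  choose! a ha using ha
  have ha0 : ∀ v ∈ S, a v ≠ 0 := by
    intro v hv h0
    have := ha v hv
    rw [h0, map_zero] at this
    exact mul_ne_zero hd0 (x v).ne_zero this.symm
  -- CRT
  obtain ⟨A, hA⟩ := IsDedekindDomain.exists_forall_sub_mem_ideal (s := S) (fun v => v.asIdeal)
    (fun v => n v + 1 + multiplicity v.asIdeal (Ideal.span {a v})) (fun v _ => v.prime)
    (fun v _ w _ hvw h => hvw (HeightOneSpectrum.ext h)) (fun v => a v.1)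
  -- the valuation estimate
  have key : ∀ v ∈ S, v.valuation K ((algebraMap (𝓞 K) K A - algebraMap (𝓞 K) K (a v)) /
      algebraMap (𝓞 K) K (a v)) ≤ exp (-((n v + 1 : ℕ) : ℤ)) := by
    intro v hv
    have h1 := (v.intValuation_le_pow_iff_mem _ _).mpr (hA v hv)
    have h2 := v.intValuation_eq_exp_neg_multiplicity (ha0 v hv)
    rw [map_div₀, ← map_sub, HeightOneSpectrum.valuation_of_algebraMap,
      HeightOneSpectrum.valuation_of_algebraMap, h2]
    rw [div_le_iff₀ (exp_pos), ← exp_add]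
    refine h1.trans (le_of_eq ?_)
    congr 1
    push_cast
    ring
  -- `A ≠ 0`
  obtain ⟨v₀, hv₀⟩ := hS
  have hA0 : algebraMap (𝓞 K) K A ≠ 0 := by
    intro h0
    have := key v₀ hv₀
    rw [h0, zero_sub, neg_div, div_self (by
      have := ha0 v₀ hv₀
      simpa using this), Valuation.map_neg, map_one, ← exp_zero, exp_le_exp] at this
    push_cast at this
    omega
  refine ⟨Units.mk0 (algebraMap (𝓞 K) K A / algebraMap (𝓞 K) K (d : 𝓞 K)) (div_ne_zero hA0 hd0),
    fun v hv => ?_⟩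
  have hav : algebraMap (𝓞 K) K (a v) ≠ 0 := by
    have := ha0 v hv
    simpa using this
  have hz : ((Units.mk0 (algebraMap (𝓞 K) K A / algebraMap (𝓞 K) K (d : 𝓞 K))
      (div_ne_zero hA0 hd0) / x v : Kˣ) : K) = algebraMap (𝓞 K) K A / algebraMap (𝓞 K) K (a v) := by
    rw [Units.val_div_eq_div_val, Units.val_mk0, ha v hv]
    field_simp
  have hz1 : v.valuation K (algebraMap (𝓞 K) K A / algebraMap (𝓞 K) K (a v) - 1) ≤
      exp (-((n v + 1 : ℕ) : ℤ)) := by
    have := key v hv
    rwa [sub_div, div_self hav] at this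
  refine OneModPow.of_le (Nat.le_succ (n v)) (oneModPow_of_valuation v (n v + 1) _ ?_ ?_)
  · rw [hz]
    have hlt : v.valuation K (algebraMap (𝓞 K) K A / algebraMap (𝓞 K) K (a v) - 1) < 1 := by
      refine lt_of_le_of_lt hz1 ?_
      rw [← exp_zero, exp_lt_exp]
      push_cast
      omega
    have := Valuation.map_one_add_of_lt (v := v.valuation K) hlt
    rwa [add_sub_cancel] at this
  · rw [hz]
    exact hz1

end Fermat.Agent.S14.SI
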