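/-
T14 / SI: BRIDGE lemmas between the finite-level predicates of `SI/Defs.lean`
(`OneModPow`, `IsUnitAt`, `IsLocalPow`) and Mathlib's adic valuations
(`IsDedekindDomain.HeightOneSpectrum.valuation`, `Set.unit`, `valuationOfNeZero`).
Mathlib + `SI/Defs` only.  namespace Fermat.Agent.S14.SI.Bridge   (helper65)
-/
import Fermat.Agent.S14.SI.Defs

set_option autoImplicit false

open NumberField IsDedekindDomain

namespace Fermat.Agent.S14.SI.Bridge

variable {K : Type*} [Field K] [NumberField K]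

/-! ### `OneModPow`, `IsUnitAt` in terms of valuations -/

theorem oneModPow_iff (v : HeightOneSpectrum (𝓞 K)) (n : ℕ) (x : Kˣ) :
    OneModPow v.asIdeal n x ↔
      v.valuation K (x : K) = 1 ∧ v.valuation K ((x : K) - 1) ≤ WithZero.exp (-(n : ℤ)) := by
  constructor
  · rintro ⟨a, b, ha, hb, hab, h⟩
    have hva : v.valuation K (a : K) = 1 :=
      (v.valuation_eq_one_iff_notMem (K := K)).2 ha
    have hvb : v.valuation K (b : K) = 1 :=
      (v.valuation_eq_one_iff_notMem (K := K)).2 hb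
    have hx1 : v.valuation K (x : K) = 1 := by
      have := congrArg (v.valuation K) h
      rwa [map_mul, hvb, mul_one, hva] at this
    refine ⟨hx1, ?_⟩
    have h2 : ((x : K) - 1) * (b : K) = ((a - b : 𝓞 K) : K) := by
      push_cast
      rw [sub_mul, h, one_mul]
    have h3 := congrArg (v.valuation K) h2
    rw [map_mul, hvb, mul_one] at h3
    rw [h3]
    have : v.valuation K ((a - b : 𝓞 K) : K) = v.intValuation (a - b) :=
      v.valuation_of_algebraMap (K := K) (a - b)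
    rw [this]
    exact (v.intValuation_le_pow_iff_mem _ _).2 hab
  · rintro ⟨h1, h2⟩
    obtain ⟨a, ⟨b, hb⟩, hab⟩ := v.exists_primeCompl_mul_eq_of_integer (K := K) (x : K) h1.le
    have hb' : b ∉ v.asIdeal := hb
    have hvb : v.valuation K (algebraMap (𝓞 K) K b) = 1 :=
      (v.valuation_eq_one_iff_notMem (K := K)).2 hb'
    have hva : v.valuation K (algebraMap (𝓞 K) K a) = 1 := by
      rw [← hab, map_mul, h1, hvb, mul_one]
    have ha' : a ∉ v.asIdeal := (v.valuation_eq_one_iff_notMem (K := K)).1 hva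
    refine ⟨a, b, ha', hb', ?_, hab⟩
    rw [← v.intValuation_le_pow_iff_mem]
    have h4 : ((x : K) - 1) * algebraMap (𝓞 K) K b = algebraMap (𝓞 K) K (a - b) := by
      rw [map_sub, sub_mul, hab, one_mul]
    have h5 := congrArg (v.valuation K) h4
    rw [map_mul, hvb, mul_one, v.valuation_of_algebraMap] at h5
    rw [← h5]
    exact h2

theorem isUnitAt_iff (v : HeightOneSpectrum (𝓞 K)) (x : Kˣ) :
    IsUnitAt v.asIdeal x ↔ v.valuation K (x : K) = 1 := by
  unfold IsUnitAt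
  rw [oneModPow_iff]
  constructor
  · exact fun h => h.1
  · intro h
    refine ⟨h, ?_⟩
    simp only [CharP.cast_eq_zero, neg_zero, WithZero.exp_zero]
    calc v.valuation K ((x : K) - 1) ≤ max (v.valuation K (x : K)) (v.valuation K (1 : K)) :=
          Valuation.map_sub _ _ _
      _ = 1 := by rw [h, map_one, max_self]

theorem mem_unit_iff (S : Set (HeightOneSpectrum (𝓞 K))) (x : Kˣ) :
    x ∈ S.unit K ↔ ∀ v : HeightOneSpectrum (𝓞 K), v ∉ S → IsUnitAt v.asIdeal x := by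
  constructor
  · intro h v hv
    exact (isUnitAt_iff v x).2 (h v hv)
  · intro h v hv
    exact (isUnitAt_iff v x).1 (h v hv)

theorem isUnitAt_of_mem_unit {S : Set (HeightOneSpectrum (𝓞 K))} {x : Kˣ} (hx : x ∈ S.unit K)
    {v : HeightOneSpectrum (𝓞 K)} (hv : v ∉ S) : IsUnitAt v.asIdeal x :=
  (mem_unit_iff S x).1 hx v hv

/-! ### monotonicity and group closure -/

omit [NumberField K] in
theorem OneModPow.mono {v : Ideal (𝓞 K)} {m n : ℕ} (hmn : m ≤ n) {x : Kˣ}
    (h : OneModPow v n x) : OneModPow v m x := by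
  obtain ⟨a, b, ha, hb, hab, hx⟩ := h
  exact ⟨a, b, ha, hb, Ideal.pow_le_pow_right hmn hab, hx⟩

omit [NumberField K] in
theorem OneModPow.isUnitAt {v : Ideal (𝓞 K)} {n : ℕ} {x : Kˣ}
    (h : OneModPow v n x) : IsUnitAt v x :=
  OneModPow.mono (Nat.zero_le n) h

omit [NumberField K] in
theorem IsLocalPow.mono {p : ℕ} {v : Ideal (𝓞 K)} {m n : ℕ} (hmn : m ≤ n) {x : Kˣ}
    (h : IsLocalPow p v n x) : IsLocalPow p v m x := by
  obtain ⟨y, hy⟩ := h
  exact ⟨y, OneModPow.mono hmn hy⟩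

omit [NumberField K] in
theorem IsLocalPow.exists_isUnitAt {p : ℕ} {v : Ideal (𝓞 K)} {n : ℕ} {x : Kˣ}
    (h : IsLocalPow p v n x) : ∃ y : Kˣ, IsUnitAt v (x / y ^ p) := by
  obtain ⟨y, hy⟩ := h
  exact ⟨y, OneModPow.isUnitAt hy⟩

omit [NumberField K] in
theorem OneModPow.div {v : Ideal (𝓞 K)} [v.IsPrime] {n : ℕ} {x y : Kˣ}
    (hx : OneModPow v n x) (hy : OneModPow v n y) : OneModPow v n (x / y) := by
  rw [div_eq_mul_inv]
  exact hx.mul hy.inv

omit [NumberField K] in
theorem OneModPow.pow {v : Ideal (𝓞 K)} [v.IsPrime] {n : ℕ} {x : Kˣ}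
    (hx : OneModPow v n x) (k : ℕ) : OneModPow v n (x ^ k) :=
  (oneModPowSubgroup v n).pow_mem hx k

omit [NumberField K] in
theorem OneModPow.zpow {v : Ideal (𝓞 K)} [v.IsPrime] {n : ℕ} {x : Kˣ}
    (hx : OneModPow v n x) (k : ℤ) : OneModPow v n (x ^ k) :=
  (oneModPowSubgroup v n).zpow_mem hx k

omit [NumberField K] in
theorem OneModPow.isLocalPow {p : ℕ} {v : Ideal (𝓞 K)} {n : ℕ} {x : Kˣ}
    (hx : OneModPow v n x) : IsLocalPow p v n x :=
  ⟨1, by simpa using hx⟩

omit [NumberField K] in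
theorem isLocalPow_pow (p : ℕ) (v : Ideal (𝓞 K)) [v.IsPrime] (n : ℕ) (y : Kˣ) :
    IsLocalPow p v n (y ^ p) :=
  ⟨y, by simpa using oneModPow_one v n⟩

omit [NumberField K] in
theorem IsLocalPow.mul {p : ℕ} {v : Ideal (𝓞 K)} [v.IsPrime] {n : ℕ} {x y : Kˣ}
    (hx : IsLocalPow p v n x) (hy : IsLocalPow p v n y) : IsLocalPow p v n (x * y) :=
  (localPowSubgroupN p v n).mul_mem hx hy

omit [NumberField K] in
theorem IsLocalPow.inv {p : ℕ} {v : Ideal (𝓞 K)} [v.IsPrime] {n : ℕ} {x : Kˣ}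
    (hx : IsLocalPow p v n x) : IsLocalPow p v n x⁻¹ :=
  (localPowSubgroupN p v n).inv_mem hx

omit [NumberField K] in
theorem IsLocalPow.div {p : ℕ} {v : Ideal (𝓞 K)} [v.IsPrime] {n : ℕ} {x y : Kˣ}
    (hx : IsLocalPow p v n x) (hy : IsLocalPow p v n y) : IsLocalPow p v n (x / y) :=
  (localPowSubgroupN p v n).div_mem hx hy

omit [NumberField K] in
theorem IsLocalPow.pow {p : ℕ} {v : Ideal (𝓞 K)} [v.IsPrime] {n : ℕ} {x : Kˣ}
    (hx : IsLocalPow p v n x) (k : ℕ) : IsLocalPow p v n (x ^ k) :=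
  (localPowSubgroupN p v n).pow_mem hx k

omit [NumberField K] in
theorem IsLocalPow.mul_pow {p : ℕ} {v : Ideal (𝓞 K)} [v.IsPrime] {n : ℕ} {x : Kˣ}
    (hx : IsLocalPow p v n x) (y : Kˣ) : IsLocalPow p v n (x * y ^ p) :=
  IsLocalPow.mul hx (isLocalPow_pow p v n y)

/-! ### integral elements -/

/-- For `a b : 𝓞 K` prime to `v`, `a / b ≡ 1 mod v^n` iff `a ≡ b mod v^n`. -/
theorem oneModPow_div_iff (v : HeightOneSpectrum (𝓞 K)) (n : ℕ) {a b : 𝓞 K}
    (ha : a ∉ v.asIdeal) (hb : b ∉ v.asIdeal) (x : Kˣ) (hx : (x : K) * (b : K) = (a : K)) :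
    OneModPow v.asIdeal n x ↔ a - b ∈ v.asIdeal ^ n := by
  constructor
  · rintro ⟨a', b', ha', hb', hab', hx'⟩
    -- a * b' = a' * b
    have hb0 : (b : K) ≠ 0 := by
      intro h0
      apply hb
      have : b = 0 := by exact_mod_cast h0
      rw [this]; exact zero_mem _
    have h1 : (a : K) * (b' : K) = (a' : K) * (b : K) := by
      rw [← hx, ← hx']; ring
    have h2 : a * b' = a' * b := by exact_mod_cast h1
    have h3 : (a - b) * b' = (a' - b') * b := by
      rw [sub_mul, sub_mul, h2]; ring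
    have h4 : (a - b) * b' ∈ v.asIdeal ^ n := by
      rw [h3]; exact Ideal.mul_mem_right _ _ hab'
    rcases Ideal.IsPrime.mul_mem_pow v.asIdeal (by rwa [mul_comm] at h4) with h5 | h5
    · exact absurd h5 hb'
    · exact h5
  · intro h
    exact ⟨a, b, ha, hb, h, hx⟩

/-- An integer `a ≠ 0` is a unit at `v` iff `a ∉ v`. -/
theorem isUnitAt_mk0_iff (v : HeightOneSpectrum (𝓞 K)) (a : 𝓞 K) (ha : (a : K) ≠ 0) :
    IsUnitAt v.asIdeal (Units.mk0 (a : K) ha) ↔ a ∉ v.asIdeal := by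
  rw [isUnitAt_iff, Units.val_mk0]
  exact v.valuation_eq_one_iff_notMem (K := K)

/-! ### the order at `v` -/

/-- The (additive) order of `x ∈ Kˣ` at `v`. -/
noncomputable def ord (v : HeightOneSpectrum (𝓞 K)) : Kˣ →* Multiplicative ℤ :=
  (v.valuationOfNeZero)⁻¹

theorem valuation_eq (v : HeightOneSpectrum (𝓞 K)) (x : Kˣ) :
    v.valuation K (x : K) = ((ord v x)⁻¹ : Multiplicative ℤ) := by
  rw [← v.valuationOfNeZero_eq]
  simp [ord]

theorem isUnitAt_iff_ord (v : HeightOneSpectrum (𝓞 K)) (x : Kˣ) :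
    IsUnitAt v.asIdeal x ↔ ord v x = 1 := by
  rw [isUnitAt_iff, valuation_eq]
  constructor
  · intro h
    have : ((ord v x)⁻¹ : Multiplicative ℤ) = 1 := by exact_mod_cast h
    simpa using this
  · intro h
    rw [h]; simp

/-- there is an element of `Kˣ` of order `1` at `v`, and hence of any order -/
theorem exists_ord_eq (v : HeightOneSpectrum (𝓞 K)) (n : Multiplicative ℤ) :
    ∃ y : Kˣ, ord v y = n := by
  obtain ⟨π, hπ⟩ := v.valuation_exists_uniformizer K
  have hπ0 : π ≠ 0 := by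
    intro h0
    rw [h0, map_zero] at hπ
    exact WithZero.zero_ne_coe hπ
  have h1 : ord v (Units.mk0 π hπ0) = Multiplicative.ofAdd (1 : ℤ) := by
    have := valuation_eq v (Units.mk0 π hπ0)
    rw [Units.val_mk0, hπ] at this
    have h2 : (Multiplicative.ofAdd (-1 : ℤ)) = (ord v (Units.mk0 π hπ0))⁻¹ := by
      have h3 : ((Multiplicative.ofAdd (-1 : ℤ) : Multiplicative ℤ) : WithZero (Multiplicative ℤ))
          = (((ord v (Units.mk0 π hπ0))⁻¹ : Multiplicative ℤ) : WithZero (Multiplicative ℤ)) := by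
        rw [← this]; rfl
      exact_mod_cast h3
    rw [ofAdd_neg, inv_inj] at h2
    exact h2.symm
  refine ⟨(Units.mk0 π hπ0) ^ (Multiplicative.toAdd n), ?_⟩
  rw [map_zpow, h1, ← ofAdd_zsmul]
  simp

/-- `x` is a unit at `v` times a `p`-th power iff `ord_v x` is a `p`-th power in `Multiplicative ℤ`,
i.e. iff `p ∣ ord_v x`. -/
theorem exists_isUnitAt_div_pow_iff (v : HeightOneSpectrum (𝓞 K)) (p : ℕ) (x : Kˣ) :
    (∃ y : Kˣ, IsUnitAt v.asIdeal (x / y ^ p)) ↔ ∃ m : Multiplicative ℤ, ord v x = m ^ p := by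
  constructor
  · rintro ⟨y, hy⟩
    rw [isUnitAt_iff_ord, map_div, map_pow, div_eq_one] at hy
    exact ⟨ord v y, hy⟩
  · rintro ⟨m, hm⟩
    obtain ⟨y, hy⟩ := exists_ord_eq v m
    refine ⟨y, ?_⟩
    rw [isUnitAt_iff_ord, map_div, map_pow, hy, hm, div_self']

theorem exists_isUnitAt_div_pow_iff_dvd (v : HeightOneSpectrum (𝓞 K)) (p : ℕ) (x : Kˣ) :
    (∃ y : Kˣ, IsUnitAt v.asIdeal (x / y ^ p)) ↔ (p : ℤ) ∣ Multiplicative.toAdd (ord v x) := by
  rw [exists_isUnitAt_div_pow_iff]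
  constructor
  · rintro ⟨m, hm⟩
    rw [hm, toAdd_pow]
    exact ⟨Multiplicative.toAdd m, by simp⟩
  · rintro ⟨k, hk⟩
    refine ⟨Multiplicative.ofAdd k, ?_⟩
    apply Multiplicative.toAdd.injective
    rw [hk, toAdd_pow]; simp

/-! ### extensions `L/K` -/

section Extension

variable {L : Type*} [Field L] [NumberField L] [Algebra K L]

/-- A nonzero prime ideal as a `HeightOneSpectrum`. -/
def hos (P : Ideal (𝓞 L)) [P.IsPrime] (hP : P ≠ ⊥) : HeightOneSpectrum (𝓞 L) := ⟨P, ‹_›, hP⟩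

omit [NumberField L] in
@[simp] theorem hos_asIdeal (P : Ideal (𝓞 L)) [P.IsPrime] (hP : P ≠ ⊥) : (hos P hP).asIdeal = P := rfl

/-- the prime of `K` below a prime of `L` -/
noncomputable def below (K : Type*) [Field K] [NumberField K] [Algebra K L]
    (w : HeightOneSpectrum (𝓞 L)) : HeightOneSpectrum (𝓞 K) :=
  ⟨w.asIdeal.under (𝓞 K), inferInstance, Ideal.under_ne_bot (𝓞 K) w.ne_bot⟩

omit [NumberField L] in
@[simp] theorem below_asIdeal (w : HeightOneSpectrum (𝓞 L)) :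
    (below K w).asIdeal = w.asIdeal.under (𝓞 K) := rfl

instance (w : HeightOneSpectrum (𝓞 L)) : w.asIdeal.LiesOver (below K w).asIdeal :=
  ⟨rfl⟩

/-- `ord_w x = (ord_v x)^e` (multiplicative notation) for `x ∈ Kˣ`, `e ≠ 0`. -/
theorem exists_ord_map (w : HeightOneSpectrum (𝓞 L)) :
    ∃ e : ℕ, e ≠ 0 ∧ ∀ x : Kˣ, ord w (Units.map (algebraMap K L : K →* L) x) = (ord (below K w) x) ^ e := by
  refine ⟨(below K w).asIdeal.ramificationIdx' w.asIdeal,
    Ideal.IsDedekindDomain.ramificationIdx'_ne_zero_of_liesOver w.asIdeal (below K w).ne_bot, ?_⟩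
  intro x
  have h := HeightOneSpectrum.valuation_liesOver (K := K) L (below K w) w (x : K)
  rw [valuation_eq (below K w) x] at h
  have h2 := valuation_eq w (Units.map (algebraMap K L : K →* L) x)
  rw [Units.coe_map] at h2
  have h3 : (((ord (below K w) x)⁻¹ ^ (below K w).asIdeal.ramificationIdx' w.asIdeal :
      Multiplicative ℤ) : WithZero (Multiplicative ℤ)) =
      (((ord w (Units.map (algebraMap K L : K →* L) x))⁻¹ : Multiplicative ℤ) :
        WithZero (Multiplicative ℤ)) := by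
    rw [← h2, WithZero.coe_pow]
    exact h
  have h4 := WithZero.coe_injective h3
  rw [inv_pow, inv_inj] at h4
  exact h4.symm

theorem isUnitAt_map_iff (w : HeightOneSpectrum (𝓞 L)) (x : Kˣ) :
    IsUnitAt w.asIdeal (Units.map (algebraMap K L : K →* L) x) ↔
      IsUnitAt (w.asIdeal.under (𝓞 K)) x := by
  obtain ⟨e, he, h⟩ := exists_ord_map (K := K) w
  rw [isUnitAt_iff_ord, h x, ← below_asIdeal, isUnitAt_iff_ord]
  constructor
  · intro h1
    have h2 : e • Multiplicative.toAdd (ord (below K w) x) = 0 := by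
      rw [← toAdd_pow, h1]; rfl
    rw [smul_eq_zero] at h2
    rcases h2 with h2 | h2
    · exact absurd h2 he
    · exact Multiplicative.toAdd.injective h2
  · intro h1
    rw [h1, one_pow]

omit [NumberField K] [NumberField L] in
/-- congruences go up -/
theorem OneModPow.map (P : Ideal (𝓞 L)) [P.IsPrime] (n : ℕ) {x : Kˣ}
    (hx : OneModPow (P.under (𝓞 K)) n x) :
    OneModPow P n (Units.map (algebraMap K L : K →* L) x) := by
  obtain ⟨a, b, ha, hb, hab, h⟩ := hx
  refine ⟨algebraMap (𝓞 K) (𝓞 L) a, algebraMap (𝓞 K) (𝓞 L) b, ?_, ?_, ?_, ?_⟩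
  · intro hh; exact ha (by simpa [Ideal.under_def] using hh)
  · intro hh; exact hb (by simpa [Ideal.under_def] using hh)
  · rw [← map_sub]
    have h1 : (P.under (𝓞 K)).map (algebraMap (𝓞 K) (𝓞 L)) ≤ P := Ideal.map_comap_le
    have h2 : (P.under (𝓞 K) ^ n).map (algebraMap (𝓞 K) (𝓞 L)) ≤ P ^ n := by
      rw [Ideal.map_pow]; exact Ideal.pow_right_mono h1 n
    exact h2 (Ideal.mem_map_of_mem _ hab)
  · rw [Units.coe_map]
    have := congrArg (algebraMap K L) h
    rw [map_mul] at this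
    have e1 : ∀ c : 𝓞 K, ((algebraMap (𝓞 K) (𝓞 L) c : 𝓞 L) : L) = algebraMap K L (c : K) := fun c =>
      (IsScalarTower.algebraMap_apply (𝓞 K) (𝓞 L) L c).symm.trans
        (IsScalarTower.algebraMap_apply (𝓞 K) K L c)
    rw [e1, e1]
    exact this

omit [NumberField K] [NumberField L] in
theorem IsLocalPow.map {p : ℕ} (P : Ideal (𝓞 L)) [P.IsPrime] (n : ℕ) {x : Kˣ}
    (hx : IsLocalPow p (P.under (𝓞 K)) n x) :
    IsLocalPow p P n (Units.map (algebraMap K L : K →* L) x) := by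
  obtain ⟨y, hy⟩ := hx
  refine ⟨Units.map (algebraMap K L : K →* L) y, ?_⟩
  have := OneModPow.map (K := K) P n hy
  rwa [map_div, map_pow] at this

end Extension

end Fermat.Agent.S14.SI.Bridge
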