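/-
T14 / SI: the class group of a number field is generated by the classes of finitely many primes
(which may be chosen to contain any given finite set).
-/
import Mathlib

set_option autoImplicit false

open NumberField IsDedekindDomain

namespace Fermat.Agent.S14.SI.SU

open scoped nonZeroDivisors

section ClassGen

variable {R : Type*} [CommRing R] [IsDedekindDomain R]

/-- the class of a finite prime -/
noncomputable def primeClass (v : HeightOneSpectrum R) : ClassGroup R :=
  ClassGroup.mk0 ⟨v.asIdeal, mem_nonZeroDivisors_of_ne_zero v.ne_bot⟩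

/-- the subgroup of the class group generated by the primes in `T` -/
noncomputable def classSpan (T : Finset (HeightOneSpectrum R)) : Subgroup (ClassGroup R) :=
  Subgroup.closure (Set.range fun v : T => primeClass v.1)

theorem classSpan_mono {T T' : Finset (HeightOneSpectrum R)} (h : T ⊆ T') :
    classSpan T ≤ classSpan T' := by
  apply Subgroup.closure_mono
  rintro _ ⟨v, rfl⟩
  exact ⟨⟨v.1, h v.2⟩, rfl⟩

theorem primeClass_mem_classSpan {T : Finset (HeightOneSpectrum R)} {v : HeightOneSpectrum R}
    (hv : v ∈ T) : primeClass v ∈ classSpan T :=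
  Subgroup.subset_closure ⟨⟨v, hv⟩, rfl⟩

/-- every nonzero ideal class lies in the span of finitely many primes -/
theorem exists_finset_mk0_mem (I : Ideal R) :
    ∀ hI : I ≠ 0, ∃ T : Finset (HeightOneSpectrum R),
      ClassGroup.mk0 ⟨I, mem_nonZeroDivisors_of_ne_zero hI⟩ ∈ classSpan T := by
  classical
  induction I using UniqueFactorizationMonoid.induction_on_prime with
  | h₁ => intro h; exact absurd rfl h
  | h₂ x hx =>
    intro hI
    refine ⟨∅, ?_⟩
    have hx' : x = ⊤ := Ideal.isUnit_iff.mp hx
    have : ClassGroup.mk0 ⟨x, mem_nonZeroDivisors_of_ne_zero hI⟩ = 1 := by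
      rw [ClassGroup.mk0_eq_one_iff]
      simp only [hx']
      exact ⟨⟨1, by simp [Ideal.span_singleton_one]⟩⟩
    rw [this]
    exact Subgroup.one_mem _
  | h₃ a q ha hq ih =>
    intro hI
    obtain ⟨T, hT⟩ := ih ha
    set v : HeightOneSpectrum R := ⟨q, Ideal.isPrime_of_prime hq, hq.ne_zero⟩ with hv
    refine ⟨insert v T, ?_⟩
    have hmul : ClassGroup.mk0 ⟨q * a, mem_nonZeroDivisors_of_ne_zero hI⟩ =
        primeClass v * ClassGroup.mk0 ⟨a, mem_nonZeroDivisors_of_ne_zero ha⟩ := by
      rw [primeClass, ← map_mul]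
      rfl
    rw [hmul]
    exact Subgroup.mul_mem _ (primeClass_mem_classSpan (Finset.mem_insert_self v T))
      (classSpan_mono (Finset.subset_insert v T) hT)

end ClassGen

section NumberField

variable {K : Type*} [Field K] [NumberField K]

theorem exists_finset_generating_classGroup (S₀ : Finset (HeightOneSpectrum (𝓞 K))) :
    ∃ S : Finset (HeightOneSpectrum (𝓞 K)), S₀ ⊆ S ∧
      Subgroup.closure (Set.range fun v : S =>
        ClassGroup.mk0 ⟨v.1.asIdeal, mem_nonZeroDivisors_of_ne_zero v.1.ne_bot⟩) = ⊤ := by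
  classical
  have hex : ∀ c : ClassGroup (𝓞 K), ∃ T : Finset (HeightOneSpectrum (𝓞 K)), c ∈ classSpan T := by
    intro c
    obtain ⟨I, rfl⟩ := ClassGroup.mk0_surjective c
    obtain ⟨T, hT⟩ := exists_finset_mk0_mem (I : Ideal (𝓞 K)) (nonZeroDivisors.coe_ne_zero I)
    exact ⟨T, hT⟩
  choose T hT using hex
  refine ⟨S₀ ∪ Finset.univ.biUnion T, Finset.subset_union_left, ?_⟩
  rw [eq_top_iff]
  intro c _
  have hsub : T c ⊆ S₀ ∪ Finset.univ.biUnion T :=
    (Finset.subset_biUnion_of_mem T (Finset.mem_univ c)).trans Finset.subset_union_right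
  exact classSpan_mono hsub (hT c)

end NumberField

end Fermat.Agent.S14.SI.SU
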