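/-
T14 / SI: the index of the subgroup of `n`-th powers of a commutative group
(`powIndex A n = [A : A^n]`, `0` if infinite) and its behaviour in exact sequences.
Mathlib only.
-/
import Mathlib

set_option autoImplicit false

namespace Fermat.Agent.S14.SI.SU

section PowIndex

variable {A B : Type*} [CommGroup A] [CommGroup B]

/-- the subgroup of `n`-th powers -/
def powSub (A : Type*) [CommGroup A] (n : ℕ) : Subgroup A := (powMonoidHom n : A →* A).range

/-- the index `[A : A^n]` of the subgroup of `n`-th powers (`0` if infinite) -/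
noncomputable def powIndex (A : Type*) [CommGroup A] (n : ℕ) : ℕ := (powSub A n).index

theorem mem_powSub {n : ℕ} {x : A} : x ∈ powSub A n ↔ ∃ y : A, y ^ n = x := by
  rw [powSub, MonoidHom.mem_range]
  rfl

theorem pow_mem_powSub (n : ℕ) (y : A) : y ^ n ∈ powSub A n := mem_powSub.mpr ⟨y, rfl⟩

theorem powSub_map_equiv (e : A ≃* B) (n : ℕ) :
    (powSub A n).map (e : A →* B) = powSub B n := by
  ext x
  rw [Subgroup.mem_map, mem_powSub]
  constructor
  · rintro ⟨y, hy, rfl⟩
    obtain ⟨z, rfl⟩ := mem_powSub.mp hy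
    exact ⟨e z, by simp⟩
  · rintro ⟨y, rfl⟩
    exact ⟨e.symm y ^ n, pow_mem_powSub n _, by simp⟩

theorem powIndex_congr (e : A ≃* B) (n : ℕ) : powIndex A n = powIndex B n := by
  rw [powIndex, powIndex, ← powSub_map_equiv e n, Subgroup.index_map_equiv]

/-- **Exact sequences.** If `B` has no `n`-torsion then
`[A : A^n] = [ker f : (ker f)^n] * [im f : (im f)^n]`. -/
theorem powIndex_eq_mul (f : A →* B) (n : ℕ) (hB : ∀ b : B, b ^ n = 1 → b = 1) :
    powIndex A n = powIndex f.ker n * powIndex f.range n := by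
  have h1 : (powSub A n).relIndex (powSub A n ⊔ f.ker) * (powSub A n ⊔ f.ker).index =
      (powSub A n).index := Subgroup.relIndex_mul_index le_sup_left
  have h2 : (powSub A n).relIndex (powSub A n ⊔ f.ker) = (powSub A n).relIndex f.ker :=
    Subgroup.relIndex_sup_left _ _
  have h3 : (powSub A n).relIndex f.ker = powIndex f.ker n := by
    rw [Subgroup.relIndex, powIndex]
    congr 1
    ext x
    rw [Subgroup.mem_subgroupOf, mem_powSub, mem_powSub]
    constructor
    · rintro ⟨a, ha⟩
      have hfa : f a = 1 := by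
        apply hB
        rw [← map_pow, ha]
        exact x.2
      exact ⟨⟨a, hfa⟩, Subtype.ext ha⟩
    · rintro ⟨a, ha⟩
      exact ⟨a, by rw [← ha]; rfl⟩
  have h4 : (powSub A n ⊔ f.ker).index = powIndex f.range n := by
    rw [powIndex, ← Subgroup.index_comap_of_surjective (powSub f.range n)
      f.rangeRestrict_surjective]
    congr 1
    ext x
    rw [Subgroup.mem_sup, Subgroup.mem_comap, mem_powSub]
    constructor
    · rintro ⟨h, hh, k, hk, rfl⟩
      obtain ⟨a, rfl⟩ := mem_powSub.mp hh
      refine ⟨f.rangeRestrict a, ?_⟩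
      rw [← map_pow, map_mul]
      have : f.rangeRestrict k = 1 := Subtype.ext hk
      rw [this, mul_one]
    · rintro ⟨⟨y, a, rfl⟩, hy⟩
      have hy' : f a ^ n = f x := congrArg Subtype.val hy
      refine ⟨a ^ n, pow_mem_powSub n a, (a ^ n)⁻¹ * x, ?_, by group⟩
      rw [MonoidHom.mem_ker, map_mul, map_inv, map_pow, hy', inv_mul_cancel]
  rw [powIndex, ← h1, h2, h3, h4]

/-- for a finite group, `[A : A^n] = |A[n]|` -/
theorem powIndex_of_finite [Finite A] (n : ℕ) :
    powIndex A n = Nat.card (powMonoidHom n : A →* A).ker := by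
  have h1 : Nat.card (powSub A n) * (powSub A n).index = Nat.card A := Subgroup.card_mul_index _
  have h2 : Nat.card (powMonoidHom n : A →* A).ker * (powMonoidHom n : A →* A).ker.index =
      Nat.card A := Subgroup.card_mul_index _
  rw [Subgroup.index_ker] at h2
  have h3 : Nat.card (powSub A n) ≠ 0 := Nat.card_pos.ne'
  rw [powIndex]
  have h4 : Nat.card (powSub A n) * (powSub A n).index =
      Nat.card (powSub A n) * Nat.card (powMonoidHom n : A →* A).ker := by
    rw [h1, ← h2, mul_comm]
    rfl
  exact Nat.eq_of_mul_eq_mul_left (Nat.pos_of_ne_zero h3) h4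

/-- if `x ↦ x^n` is injective on `B` and `M ≤ B` has finite index then `[M : M^n] = [B : B^n]` -/
theorem powIndex_subgroup_of_index_ne_zero {n : ℕ}
    (hn : Function.Injective (powMonoidHom n : B →* B)) (M : Subgroup B) (hM : M.index ≠ 0) :
    powIndex M n = powIndex B n := by
  have h0 : (M.map (powMonoidHom n : B →* B)) ≤ M := by
    rintro x ⟨m, hm, rfl⟩
    exact pow_mem hm n
  have h1 : (M.map (powMonoidHom n : B →* B)).relIndex M * M.index =
      (M.map (powMonoidHom n : B →* B)).index := Subgroup.relIndex_mul_index h0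
  have h2 : (M.map (powMonoidHom n : B →* B)).index = M.index * powIndex B n :=
    Subgroup.index_map_of_injective M hn
  have h3 : (M.map (powMonoidHom n : B →* B)).relIndex M = powIndex M n := by
    rw [Subgroup.relIndex, powIndex]
    congr 1
    ext x
    rw [Subgroup.mem_subgroupOf, Subgroup.mem_map, mem_powSub]
    constructor
    · rintro ⟨m, hm, hx⟩
      exact ⟨⟨m, hm⟩, Subtype.ext hx⟩
    · rintro ⟨m, hm⟩
      exact ⟨m, m.2, by rw [← hm]; rfl⟩
  rw [h3, h2, mul_comm] at h1
  exact Nat.eq_of_mul_eq_mul_left (Nat.pos_of_ne_zero hM) h1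

/-- `[ℤ^ι : n ℤ^ι] = n^|ι|` (multiplicative notation) -/
theorem powIndex_pi_int (ι : Type*) [Fintype ι] (n : ℕ) [NeZero n] :
    powIndex (ι → Multiplicative ℤ) n = n ^ Fintype.card ι := by
  classical
  let φ : (ι → Multiplicative ℤ) →* (ι → Multiplicative (ZMod n)) :=
    MonoidHom.pi fun i =>
      (AddMonoidHom.toMultiplicative (Int.castAddHom (ZMod n))).comp (Pi.evalMonoidHom _ i)
  have hφ : ∀ b i, φ b i = Multiplicative.ofAdd ((Multiplicative.toAdd (b i) : ℤ) : ZMod n) :=
    fun b i => rfl
  have hsurj : Function.Surjective φ := by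
    intro c
    refine ⟨fun i => Multiplicative.ofAdd ((Multiplicative.toAdd (c i)).val : ℤ), ?_⟩
    funext i
    rw [hφ]
    simp
  have hker : φ.ker = powSub (ι → Multiplicative ℤ) n := by
    ext b
    rw [MonoidHom.mem_ker, mem_powSub]
    constructor
    · intro hb
      have hdvd : ∀ i, (n : ℤ) ∣ Multiplicative.toAdd (b i) := by
        intro i
        have := congrFun hb i
        rw [hφ] at this
        have h0 : ((Multiplicative.toAdd (b i) : ℤ) : ZMod n) = 0 := by
          simpa using this
        exact (ZMod.intCast_zmod_eq_zero_iff_dvd _ _).mp h0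
      choose c hc using hdvd
      refine ⟨fun i => Multiplicative.ofAdd (c i), ?_⟩
      funext i
      rw [Pi.pow_apply, ← ofAdd_nsmul, nsmul_eq_mul, ← hc i]
      rfl
    · rintro ⟨c, rfl⟩
      funext i
      rw [hφ, Pi.pow_apply, toAdd_pow]
      simp
  rw [powIndex, ← hker, Subgroup.index_ker, MonoidHom.range_eq_top.mpr hsurj]
  rw [Nat.card_congr (Subgroup.topEquiv (G := ι → Multiplicative (ZMod n))).toEquiv]
  rw [Nat.card_eq_fintype_card, Fintype.card_pi]
  simp [ZMod.card]

end PowIndex

end Fermat.Agent.S14.SI.SU
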