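/-
T14 / SI: the `S`-unit count modulo `p`-th powers.

For a number field `K` containing a primitive `p`-th root of unity and a finite set `S` of finite
primes: `[U_S : U_S^p] = p ^ (|S| + #{infinite places})`, where `U_S = S.unit K` is Mathlib's group
of `S`-units (`Mathlib.RingTheory.DedekindDomain.SInteger`).
-/
import Fermat.Agent.S14.SI.PowIndex

set_option autoImplicit false

open NumberField IsDedekindDomain

namespace Fermat.Agent.S14.SI.SU

open scoped nonZeroDivisors WithZero

section Val

variable {R : Type*} [CommRing R] [IsDedekindDomain R] {K : Type*} [Field K] [Algebra R K]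
  [IsFractionRing R K]

/-- the `v`-adic valuation on units of `K`, with values in `Multiplicative ℤ` -/
noncomputable def valU (v : HeightOneSpectrum R) : Kˣ →* Multiplicative ℤ :=
  (WithZero.unitsWithZeroEquiv : (ℤᵐ⁰)ˣ ≃* Multiplicative ℤ).toMonoidHom.comp
    (Units.map (v.valuation K : K →* ℤᵐ⁰))

theorem coe_valU (v : HeightOneSpectrum R) (x : Kˣ) :
    ((valU v x : Multiplicative ℤ) : ℤᵐ⁰) = v.valuation K (x : K) := by
  rw [valU, MonoidHom.comp_apply]
  exact WithZero.coe_unitsWithZeroEquiv_eq_units_val _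

theorem valU_eq_one_iff (v : HeightOneSpectrum R) (x : Kˣ) :
    valU v x = 1 ↔ v.valuation K (x : K) = 1 := by
  rw [← coe_valU, ← WithZero.coe_one, WithZero.coe_inj]

theorem valU_mem_unit {S : Set (HeightOneSpectrum R)} (x : S.unit K) {v : HeightOneSpectrum R}
    (hv : v ∉ S) : valU v (x : Kˣ) = 1 :=
  (valU_eq_one_iff v _).mpr (x.2 v hv)

theorem mem_unit_iff {S : Set (HeightOneSpectrum R)} (x : Kˣ) :
    x ∈ S.unit K ↔ ∀ v, v ∉ S → valU v x = 1 := by
  constructor
  · intro hx v hv
    exact (valU_eq_one_iff v x).mpr (hx v hv)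
  · intro h v hv
    exact (valU_eq_one_iff v x).mp (h v hv)

theorem unit_mono {S T : Set (HeightOneSpectrum R)} (h : S ⊆ T) : S.unit K ≤ T.unit K :=
  fun _ hx v hv => hx v fun hvS => hv (h hvS)

/-- no `n`-torsion in `Multiplicative ℤ` -/
theorem eq_one_of_pow_eq_one_int {n : ℕ} (hn : n ≠ 0) (b : Multiplicative ℤ) (hb : b ^ n = 1) :
    b = 1 := by
  have h : n • Multiplicative.toAdd b = 0 := by
    rw [← toAdd_pow, hb]; rfl
  rw [nsmul_eq_mul] at h
  have h' : Multiplicative.toAdd b = 0 := by
    rcases mul_eq_zero.mp h with h0 | h0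
    · exact absurd (by exact_mod_cast h0) hn
    · exact h0
  exact Multiplicative.toAdd.injective h'

/-- a `p`-th power in `Kˣ` that is an `S`-unit is a `p`-th power of an `S`-unit -/
theorem exists_pow_eq_of_mem_unit {S : Set (HeightOneSpectrum R)} {n : ℕ} (hn : n ≠ 0)
    (y : Kˣ) (hy : y ^ n ∈ S.unit K) : y ∈ S.unit K := by
  rw [mem_unit_iff] at hy ⊢
  intro v hv
  exact eq_one_of_pow_eq_one_int hn _ (by rw [← map_pow]; exact hy v hv)

end Val

section PowIndexInt

/-- `[ℤ : nℤ] = n` (multiplicative notation) -/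
theorem powIndex_int (n : ℕ) [NeZero n] : powIndex (Multiplicative ℤ) n = n := by
  have h := powIndex_pi_int Unit n
  rw [Fintype.card_unit, pow_one] at h
  exact ((powIndex_congr (MulEquiv.funUnique Unit (Multiplicative ℤ)) n).symm).trans h

theorem pow_injective_int {n : ℕ} (hn : n ≠ 0) :
    Function.Injective (powMonoidHom n : Multiplicative ℤ →* Multiplicative ℤ) := by
  rw [injective_iff_map_eq_one]
  intro b hb
  exact eq_one_of_pow_eq_one_int hn b hb

/-- a nontrivial subgroup `M` of `ℤ` has `[M : nM] = n` -/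
theorem powIndex_subgroup_int (n : ℕ) [NeZero n] (M : Subgroup (Multiplicative ℤ))
    (hM : M ≠ ⊥) : powIndex M n = n := by
  have hidx : M.index ≠ 0 := by
    obtain ⟨⟨b, hbM⟩, hb1⟩ := (Subgroup.ne_bot_iff_exists_ne_one).mp hM
    have hb1' : b ≠ 1 := fun h => hb1 (Subtype.ext h)
    set m : ℕ := (Multiplicative.toAdd b).natAbs with hm
    have hm0 : m ≠ 0 := by
      rw [hm, Int.natAbs_ne_zero]
      intro h0
      exact hb1' (Multiplicative.toAdd.injective h0)
    have : NeZero m := ⟨hm0⟩
    have hle : powSub (Multiplicative ℤ) m ≤ M := by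
      intro x hx
      obtain ⟨y, rfl⟩ := mem_powSub.mp hx
      -- `y ^ m = b ^ (± toAdd y)`
      have : y ^ m = b ^ (Multiplicative.toAdd y * (Multiplicative.toAdd b).sign) := by
        apply Multiplicative.toAdd.injective
        rw [toAdd_pow, toAdd_zpow, nsmul_eq_mul, smul_eq_mul, hm, mul_assoc,
          Int.sign_mul_self_eq_natAbs, mul_comm]
      rw [this]
      exact Subgroup.zpow_mem _ hbM _
    have h1 : (powSub (Multiplicative ℤ) m).index ≠ 0 := by
      have := powIndex_int m
      rw [powIndex] at this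
      rw [this]; exact hm0
    intro h
    have hdvd := Subgroup.index_dvd_of_le hle
    rw [h, zero_dvd_iff] at hdvd
    exact h1 hdvd
  rw [powIndex_subgroup_of_index_ne_zero (pow_injective_int (NeZero.ne n)) M hidx, powIndex_int]

end PowIndexInt

end Fermat.Agent.S14.SI.SU
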