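/-
T14 / SI: `[𝓞ˣ : (𝓞ˣ)^p] = p ^ (rank + 1)` for a number field containing a primitive `p`-th root of
unity (Dirichlet's unit theorem from Mathlib + the generic `powIndex` calculus).
-/
import Fermat.Agent.S14.SI.SUnitsAux

set_option autoImplicit false

open NumberField IsDedekindDomain

namespace Fermat.Agent.S14.SI.SU

section Generic

variable {A B : Type*} [CommGroup A] [CommGroup B]

theorem powIndex_subgroup_congr {H H' : Subgroup A} (h : H = H') (n : ℕ) :
    powIndex H n = powIndex H' n := by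
  subst h; rfl

theorem powIndex_top (n : ℕ) : powIndex (⊤ : Subgroup A) n = powIndex A n :=
  powIndex_congr Subgroup.topEquiv n

theorem powIndex_of_eq_top {H : Subgroup A} (h : H = ⊤) (n : ℕ) :
    powIndex H n = powIndex A n := by
  rw [powIndex_subgroup_congr h, powIndex_top]

theorem powSub_prod (n : ℕ) : powSub (A × B) n = (powSub A n).prod (powSub B n) := by
  ext ⟨a, b⟩
  rw [Subgroup.mem_prod, mem_powSub, mem_powSub, mem_powSub]
  constructor
  · rintro ⟨⟨y, z⟩, h⟩
    rw [Prod.pow_mk, Prod.mk.injEq] at h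
    exact ⟨⟨y, h.1⟩, ⟨z, h.2⟩⟩
  · rintro ⟨⟨y, hy⟩, ⟨z, hz⟩⟩
    exact ⟨(y, z), by rw [Prod.pow_mk, hy, hz]⟩

theorem powIndex_prod (n : ℕ) : powIndex (A × B) n = powIndex A n * powIndex B n := by
  rw [powIndex, powSub_prod, Subgroup.index_prod]
  rfl

end Generic

section UnitsCount

variable (K : Type*) [Field K] [NumberField K]

open NumberField.Units

/-- `μ(K) × ℤ^r → 𝓞ˣ`, `(ζ, e) ↦ ζ ∏ uᵢ^eᵢ` for a fundamental system `uᵢ` (multiplicative
notation). -/
noncomputable def fundHom : torsion K × (Fin (rank K) → Multiplicative ℤ) →* (𝓞 K)ˣ where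
  toFun ζe := (ζe.1 : (𝓞 K)ˣ) * ∏ i, fundSystem K i ^ (Multiplicative.toAdd (ζe.2 i))
  map_one' := by simp
  map_mul' a b := by
    have : ∏ i, fundSystem K i ^ (Multiplicative.toAdd ((a * b).2 i)) =
        (∏ i, fundSystem K i ^ (Multiplicative.toAdd (a.2 i))) *
          ∏ i, fundSystem K i ^ (Multiplicative.toAdd (b.2 i)) := by
      rw [← Finset.prod_mul_distrib]
      refine Finset.prod_congr rfl fun i _ => ?_
      rw [Prod.snd_mul, Pi.mul_apply, toAdd_mul, zpow_add]
    rw [this, Prod.fst_mul, Subgroup.coe_mul]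
    exact mul_mul_mul_comm _ _ _ _

theorem fundHom_apply (ζe : torsion K × (Fin (rank K) → Multiplicative ℤ)) :
    fundHom K ζe = (ζe.1 : (𝓞 K)ˣ) * ∏ i, fundSystem K i ^ (Multiplicative.toAdd (ζe.2 i)) := rfl

theorem fundHom_bijective : Function.Bijective (fundHom K) := by
  constructor
  · intro a b hab
    obtain ⟨c, -, hc⟩ := exist_unique_eq_mul_prod K (fundHom K a)
    have h1 := hc (a.1, fun i => Multiplicative.toAdd (a.2 i)) (fundHom_apply K a)
    have h2 := hc (b.1, fun i => Multiplicative.toAdd (b.2 i)) (by rw [hab]; exact fundHom_apply K b)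
    have h3 := h1.trans h2.symm
    rw [Prod.mk.injEq] at h3
    refine Prod.ext h3.1 ?_
    funext i
    exact Multiplicative.toAdd.injective (congrFun h3.2 i)
  · intro x
    obtain ⟨⟨ζ, f⟩, h, -⟩ := exist_unique_eq_mul_prod K x
    refine ⟨(ζ, fun i => Multiplicative.ofAdd (f i)), ?_⟩
    rw [fundHom_apply]
    simp only [toAdd_ofAdd]
    exact h.symm

/-- `μ(K) × ℤ^r ≃ 𝓞ˣ` (Dirichlet). -/
noncomputable def unitsEquiv :
    torsion K × (Fin (rank K) → Multiplicative ℤ) ≃* (𝓞 K)ˣ :=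
  MulEquiv.ofBijective (fundHom K) (fundHom_bijective K)

theorem powIndex_torsion {p : ℕ} (hp : p ∣ torsionOrder K) :
    powIndex (torsion K) p = p := by
  rw [powIndex, powSub, IsCyclic.index_powMonoidHom_range]
  exact Nat.gcd_eq_right hp

/-- `[𝓞ˣ : (𝓞ˣ)^p] = p^(r+1)` when `μ_p ⊆ K`. -/
theorem powIndex_units {p : ℕ} [NeZero p] (hp : p ∣ torsionOrder K) :
    powIndex (𝓞 K)ˣ p = p ^ (rank K + 1) := by
  rw [← powIndex_congr (unitsEquiv K) p, powIndex_prod, powIndex_torsion K hp, powIndex_pi_int,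
    Fintype.card_fin, pow_succ, mul_comm]

end UnitsCount

end Fermat.Agent.S14.SI.SU
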