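/-
T14 / SI: the `S`-unit count `[U_S : U_S^p] = p^(|S| + rank + 1)` by induction on `S`.
-/
import Fermat.Agent.S14.SI.UnitsModPow

set_option autoImplicit false

open NumberField IsDedekindDomain

namespace Fermat.Agent.S14.SI.SU

open scoped nonZeroDivisors

variable {K : Type*} [Field K] [NumberField K]

/-! ### base case: `∅`-units are the units of `𝓞 K` -/

theorem range_unitsMap_eq_unit_empty :
    (Units.map (algebraMap (𝓞 K) K : 𝓞 K →* K)).range =
      (∅ : Set (HeightOneSpectrum (𝓞 K))).unit K := by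
  ext x
  rw [MonoidHom.mem_range]
  constructor
  · rintro ⟨u, rfl⟩ v _
    have h1 : v.valuation K (algebraMap (𝓞 K) K (u : 𝓞 K)) ≤ 1 := v.valuation_le_one _
    have h2 : v.valuation K (algebraMap (𝓞 K) K ((u⁻¹ : (𝓞 K)ˣ) : 𝓞 K)) ≤ 1 :=
      v.valuation_le_one _
    have h3 : v.valuation K (algebraMap (𝓞 K) K (u : 𝓞 K)) *
        v.valuation K (algebraMap (𝓞 K) K ((u⁻¹ : (𝓞 K)ˣ) : 𝓞 K)) = 1 := by
      rw [← map_mul, ← map_mul, Units.mul_inv, map_one, map_one]
    exact eq_one_of_one_le_mul_left h1 h2 h3.ge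
  · intro hx
    have hx' : ∀ v : HeightOneSpectrum (𝓞 K), v.valuation K (x : K) = 1 :=
      fun v => hx v (Set.notMem_empty v)
    have hxi : ∀ v : HeightOneSpectrum (𝓞 K), v.valuation K ((x⁻¹ : Kˣ) : K) = 1 := by
      intro v
      rw [Units.val_inv_eq_inv_val, map_inv₀, hx' v, inv_one]
    obtain ⟨a, ha⟩ := HeightOneSpectrum.mem_integers_of_valuation_le_one K (x : K)
      (fun v => (hx' v).le)
    obtain ⟨b, hb⟩ := HeightOneSpectrum.mem_integers_of_valuation_le_one K ((x⁻¹ : Kˣ) : K)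
      (fun v => (hxi v).le)
    have hab : a * b = 1 := by
      apply FaithfulSMul.algebraMap_injective (𝓞 K) K
      rw [map_mul, map_one]
      erw [ha, hb]
      exact x.mul_inv
    refine ⟨⟨a, b, hab, by rw [mul_comm]; exact hab⟩, ?_⟩
    apply Units.ext
    exact ha

theorem powIndex_unit_empty (p : ℕ) :
    powIndex ((∅ : Set (HeightOneSpectrum (𝓞 K))).unit K) p = powIndex (𝓞 K)ˣ p := by
  have hinj : Function.Injective (Units.map (algebraMap (𝓞 K) K : 𝓞 K →* K)) :=
    Units.map_injective (FaithfulSMul.algebraMap_injective (𝓞 K) K)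
  rw [← powIndex_subgroup_congr range_unitsMap_eq_unit_empty p]
  exact (powIndex_congr (MonoidHom.ofInjective hinj) p).symm

/-! ### a generator of a power of a prime -/

/-- for every finite prime `v` there is `x ∈ Kˣ` which is a unit away from `v` and not at `v`
(a generator of the principal ideal `v ^ h`) -/
theorem exists_unit_away (v : HeightOneSpectrum (𝓞 K)) :
    ∃ x : Kˣ, (∀ w : HeightOneSpectrum (𝓞 K), w ≠ v → w.valuation K (x : K) = 1) ∧
      v.valuation K (x : K) ≠ 1 := by
  classical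
  set h : ℕ := Fintype.card (ClassGroup (𝓞 K)) with hh
  have hpos : 0 < h := Fintype.card_pos
  set I : (Ideal (𝓞 K))⁰ := ⟨v.asIdeal, mem_nonZeroDivisors_of_ne_zero v.ne_bot⟩ with hI
  have h1 : ClassGroup.mk0 (I ^ h) = 1 := by
    rw [map_pow, hh, pow_card_eq_one]
  rw [ClassGroup.mk0_eq_one_iff] at h1
  have hcoe : ((I ^ h : (Ideal (𝓞 K))⁰) : Ideal (𝓞 K)) = v.asIdeal ^ h := by
    rw [SubmonoidClass.coe_pow]
  rw [hcoe] at h1
  obtain ⟨x, hx⟩ := h1.principal
  have hx0 : x ≠ 0 := by
    rintro rfl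
    rw [Ideal.submodule_span_eq, Ideal.span_singleton_eq_bot.mpr rfl] at hx
    exact pow_ne_zero h v.ne_bot hx
  have hxv : x ∈ v.asIdeal := by
    have : x ∈ v.asIdeal ^ h := by
      rw [hx]; exact Submodule.mem_span_singleton_self x
    exact Ideal.pow_le_self hpos.ne' this
  have hxw : ∀ w : HeightOneSpectrum (𝓞 K), w ≠ v → x ∉ w.asIdeal := by
    intro w hwv hxw
    have hle : v.asIdeal ^ h ≤ w.asIdeal := by
      rw [hx, Ideal.submodule_span_eq, Ideal.span_singleton_le_iff_mem]
      exact hxw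
    have hvw : v.asIdeal ≤ w.asIdeal := Ideal.IsPrime.le_of_pow_le (hP := w.isPrime) hle
    have := v.isMaximal.eq_of_le w.isPrime.ne_top hvw
    exact hwv (HeightOneSpectrum.ext this.symm)
  have hxK : algebraMap (𝓞 K) K x ≠ 0 := by
    rw [Ne, FaithfulSMul.algebraMap_eq_zero_iff]
    exact hx0
  refine ⟨Units.mk0 (algebraMap (𝓞 K) K x) hxK, ?_, ?_⟩
  · intro w hwv
    rw [Units.val_mk0]
    exact (w.valuation_eq_one_iff_notMem (K := K)).mpr (hxw w hwv)
  · rw [Units.val_mk0]
    exact ((v.valuation_lt_one_iff_mem x).mpr hxv).ne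

/-! ### induction step -/

theorem powIndex_unit_insert (p : ℕ) [NeZero p] (S : Set (HeightOneSpectrum (𝓞 K)))
    (v : HeightOneSpectrum (𝓞 K)) (hv : v ∉ S) :
    powIndex ((insert v S).unit K) p = powIndex (S.unit K) p * p := by
  set A : Subgroup Kˣ := (insert v S).unit K with hA
  have hle : S.unit K ≤ A := unit_mono (Set.subset_insert v S)
  set f : A →* Multiplicative ℤ := (valU v).comp A.subtype with hf
  have h := powIndex_eq_mul f p (eq_one_of_pow_eq_one_int (NeZero.ne p))
  have hker : f.ker = (S.unit K).subgroupOf A := by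
    ext a
    rw [MonoidHom.mem_ker, Subgroup.mem_subgroupOf, mem_unit_iff]
    constructor
    · intro ha w hw
      by_cases hwv : w = v
      · rw [hwv]; exact ha
      · have haA : (a : Kˣ) ∈ (insert v S).unit K := a.2
        rw [mem_unit_iff] at haA
        exact haA w (fun hmem => (Set.mem_insert_iff.mp hmem).elim hwv hw)
    · intro ha
      exact ha v hv
  have h1 : powIndex f.ker p = powIndex (S.unit K) p := by
    rw [powIndex_subgroup_congr hker p]
    exact powIndex_congr (Subgroup.subgroupOfEquivOfLe hle) p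
  have hne : f.range ≠ ⊥ := by
    obtain ⟨x, hx1, hx2⟩ := exists_unit_away v
    have hxA : x ∈ A := by
      intro w hw
      exact hx1 w (fun hwv => hw (hwv ▸ Set.mem_insert v S))
    intro hbot
    have hmem : f ⟨x, hxA⟩ ∈ f.range := ⟨⟨x, hxA⟩, rfl⟩
    rw [hbot, Subgroup.mem_bot] at hmem
    exact hx2 ((valU_eq_one_iff v x).mp hmem)
  have h2 : powIndex f.range p = p := powIndex_subgroup_int p f.range hne
  rw [h, h1, h2]

/-- `[U_S : U_S^p] = p^|S| [𝓞ˣ : (𝓞ˣ)^p]` -/
theorem powIndex_unit_finset (p : ℕ) [NeZero p] (S : Finset (HeightOneSpectrum (𝓞 K))) :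
    powIndex ((S : Set (HeightOneSpectrum (𝓞 K))).unit K) p =
      powIndex (𝓞 K)ˣ p * p ^ S.card := by
  classical
  induction S using Finset.induction_on with
  | empty =>
    rw [Finset.coe_empty, powIndex_unit_empty, Finset.card_empty, pow_zero, mul_one]
  | insert v S hv ih =>
    rw [Finset.coe_insert, powIndex_unit_insert p _ v (by simpa using hv), ih,
      Finset.card_insert_of_notMem hv, pow_succ, mul_assoc]

/-! ### the count in the presence of `μ_p`, `p` odd -/

theorem rank_add_one_eq_nrComplexPlaces {p : ℕ} (hp : 2 < p) (ζ : K) (hζ : IsPrimitiveRoot ζ p) :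
    NumberField.Units.rank K + 1 = InfinitePlace.nrComplexPlaces K := by
  have h0 : InfinitePlace.nrRealPlaces K = 0 := NumberField.InfinitePlace.IsPrimitiveRoot.nrRealPlaces_eq_zero_of_two_lt hp hζ
  have h1 := InfinitePlace.card_eq_nrRealPlaces_add_nrComplexPlaces (K := K)
  rw [h0, zero_add] at h1
  have hpos : 0 < Fintype.card (InfinitePlace K) := Fintype.card_pos
  rw [NumberField.Units.rank, ← h1]
  omega

/-- **`S`-unit count**: `[U_S : U_S^p] = p^(|S| + r₂)` for `μ_p ⊆ K`, `p` an odd prime. -/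
theorem powIndex_unit_eq {p : ℕ} (hp : p.Prime) (hp2 : p ≠ 2)
    (ζ : K) (hζ : IsPrimitiveRoot ζ p) (S : Finset (HeightOneSpectrum (𝓞 K))) :
    powIndex ((S : Set (HeightOneSpectrum (𝓞 K))).unit K) p =
      p ^ (S.card + InfinitePlace.nrComplexPlaces K) := by
  have : NeZero p := ⟨hp.ne_zero⟩
  have h2 : 2 < p := lt_of_le_of_ne hp.two_le (Ne.symm hp2)
  rw [powIndex_unit_finset,
    powIndex_units K (NumberField.Units.dvd_torsionOrder_of_isPrimitiveRoot hζ),
    rank_add_one_eq_nrComplexPlaces h2 ζ hζ, ← pow_add, add_comm]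

end Fermat.Agent.S14.SI.SU
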