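/-
T14 / SI package SU (S-units modulo p-th powers).
`K ⊇ μ_p`, `p` odd (so `K` is totally complex, `r₂ = [K:ℚ]/2` complex places, unit rank `r₂ - 1`).
For a finite set `S` of primes: `U_S := S.unit K` (Mathlib `Set.unit`),
`|U_S / U_S^p| = p^(|S| + r₂)`.
Proof: `1 → 𝓞ˣ → U_S → ℤ^S` (valuations), image of finite index (class group finite: `v^h` principal),
hence free of rank `|S|`; the sequence splits; `𝓞ˣ ≅ μ × ℤ^(r₂-1)` (Mathlib Dirichlet:
`NumberField.Units.rank`, `Units.torsion` cyclic of order divisible by `p`), so `|𝓞ˣ/p| = p^(r₂)`.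
Also exported: existence of a finite `S` containing a given finite set and generating `Cl(K)`.

Proofs: `SI/PowIndex.lean` (generic index calculus), `SI/SUnitsAux.lean`, `SI/UnitsModPow.lean`
(Dirichlet), `SI/SUnitsCount.lean` (induction on `S`), `SI/ClassGen.lean` (class group generation).
-/
import Fermat.Agent.S14.SI.Defs
import Fermat.Agent.S14.SI.SUnitsCount
import Fermat.Agent.S14.SI.ClassGen

set_option autoImplicit false

open NumberField IsDedekindDomain nonZeroDivisors

namespace Fermat.Agent.S14.SI

variable {K : Type*} [Field K] [NumberField K]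

theorem card_sUnit_quotient_pow {p : ℕ} (hp : p.Prime) (hp2 : p ≠ 2)
    (ζ : K) (hζ : IsPrimitiveRoot ζ p) (S : Finset (HeightOneSpectrum (𝓞 K))) :
    Nat.card ((S : Set (HeightOneSpectrum (𝓞 K))).unit K ⧸
        (powMonoidHom p : (S : Set (HeightOneSpectrum (𝓞 K))).unit K →* _).range)
      = p ^ (S.card + InfinitePlace.nrComplexPlaces K) :=
  SU.powIndex_unit_eq hp hp2 ζ hζ S

/-- A finite set of primes containing `S₀` whose classes generate the class group. -/
theorem exists_finset_generating_classGroup (S₀ : Finset (HeightOneSpectrum (𝓞 K))) :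
    ∃ S : Finset (HeightOneSpectrum (𝓞 K)), S₀ ⊆ S ∧
      Subgroup.closure (Set.range fun v : S =>
        ClassGroup.mk0 ⟨v.1.asIdeal, mem_nonZeroDivisors_of_ne_zero v.1.ne_bot⟩) = ⊤ :=
  SU.exists_finset_generating_classGroup S₀

end Fermat.Agent.S14.SI
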