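/-
T14 / SI package TS, pure group theory (owner helper77).
Abstract selection lemma: `P ≤ U` of index `p^s`, `α ∈ U \ P`, a family of "local" subgroups `Lv v`
(kernels of characters of order `p` on `Uv v ⊇ U`) which separates every `x ∈ U` outside `⟨α⟩ P`
from `α`; then `s - 1` of them cut `U` down to `⟨α⟩ P` and the evaluation map is onto.
namespace Fermat.Agent.S14.SI.TSelect
-/
import Mathlib

set_option autoImplicit false

namespace Fermat.Agent.S14.SI.TSelect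

section Cyclic

variable {G : Type*} [CommGroup G]

/-- `H / P` of prime order and `g ∈ H \ P`: every `x ∈ H` is `g^j u`, `u ∈ P`. -/
lemma exists_pow_mul_of_relIndex_prime {p : ℕ} (hp : p.Prime) (P H : Subgroup G)
    (hidx : P.relIndex H = p) {g : G} (hgH : g ∈ H) (hgP : g ∉ P) {x : G} (hx : x ∈ H) :
    ∃ j : ℕ, ∃ u ∈ P, x = g ^ j * u := by
  haveI : Fact p.Prime := ⟨hp⟩
  have hcard : Nat.card (H ⧸ P.subgroupOf H) = p := by
    rw [← Subgroup.index_eq_card]; exact hidx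
  have hg1 : (QuotientGroup.mk ⟨g, hgH⟩ : H ⧸ P.subgroupOf H) ≠ 1 := by
    intro h
    rw [QuotientGroup.eq_one_iff] at h
    exact hgP (Subgroup.mem_subgroupOf.1 h)
  obtain ⟨j, hj⟩ := mem_powers_of_prime_card (g' := (QuotientGroup.mk ⟨x, hx⟩ : H ⧸ P.subgroupOf H))
    hcard hg1
  have hj' : ((QuotientGroup.mk ((⟨g, hgH⟩ : H) ^ j) : H ⧸ P.subgroupOf H)) =
      QuotientGroup.mk ⟨x, hx⟩ := by
    rw [QuotientGroup.mk_pow]; exact hj
  rw [QuotientGroup.eq] at hj'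
  have hmem : (g ^ j)⁻¹ * x ∈ P := by
    have := Subgroup.mem_subgroupOf.1 hj'
    simpa using this
  exact ⟨j, (g ^ j)⁻¹ * x, hmem, by group⟩

/-- If `H` is covered by the cosets `g^j P` and `g^p ∈ P` then `H / P` has at most `p` elements. -/
lemma relIndex_le_of_forall_exists_pow_mul {p : ℕ} (hp : 0 < p) (P H : Subgroup G)
    {g : G} (hgH : g ∈ H) (hgp : g ^ p ∈ P)
    (hcov : ∀ x ∈ H, ∃ j : ℕ, ∃ u ∈ P, x = g ^ j * u) :
    P.relIndex H ≠ 0 ∧ P.relIndex H ≤ p := by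
  set Q := H ⧸ P.subgroupOf H with hQ
  set gq : Q := QuotientGroup.mk ⟨g, hgH⟩ with hgq
  have hgqp : gq ^ p = 1 := by
    rw [hgq, ← QuotientGroup.mk_pow, QuotientGroup.eq_one_iff]
    exact Subgroup.mem_subgroupOf.2 (by simpa using hgp)
  have hsurj : Function.Surjective (fun i : Fin p => gq ^ (i : ℕ)) := by
    intro q
    induction q using QuotientGroup.induction_on with
    | H x =>
      obtain ⟨j, u, hu, hxu⟩ := hcov x x.2
      have hxq : (QuotientGroup.mk x : Q) = gq ^ j := by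
        rw [hgq, ← QuotientGroup.mk_pow, QuotientGroup.eq]
        apply Subgroup.mem_subgroupOf.2
        have : ((x⁻¹ * (⟨g, hgH⟩ : H) ^ j : H) : G) = u⁻¹ := by
          push_cast
          rw [hxu]; group
        rw [this]
        exact P.inv_mem hu
      refine ⟨⟨j % p, Nat.mod_lt _ hp⟩, ?_⟩
      simp only
      rw [hxq]
      conv_rhs => rw [← Nat.div_add_mod j p, pow_add, pow_mul, hgqp, one_pow, one_mul]
  have hfin : Finite Q := Finite.of_surjective _ hsurj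
  have hle : Nat.card Q ≤ Nat.card (Fin p) := Nat.card_le_card_of_surjective _ hsurj
  rw [Nat.card_fin] at hle
  have hpos : 0 < Nat.card Q := Nat.card_pos
  have hcard : P.relIndex H = Nat.card Q := by
    rw [hQ, ← Subgroup.index_eq_card]; rfl
  rw [hcard]
  exact ⟨hpos.ne', hle⟩

/-- covered by the cosets `g^j P`, `g^p ∈ P`, `g ∉ P`, `p` prime: `[H : P] = p`. -/
lemma relIndex_eq_prime_of_forall_exists_pow_mul {p : ℕ} (hp : p.Prime) (P H : Subgroup G)
    {g : G} (hgH : g ∈ H) (hgp : g ^ p ∈ P) (hgP : g ∉ P)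
    (hcov : ∀ x ∈ H, ∃ j : ℕ, ∃ u ∈ P, x = g ^ j * u) :
    P.relIndex H = p := by
  obtain ⟨h0, hle⟩ := relIndex_le_of_forall_exists_pow_mul hp.pos P H hgH hgp hcov
  set Q := H ⧸ P.subgroupOf H with hQ
  have hcard : P.relIndex H = Nat.card Q := by
    rw [hQ, ← Subgroup.index_eq_card]; rfl
  have hfin : Finite Q := Nat.finite_of_card_ne_zero (hcard ▸ h0)
  set gq : Q := QuotientGroup.mk ⟨g, hgH⟩ with hgq
  have hgqp : gq ^ p = 1 := by
    rw [hgq, ← QuotientGroup.mk_pow, QuotientGroup.eq_one_iff]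
    exact Subgroup.mem_subgroupOf.2 (by simpa using hgp)
  have hg1 : gq ≠ 1 := by
    intro h
    rw [hgq, QuotientGroup.eq_one_iff] at h
    exact hgP (Subgroup.mem_subgroupOf.1 h)
  haveI : Fact p.Prime := ⟨hp⟩
  have hord : orderOf gq = p := orderOf_eq_prime hgqp hg1
  have hge : p ≤ Nat.card Q := hord ▸ orderOf_le_card
  rw [hcard] at hle ⊢
  omega

end Cyclic

section Select

variable {G ι : Type*} [CommGroup G]

/-- the subgroup cut out of `U` by the local conditions in `T` -/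
def cut (U : Subgroup G) (Lv : ι → Subgroup G) (T : Finset ι) : Subgroup G :=
  U ⊓ ⨅ v ∈ T, Lv v

lemma mem_cut {U : Subgroup G} {Lv : ι → Subgroup G} {T : Finset ι} {x : G} :
    x ∈ cut U Lv T ↔ x ∈ U ∧ ∀ v ∈ T, x ∈ Lv v := by
  simp [cut, Subgroup.mem_inf, Subgroup.mem_iInf]

lemma cut_le (U : Subgroup G) (Lv : ι → Subgroup G) (T : Finset ι) : cut U Lv T ≤ U :=
  inf_le_left

lemma cut_insert [DecidableEq ι] (U : Subgroup G) (Lv : ι → Subgroup G) (T : Finset ι) (v : ι) :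
    cut U Lv (insert v T) = cut U Lv T ⊓ Lv v := by
  ext x
  simp only [mem_cut, Subgroup.mem_inf, Finset.mem_insert, forall_eq_or_imp]
  tauto

lemma cut_empty (U : Subgroup G) (Lv : ι → Subgroup G) : cut U Lv ∅ = U := by
  ext x; simp [mem_cut]

/-- one step: cutting by a further local condition which is not satisfied by some `x ∈ H`
has index exactly `p`. -/
lemma relIndex_inf_eq_prime {p : ℕ} (hp : p.Prime) (H Uv Lv : Subgroup G) (hHU : H ≤ Uv)
    (hpow : ∀ x ∈ H, x ^ p ∈ Lv)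
    (hN1 : ∀ x ∈ Uv, x ∉ Lv → ∀ y ∈ Uv, ∃ e : ℕ, y * x ^ e ∈ Lv)
    {x : G} (hxH : x ∈ H) (hxL : x ∉ Lv) : (H ⊓ Lv).relIndex H = p := by
  refine relIndex_eq_prime_of_forall_exists_pow_mul hp (H ⊓ Lv) H hxH
    ⟨H.pow_mem hxH p, hpow x hxH⟩ (fun h => hxL h.2) ?_
  intro y hy
  obtain ⟨e, he⟩ := hN1 x (hHU hxH) hxL y⁻¹ (Uv.inv_mem (hHU hy))
  refine ⟨e, (y⁻¹ * x ^ e)⁻¹, ⟨H.inv_mem (H.mul_mem (H.inv_mem hy) (H.pow_mem hxH e)),
    Lv.inv_mem he⟩, by group⟩

/-- **Abstract selection lemma.** -/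
theorem abstract_select {p s : ℕ} (hp : p.Prime)
    (U P : Subgroup G) (hPU : P ≤ U) (hidx : P.relIndex U = p ^ s)
    (hpow : ∀ u ∈ U, u ^ p ∈ P)
    (α : G) (hαU : α ∈ U) (hαP : α ∉ P)
    (good : ι → Prop) (Uv Lv : ι → Subgroup G)
    (hU : ∀ v, good v → U ≤ Uv v)
    (hPL : ∀ v, good v → P ≤ Lv v)
    (hN1 : ∀ v, good v → ∀ x ∈ Uv v, x ∉ Lv v → ∀ y ∈ Uv v, ∃ e : ℕ, y * x ^ e ∈ Lv v)
    (hheart : ∀ B : Finset ι, ∀ x ∈ U, (∀ (j : ℕ), ∀ u ∈ P, x ≠ α ^ j * u) →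
      ∃ v, v ∉ B ∧ good v ∧ α ∈ Lv v ∧ x ∉ Lv v) :
    ∃ T : Finset ι, (∀ v ∈ T, good v) ∧ T.card + 1 = s ∧ (∀ v ∈ T, α ∈ Lv v) ∧
      (∀ x ∈ U, (∀ v ∈ T, x ∈ Lv v) → ∃ j : ℕ, ∃ u ∈ P, x = α ^ j * u) ∧
      (∀ z : ι → G, (∀ v ∈ T, z v ∈ Uv v) → ∃ u ∈ U, ∀ v ∈ T, u / z v ∈ Lv v) := by
  classical
  have hp1 : 1 < p := hp.one_lt
  -- `s ≥ 1`
  have hs : 1 ≤ s := by
    rcases Nat.eq_zero_or_pos s with h0 | h0
    · exfalso
      rw [h0, pow_zero, Subgroup.relIndex_eq_one] at hidx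
      exact hαP (hidx hαU)
    · exact h0
  -- the inductive construction
  have key : ∀ j : ℕ, j + 1 ≤ s → ∃ T : Finset ι, T.card = j ∧ (∀ v ∈ T, good v) ∧
      (∀ v ∈ T, α ∈ Lv v) ∧ (cut U Lv T).relIndex U = p ^ j ∧
      (∀ z : ι → G, (∀ v ∈ T, z v ∈ Uv v) → ∃ u ∈ U, ∀ v ∈ T, u / z v ∈ Lv v) := by
    intro j
    induction j with
    | zero =>
      intro _
      refine ⟨∅, rfl, by simp, by simp, ?_, fun z _ => ⟨1, U.one_mem, by simp⟩⟩
      rw [cut_empty, Subgroup.relIndex_self, pow_zero]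
    | succ j ih =>
      intro hj
      obtain ⟨T, hTc, hTg, hTα, hTidx, hTsurj⟩ := ih (by omega)
      have hPcut : P ≤ cut U Lv T := fun u hu =>
        mem_cut.2 ⟨hPU hu, fun v hv => hPL v (hTg v hv) hu⟩
      have hmul := Subgroup.relIndex_mul_relIndex P (cut U Lv T) U hPcut (cut_le U Lv T)
      rw [hidx, hTidx] at hmul
      have hPH : P.relIndex (cut U Lv T) = p ^ (s - j) := by
        have h1 : p ^ s = p ^ (s - j) * p ^ j := by
          rw [← pow_add]; congr 1; omega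
        rw [h1] at hmul
        exact Nat.eq_of_mul_eq_mul_right (pow_pos hp.pos j) hmul
      have hαcut : α ∈ cut U Lv T := mem_cut.2 ⟨hαU, hTα⟩
      -- an element of the cut outside `⟨α⟩ P`
      obtain ⟨x, hxcut, hxα⟩ : ∃ x ∈ cut U Lv T, ∀ (j : ℕ), ∀ u ∈ P, x ≠ α ^ j * u := by
        by_contra hcon
        push Not at hcon
        have hcov : ∀ x ∈ cut U Lv T, ∃ j : ℕ, ∃ u ∈ P, x = α ^ j * u := hcon
        obtain ⟨-, hle⟩ := relIndex_le_of_forall_exists_pow_mul hp.pos P (cut U Lv T) hαcut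
          (hpow α hαU) hcov
        rw [hPH] at hle
        have h2 : p ^ 2 ≤ p ^ (s - j) := Nat.pow_le_pow_right hp.pos (by omega)
        have h3 : p < p ^ 2 := by nlinarith
        omega
      have hxU : x ∈ U := (mem_cut.1 hxcut).1
      obtain ⟨v, hvT, hvg, hvα, hvx⟩ := hheart T x hxU hxα
      refine ⟨insert v T, ?_, ?_, ?_, ?_, ?_⟩
      · rw [Finset.card_insert_of_notMem hvT, hTc]
      · intro w hw
        rcases Finset.mem_insert.1 hw with rfl | hw
        exacts [hvg, hTg w hw]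
      · intro w hw
        rcases Finset.mem_insert.1 hw with rfl | hw
        exacts [hvα, hTα w hw]
      · rw [cut_insert]
        have hstep : (cut U Lv T ⊓ Lv v).relIndex (cut U Lv T) = p :=
          relIndex_inf_eq_prime hp (cut U Lv T) (Uv v) (Lv v)
            ((cut_le U Lv T).trans (hU v hvg))
            (fun y hy => hPL v hvg (hpow y ((cut_le U Lv T) hy))) (hN1 v hvg) hxcut hvx
        have := Subgroup.relIndex_mul_relIndex (cut U Lv T ⊓ Lv v) (cut U Lv T) U inf_le_left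
          (cut_le U Lv T)
        rw [hstep, hTidx] at this
        rw [← this, pow_succ, mul_comm]
      · intro z hz
        obtain ⟨u₀, hu₀U, hu₀⟩ := hTsurj z (fun w hw => hz w (Finset.mem_insert_of_mem hw))
        have hzv : z v ∈ Uv v := hz v (Finset.mem_insert_self v T)
        have hy : u₀ / z v ∈ Uv v := (Uv v).div_mem (hU v hvg hu₀U) hzv
        obtain ⟨e, he⟩ := hN1 v hvg x (hU v hvg hxU) hvx (u₀ / z v) hy
        refine ⟨u₀ * x ^ e, U.mul_mem hu₀U (U.pow_mem hxU e), ?_⟩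
        intro w hw
        rcases Finset.mem_insert.1 hw with rfl | hw
        · have : u₀ * x ^ e / z w = u₀ / z w * x ^ e := by
            rw [div_mul_eq_mul_div]
          rw [this]; exact he
        · have : u₀ * x ^ e / z w = u₀ / z w * x ^ e := by
            rw [div_mul_eq_mul_div]
          rw [this]
          exact (Lv w).mul_mem (hu₀ w hw) ((Lv w).pow_mem ((mem_cut.1 hxcut).2 w hw) e)
  obtain ⟨T, hTc, hTg, hTα, hTidx, hTsurj⟩ := key (s - 1) (by omega)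
  refine ⟨T, hTg, by omega, hTα, ?_, hTsurj⟩
  intro x hxU hxT
  have hPcut : P ≤ cut U Lv T := fun u hu =>
    mem_cut.2 ⟨hPU hu, fun v hv => hPL v (hTg v hv) hu⟩
  have hmul := Subgroup.relIndex_mul_relIndex P (cut U Lv T) U hPcut (cut_le U Lv T)
  rw [hidx, hTidx] at hmul
  have hPH : P.relIndex (cut U Lv T) = p := by
    have h1 : p ^ s = p * p ^ (s - 1) := by
      rw [← pow_succ']; congr 1; omega
    rw [h1] at hmul
    exact Nat.eq_of_mul_eq_mul_right (pow_pos hp.pos _) hmul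
  exact exists_pow_mul_of_relIndex_prime hp P (cut U Lv T) hPH (mem_cut.2 ⟨hαU, hTα⟩) hαP
    (mem_cut.2 ⟨hxU, hxT⟩)

end Select

end Fermat.Agent.S14.SI.TSelect
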