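/-
T14 / SI package TS, local part (owner helper77).
For a prime `v` of `𝓞 K`: the units at `v` modulo the local `p`-th powers (precision `1`) form a cyclic
group generated by the lift of a generator of `k_vˣ`; consequences in the shape needed by
`TSelect.abstract_select`.
namespace Fermat.Agent.S14.SI.TSelect
-/
import Fermat.Agent.S14.SI.Defs
import Fermat.Agent.S14.SI.Approx

set_option autoImplicit false

open NumberField IsDedekindDomain

namespace Fermat.Agent.S14.SI.TSelect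

variable {K : Type*} [Field K] [NumberField K]

/-- a lift of a generator of `k_vˣ` generates the units at `v` modulo `1 + v`. -/
lemma exists_generator (v : HeightOneSpectrum (𝓞 K)) :
    ∃ g : Kˣ, IsUnitAt v.asIdeal g ∧ ∀ x : Kˣ, IsUnitAt v.asIdeal x →
      ∃ i : ℕ, OneModPow v.asIdeal 1 (x / g ^ i) := by
  classical
  letI : Field (𝓞 K ⧸ v.asIdeal) := Ideal.Quotient.field v.asIdeal
  haveI : Finite (𝓞 K ⧸ v.asIdeal) := Ideal.finiteQuotientOfFreeOfNeBot v.asIdeal v.ne_bot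
  obtain ⟨g₀, hg₀⟩ := IsCyclic.exists_monoid_generator (α := (𝓞 K ⧸ v.asIdeal)ˣ)
  obtain ⟨g₁, hg₁⟩ := Ideal.Quotient.mk_surjective (g₀ : 𝓞 K ⧸ v.asIdeal)
  have hg₁v : g₁ ∉ v.asIdeal := by
    intro h
    have : (g₀ : 𝓞 K ⧸ v.asIdeal) = 0 := by
      rw [← hg₁]; exact Ideal.Quotient.eq_zero_iff_mem.2 h
    exact g₀.ne_zero this
  have hg₁0 : (g₁ : K) ≠ 0 := by
    intro h
    apply hg₁v
    have : g₁ = 0 := by exact_mod_cast h
    rw [this]; exact v.asIdeal.zero_mem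
  have h1v : (1 : 𝓞 K) ∉ v.asIdeal := fun h =>
    v.isPrime.ne_top ((Ideal.eq_top_iff_one _).2 h)
  refine ⟨Units.mk0 (g₁ : K) hg₁0, ⟨g₁, 1, hg₁v, h1v, by simp, by simp⟩, ?_⟩
  rintro x ⟨a, b, ha, hb, -, hab⟩
  have ha' : Ideal.Quotient.mk v.asIdeal a ≠ 0 := fun h => ha (Ideal.Quotient.eq_zero_iff_mem.1 h)
  have hb' : Ideal.Quotient.mk v.asIdeal b ≠ 0 := fun h => hb (Ideal.Quotient.eq_zero_iff_mem.1 h)
  obtain ⟨i, hi⟩ := hg₀ (Units.mk0 _ ha' / Units.mk0 _ hb')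
  have hi' : (g₀ : 𝓞 K ⧸ v.asIdeal) ^ i * Ideal.Quotient.mk v.asIdeal b =
      Ideal.Quotient.mk v.asIdeal a := by
    have := congrArg (fun u : (𝓞 K ⧸ v.asIdeal)ˣ => (u : 𝓞 K ⧸ v.asIdeal)) hi
    simp only [Units.val_pow_eq_pow_val, Units.val_div_eq_div_val, Units.val_mk0] at this
    rw [this, div_mul_cancel₀ _ hb']
  refine ⟨i, a, b * g₁ ^ i, ha, ?_, ?_, ?_⟩
  · intro h
    rcases v.isPrime.mem_or_mem h with h | h
    · exact hb h
    · exact hg₁v (v.isPrime.mem_of_pow_mem _ h)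
  · rw [pow_one, ← Ideal.Quotient.eq_zero_iff_mem, map_sub, map_mul, map_pow, hg₁, ← hi']
    ring
  · rw [Units.val_div_eq_div_val, Units.val_pow_eq_pow_val, Units.val_mk0]
    push_cast
    rw [← hab]
    field_simp

/-- (N1) the units at `v` modulo local `p`-th powers are generated by any element which is not a
local `p`-th power. -/
lemma exists_mul_pow_isLocalPow {p : ℕ} (hp : p.Prime) (v : HeightOneSpectrum (𝓞 K))
    {x : Kˣ} (hx : IsUnitAt v.asIdeal x) (hxL : ¬ IsLocalPow p v.asIdeal 1 x)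
    {y : Kˣ} (hy : IsUnitAt v.asIdeal y) :
    ∃ e : ℕ, IsLocalPow p v.asIdeal 1 (y * x ^ e) := by
  haveI : Fact p.Prime := ⟨hp⟩
  obtain ⟨g, -, hg⟩ := exists_generator v
  obtain ⟨i, hi⟩ := hg x hx
  obtain ⟨k, hk⟩ := hg y hy
  have hpi : ¬ p ∣ i := by
    rintro ⟨m, rfl⟩
    apply hxL
    refine ⟨g ^ m, ?_⟩
    rwa [← pow_mul, mul_comm m p]
  have hi0 : (i : ZMod p) ≠ 0 := by
    rwa [Ne, ZMod.natCast_eq_zero_iff]
  set e : ℕ := ((-(k : ZMod p)) * (i : ZMod p)⁻¹).val with he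
  have hsum : ((k + e * i : ℕ) : ZMod p) = 0 := by
    push_cast
    rw [he, ZMod.natCast_zmod_val, mul_assoc, inv_mul_cancel₀ hi0]
    ring
  obtain ⟨m, hm⟩ := (ZMod.natCast_eq_zero_iff _ _).1 hsum
  refine ⟨e, g ^ m, ?_⟩
  have hkey : y * x ^ e / (g ^ m) ^ p = (y / g ^ k) * (x / g ^ i) ^ e := by
    rw [← pow_mul, mul_comm m p, ← hm, pow_add, div_pow, ← pow_mul, mul_comm i e, div_mul_div_comm]
  rw [hkey]
  have hmem : (x / g ^ i) ^ e ∈ oneModPowSubgroup v.asIdeal 1 :=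
    (oneModPowSubgroup v.asIdeal 1).pow_mem hi e
  exact hk.mul hmem

/-- `S`-units are units at every `v ∉ S`. -/
lemma isUnitAt_of_mem_unit {S : Set (HeightOneSpectrum (𝓞 K))} {x : Kˣ} (hx : x ∈ S.unit K)
    {v : HeightOneSpectrum (𝓞 K)} (hv : v ∉ S) : IsUnitAt v.asIdeal x := by
  have h1 : v.valuation K (x : K) = 1 := hx v hv
  refine oneModPow_of_valuation v 0 x h1 ?_
  have h2 : v.valuation K ((x : K) - 1) ≤ max (v.valuation K (x : K)) (v.valuation K (1 : K)) :=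
    Valuation.map_sub _ _ _
  rw [h1, map_one, max_self] at h2
  simpa using h2

omit [NumberField K] in
/-- `p`-th powers are local `p`-th powers. -/
lemma isLocalPow_pow (p : ℕ) (v : Ideal (𝓞 K)) [v.IsPrime] (n : ℕ) (u : Kˣ) :
    IsLocalPow p v n (u ^ p) :=
  ⟨u, by rw [div_self']; exact oneModPow_one v n⟩

/-- a `p`-th root of an `S`-unit is an `S`-unit. -/
lemma mem_unit_of_pow_mem {S : Set (HeightOneSpectrum (𝓞 K))} {p : ℕ} (hp : p ≠ 0) {y : Kˣ}
    (hy : y ^ p ∈ S.unit K) : y ∈ S.unit K := by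
  intro v hv
  have h := hy v hv
  rw [Units.val_pow_eq_pow_val, map_pow] at h
  exact (pow_eq_one_iff.1 h).resolve_right hp

end Fermat.Agent.S14.SI.TSelect
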