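/-
T14 / SI package TS, arithmetic heart (owner helper77).
`K ⊇ μ_p`, `α, x ∈ U_S`, `α` not a `p`-th power, `x ∉ ⟨α⟩ Kˣ^p`: outside any finite set of primes there
is a prime `v ∉ S` at which `α` is a local `p`-th power and `x` is not.
`K' := K(α^(1/p))`, `K'' := K'(x^(1/p))`; NS gives a degree-one prime `𝔭'` of `K'` which does not split
in `K''`; `v := 𝔭' ∩ K`.  KU-res: `α` is a `p`-th power mod `v`; KU-split: `x` is not.
namespace Fermat.Agent.S14.SI.TSelect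
-/
import Fermat.Agent.S14.SI.Defs
import Fermat.Agent.S14.SI.Bridge
import Fermat.Agent.S14.SI.Kummer
import Fermat.Agent.S14.SI.TSelectLocal
import Fermat.Agent.S14.NonSplit
import Fermat.Agent.S14.NonSplit.Compare

set_option autoImplicit false

open NumberField IsDedekindDomain Polynomial

open scoped Pointwise

namespace Fermat.Agent.S14.SI.TSelect

section General

variable {K L : Type*} [Field K] [NumberField K] [Field L] [NumberField L] [Algebra K L]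

/-- (A2) a prime of prime absolute norm has residue field `𝔽_ℓ`: already `ℤ` surjects. -/
lemma exists_sub_mem_of_absNorm_prime (P : Ideal (𝓞 L)) (hP : (Ideal.absNorm P).Prime)
    (z : 𝓞 L) : ∃ w : 𝓞 K, z - algebraMap (𝓞 K) (𝓞 L) w ∈ P := by
  haveI : Fact (Ideal.absNorm P).Prime := ⟨hP⟩
  have hcard : Nat.card (𝓞 L ⧸ P) = Ideal.absNorm P := by
    rw [Ideal.absNorm_apply, Submodule.cardQuot_apply]
  have hne : P ≠ ⊤ := by
    intro h
    rw [← Ideal.absNorm_eq_one_iff] at h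
    exact hP.one_lt.ne' h
  have h1 : (1 : 𝓞 L ⧸ P) ≠ 0 := by
    intro h
    apply hne
    rw [Ideal.eq_top_iff_one, ← Ideal.Quotient.eq_zero_iff_mem]
    exact h
  obtain ⟨n, hn⟩ := mem_zmultiples_of_prime_card (g' := Ideal.Quotient.mk P z) hcard h1
  refine ⟨(n : 𝓞 K), ?_⟩
  rw [← Ideal.Quotient.eq_zero_iff_mem, map_sub, map_intCast, map_intCast, ← hn]
  simp

/-- (A4) the precision is `1` away from `p`. -/
lemma prec_eq_one {p : ℕ} {v : Ideal (𝓞 K)} (hpv : (p : 𝓞 K) ∉ v) : prec p v = 1 := by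
  have h0 : ordP p v = 0 := by
    rw [ordP, multiplicity_eq_zero, Ideal.dvd_span_singleton]
    exact hpv
  rw [prec, h0, mul_zero, Nat.zero_div]

/-- (A5) trivial decomposition group implies `e = f = 1`. -/
lemma ramificationIdx_inertiaDeg_eq_one [IsGalois K L] (P : Ideal (𝓞 L)) [P.IsPrime] (hP : P ≠ ⊥)
    (h : ∀ τ : L ≃ₐ[K] L, (∀ z : 𝓞 L, z ∈ P → τ • z ∈ P) → τ = 1) :
    P.ramificationIdx (𝓞 K) = 1 ∧ P.inertiaDeg (𝓞 K) = 1 := by
  have := NonSplit.isGaloisGroup_ringOfIntegers K L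
  have hv : P.under (𝓞 K) ≠ ⊥ := Ideal.IsIntegral.comap_ne_bot (𝓞 K) hP
  have : (P.under (𝓞 K)).IsMaximal := Ring.DimensionLEOne.maximalOfPrime hv inferInstance
  have : Finite (𝓞 K ⧸ P.under (𝓞 K)) := Ideal.finiteQuotientOfFreeOfNeBot _ hv
  have hcard := Ideal.card_stabilizer_eq (G := L ≃ₐ[K] L) (P.under (𝓞 K)) P
  rw [Ideal.ramificationIdxIn_eq_ramificationIdx (P.under (𝓞 K)) P (L ≃ₐ[K] L),
    Ideal.inertiaDegIn_eq_inertiaDeg (P.under (𝓞 K)) P (L ≃ₐ[K] L)] at hcard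
  have htriv : MulAction.stabilizer (L ≃ₐ[K] L) P = ⊥ := by
    rw [eq_bot_iff]
    intro τ hτ
    rw [Subgroup.mem_bot]
    apply h τ
    intro z hz
    have hτP : τ • P = P := hτ
    rw [← hτP]
    exact Ideal.smul_mem_pointwise_smul τ z P hz
  rw [htriv, Subgroup.card_bot] at hcard
  exact ⟨Nat.eq_one_of_mul_eq_one_right hcard.symm, Nat.eq_one_of_mul_eq_one_left hcard.symm⟩

end General

section Heart

variable {K : Type*} [Field K] [NumberField K]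

/-- (H0) if no prime of `K'' = K'(x^(1/p))` above `𝔭'` has `e = f = 1` then `x` is not a local `p`-th power
at `𝔭' ∩ K` (KU-split). -/
lemma not_isLocalPow_of_not_split {K' K'' : Type*} [Field K'] [NumberField K'] [Field K'']
    [NumberField K''] [Algebra K K'] [Algebra K' K''] [IsGalois K' K'']
    {p : ℕ} (hp : p.Prime) (hp2 : p ≠ 2) (ζ' : K') (hζ' : IsPrimitiveRoot ζ' p)
    (x : Kˣ) (β : K'') (hβ : β ^ p = algebraMap K' K'' (algebraMap K K' (x : K)))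
    (hL : IntermediateField.adjoin K' {β} = ⊤)
    (𝔭' : Ideal (𝓞 K')) [𝔭'.IsPrime] (h𝔭'ne : 𝔭' ≠ ⊥) (hp𝔭' : (p : 𝓞 K') ∉ 𝔭')
    (hns : ∀ P : Ideal (𝓞 K''), P.IsPrime → P.under (𝓞 K') = 𝔭' →
      ¬ (P.ramificationIdx (𝓞 K') = 1 ∧ P.inertiaDeg (𝓞 K') = 1)) :
    ¬ IsLocalPow p (𝔭'.under (𝓞 K)) 1 x := by
  intro hloc
  obtain ⟨⟨P'', hP''prime, hP''over⟩⟩ := 𝔭'.nonempty_primesOver (S := 𝓞 K'')
  haveI := hP''prime
  have hP''under : P''.under (𝓞 K') = 𝔭' := hP''over.over.symm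
  have hP''ne : P'' ≠ ⊥ := by
    rintro rfl
    apply h𝔭'ne
    rw [← hP''under]
    exact Ideal.under_bot _ _
  have hloc' : IsLocalPow p (P''.under (𝓞 K')) (prec p (P''.under (𝓞 K')))
      (Units.map (algebraMap K K' : K →* K') x) := by
    rw [hP''under, prec_eq_one hp𝔭']
    exact Bridge.IsLocalPow.map 𝔭' 1 hloc
  have htriv : ∀ τ : K'' ≃ₐ[K'] K'', (∀ z : 𝓞 K'', z ∈ P'' → τ • z ∈ P'') → τ = 1 := fun τ hτ =>
    decomposition_trivial_of_isLocalPow hp hp2 ζ' hζ' (Units.map (algebraMap K K' : K →* K') x)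
      β hβ hL P'' hP''ne hloc' τ hτ
  exact hns P'' hP''prime hP''under (ramificationIdx_inertiaDeg_eq_one P'' hP''ne htriv)

/-- (H1) NS applied to `K'(x^(1/p)) / K'`. -/
lemma exists_prime_not_isLocalPow {K' : Type*} [Field K'] [NumberField K'] [Algebra K K']
    {p : ℕ} (hp : p.Prime) (hp2 : p ≠ 2) (ζ' : K') (hζ' : IsPrimitiveRoot ζ' p)
    (x : Kˣ) (hx : ∀ β : K', β ^ p ≠ algebraMap K K' (x : K)) (B' : Finset (Ideal (𝓞 K'))) :
    ∃ 𝔭' : Ideal (𝓞 K'), 𝔭'.IsPrime ∧ 𝔭' ≠ ⊥ ∧ (Ideal.absNorm 𝔭').Prime ∧ 𝔭' ∉ B' ∧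
      ((p : 𝓞 K') ∉ 𝔭' → ¬ IsLocalPow p (𝔭'.under (𝓞 K)) 1 x) := by
  haveI : NeZero p := ⟨hp.ne_zero⟩
  haveI : IsGalois K' (kummerExt K' p (algebraMap K K' (x : K))) :=
    kummerExt_isGalois hp ζ' hζ' _
  have hdeg' : Module.finrank K' (kummerExt K' p (algebraMap K K' (x : K))) = p :=
    finrank_kummerExt hp ζ' hζ' _ hx
  have hβ : (rootOfSplitsXPowSubC (NeZero.pos p) (algebraMap K K' (x : K))
      (kummerExt K' p (algebraMap K K' (x : K)))) ^ p =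
        algebraMap K' (kummerExt K' p (algebraMap K K' (x : K))) (algebraMap K K' (x : K)) :=
    rootOfSplitsXPowSubC_pow _ _
  have hirr : Irreducible (X ^ p - C (algebraMap K K' (x : K)) : K'[X]) :=
    X_pow_sub_C_irreducible_of_prime hp hx
  have hL := IntermediateField.adjoin_root_eq_top_of_isSplittingField
    (L := kummerExt K' p (algebraMap K K' (x : K)))
    ⟨ζ', (mem_primitiveRoots hp.pos).mpr hζ'⟩ hirr hβ
  obtain ⟨𝔭', h𝔭'prime, h𝔭'ne, h𝔭'norm, h𝔭'B, hns⟩ :=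
    exists_prime_not_split K' (kummerExt K' p (algebraMap K K' (x : K)))
      (by rw [hdeg']; exact hp.one_lt) B'
  haveI := h𝔭'prime
  exact ⟨𝔭', h𝔭'prime, h𝔭'ne, h𝔭'norm, h𝔭'B, fun hp𝔭' =>
    not_isLocalPow_of_not_split hp hp2 ζ' hζ' x _ hβ hL 𝔭' h𝔭'ne hp𝔭' hns⟩

/-- (H2) the heart, for a generic model `K'` of `K(α^(1/p))`. -/
lemma exists_separating_prime_aux {K' : Type*} [Field K'] [NumberField K'] [Algebra K K']
    [IsGalois K K'] {p : ℕ} (hp : p.Prime) (hp2 : p ≠ 2) (ζ : K) (hζ : IsPrimitiveRoot ζ p)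
    (hdeg : Module.finrank K K' = p)
    (S : Finset (HeightOneSpectrum (𝓞 K)))
    (hSp : ∀ v : HeightOneSpectrum (𝓞 K), (p : 𝓞 K) ∈ v.asIdeal → v ∈ S)
    (α : Kˣ) (hαS : α ∈ (S : Set (HeightOneSpectrum (𝓞 K))).unit K)
    (hαK : ∀ y : K, y ^ p ≠ (α : K)) (α' : K') (hα' : α' ^ p = algebraMap K K' (α : K))
    (x : Kˣ) (hx : ∀ (j : ℕ) (y : Kˣ), x ≠ α ^ j * y ^ p)
    (B : Finset (HeightOneSpectrum (𝓞 K))) :
    ∃ v : HeightOneSpectrum (𝓞 K), v ∉ B ∧ v ∉ S ∧ IsLocalPow p v.asIdeal 1 α ∧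
      ¬ IsLocalPow p v.asIdeal 1 x := by
  classical
  have hxK' : ∀ β : K', β ^ p ≠ algebraMap K K' (x : K) := by
    intro β hβ
    obtain ⟨j, y, h⟩ := eq_pow_mul_pow_of_isPow_top hp ζ hζ hdeg α α' hα' hαK x β hβ
    exact hx j y h
  have hζ' : IsPrimitiveRoot (algebraMap K K' ζ) p :=
    hζ.map_of_injective (algebraMap K K').injective
  obtain ⟨𝔭', h𝔭'prime, h𝔭'ne, h𝔭'norm, h𝔭'B, hnot⟩ :=
    exists_prime_not_isLocalPow hp hp2 (algebraMap K K' ζ) hζ' x hxK'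
      (NonSplit.finite_primes_above (L := K')
        ((B ∪ S).image (fun v : HeightOneSpectrum (𝓞 K) => v.asIdeal))).toFinset
  haveI := h𝔭'prime
  let v : HeightOneSpectrum (𝓞 K) :=
    ⟨𝔭'.under (𝓞 K), inferInstance, Ideal.IsIntegral.comap_ne_bot (𝓞 K) h𝔭'ne⟩
  have hvBS : v ∉ B ∪ S := by
    intro hv
    apply h𝔭'B
    rw [Set.Finite.mem_toFinset]
    exact ⟨h𝔭'prime, Finset.mem_image.2 ⟨v, hv, rfl⟩⟩
  have hvB : v ∉ B := fun h => hvBS (Finset.mem_union_left _ h)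
  have hvS : v ∉ S := fun h => hvBS (Finset.mem_union_right _ h)
  have hpv : (p : 𝓞 K) ∉ v.asIdeal := fun h => hvS (hSp v h)
  have hp𝔭' : (p : 𝓞 K') ∉ 𝔭' := by
    intro h
    apply hpv
    show (p : 𝓞 K) ∈ 𝔭'.under (𝓞 K)
    rw [Ideal.under_def, Ideal.mem_comap, map_natCast]
    exact h
  refine ⟨v, hvB, hvS, ?_, hnot hp𝔭'⟩
  have hunit : IsUnitAt (𝔭'.under (𝓞 K)) α :=
    Bridge.isUnitAt_of_mem_unit hαS (v := v) (by simpa using hvS)
  exact isLocalPow_one_of_residue_surjective (p := p) α α' hα' 𝔭' h𝔭'ne hunit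
    (exists_sub_mem_of_absNorm_prime 𝔭' h𝔭'norm)

/-- (H3) **the arithmetic heart of the choice of `T`.** -/
theorem exists_separating_prime {p : ℕ} (hp : p.Prime) (hp2 : p ≠ 2) (ζ : K)
    (hζ : IsPrimitiveRoot ζ p) (S : Finset (HeightOneSpectrum (𝓞 K)))
    (hSp : ∀ v : HeightOneSpectrum (𝓞 K), (p : 𝓞 K) ∈ v.asIdeal → v ∈ S)
    (α : Kˣ) (hαS : α ∈ (S : Set (HeightOneSpectrum (𝓞 K))).unit K) (hα : ∀ y : Kˣ, y ^ p ≠ α)
    (x : Kˣ) (hx : ∀ (j : ℕ) (y : Kˣ), x ≠ α ^ j * y ^ p)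
    (B : Finset (HeightOneSpectrum (𝓞 K))) :
    ∃ v : HeightOneSpectrum (𝓞 K), v ∉ B ∧ v ∉ S ∧ IsLocalPow p v.asIdeal 1 α ∧
      ¬ IsLocalPow p v.asIdeal 1 x := by
  have hαK : ∀ y : K, y ^ p ≠ (α : K) := by
    intro y hy
    have hy0 : y ≠ 0 := by
      rintro rfl
      rw [zero_pow hp.ne_zero] at hy
      exact α.ne_zero hy.symm
    exact hα (Units.mk0 y hy0) (Units.ext (by simpa using hy))
  haveI : NeZero p := ⟨hp.ne_zero⟩
  haveI : IsGalois K (kummerExt K p (α : K)) := kummerExt_isGalois hp ζ hζ (α : K)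
  exact exists_separating_prime_aux (K' := kummerExt K p (α : K)) hp hp2 ζ hζ
    (finrank_kummerExt hp ζ hζ (α : K) hαK) S hSp α hαS hαK
    (rootOfSplitsXPowSubC (NeZero.pos p) (α : K) (kummerExt K p (α : K)))
    (rootOfSplitsXPowSubC_pow _ _) x hx B

end Heart

end Fermat.Agent.S14.SI.TSelect
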