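/-
T14 / SI package TS (choice of the auxiliary primes `T`).
`K ⊇ μ_p`, `S` finite set of primes containing all `v ∣ p`, `α ∈ U_S` not a `p`-th power,
`s := |S| + r₂(K)` (so `U_S/U_S^p ≅ (ℤ/p)^s`, package SU).  There are `s - 1` primes `v ∉ S` such that
`α` is a `p`-th power mod each of them and the only classes of `U_S/U_S^p` that are `p`-th powers
mod all of them are the powers of `α`.  Consequently (counting, `|k_vˣ/p| = p`)
`U_S → ⊕_{v∈T} k_vˣ/p` is onto.
Proof: induction on the dimension of `V_j := {u ∈ U_S/p : u p-th power mod v_1..v_j} ∋ α`.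
If `x ∈ V_j \ ⟨α⟩`: `K' := K(α^(1/p))`, `K'' := K'(x^(1/p))` has degree `p` over `K'` (KU-int);
package NS gives a prime `w` of `K'` of absolute degree one, away from `S`, `v_1..v_j`, `p`, non split in
`K''`; `v := w ∩ K` has degree one, so `v` splits in `K'` (`α` is a `p`-th power mod `v`, KU-res) and `x` is
not a `p`-th power mod `v` (else `w` would split in `K''`, KU-split with precision 1).
Files: `TSelectGroup` (abstract induction, relative indices), `TSelectLocal` (`k_vˣ` cyclic),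
`TSelectHeart` (NS + KU), assembled here.
-/
import Fermat.Agent.S14.SI.Defs
import Fermat.Agent.S14.SI.SUnits
import Fermat.Agent.S14.SI.Kummer
import Fermat.Agent.S14.NonSplit
import Fermat.Agent.S14.SI.Bridge
import Fermat.Agent.S14.SI.TSelectGroup
import Fermat.Agent.S14.SI.TSelectLocal
import Fermat.Agent.S14.SI.TSelectHeart

set_option autoImplicit false

open NumberField IsDedekindDomain

namespace Fermat.Agent.S14.SI

variable {K : Type*} [Field K] [NumberField K]

theorem exists_T {p : ℕ} (hp : p.Prime) (hp2 : p ≠ 2) (ζ : K) (hζ : IsPrimitiveRoot ζ p)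
    (S : Finset (HeightOneSpectrum (𝓞 K)))
    (hSp : ∀ v : HeightOneSpectrum (𝓞 K), (p : 𝓞 K) ∈ v.asIdeal → v ∈ S)
    (α : Kˣ) (hαS : α ∈ (S : Set (HeightOneSpectrum (𝓞 K))).unit K) (hα : ∀ y : Kˣ, y ^ p ≠ α) :
    ∃ T : Finset (HeightOneSpectrum (𝓞 K)), Disjoint T S ∧
      T.card + 1 = S.card + InfinitePlace.nrComplexPlaces K ∧
      (∀ v ∈ T, IsLocalPow p v.asIdeal 1 α) ∧
      (∀ x ∈ (S : Set (HeightOneSpectrum (𝓞 K))).unit K,
        (∀ v ∈ T, IsLocalPow p v.asIdeal 1 x) → ∃ (j : ℕ) (y : Kˣ), x = α ^ j * y ^ p) ∧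
      (∀ z : HeightOneSpectrum (𝓞 K) → Kˣ, (∀ v ∈ T, IsUnitAt v.asIdeal (z v)) →
        ∃ u ∈ (S : Set (HeightOneSpectrum (𝓞 K))).unit K,
          ∀ v ∈ T, IsLocalPow p v.asIdeal 1 (u / z v)) := by
  classical
  set U : Subgroup Kˣ := (S : Set (HeightOneSpectrum (𝓞 K))).unit K with hU
  set P : Subgroup Kˣ := (powMonoidHom p : U →* U).range.map U.subtype with hP
  have hPU : P ≤ U := Subgroup.map_subtype_le _
  have hmemP : ∀ u : Kˣ, u ∈ P ↔ ∃ y ∈ U, u = y ^ p := by
    intro u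
    rw [hP, Subgroup.mem_map]
    constructor
    · rintro ⟨w, ⟨y, rfl⟩, rfl⟩
      exact ⟨y, y.2, by simp⟩
    · rintro ⟨y, hy, rfl⟩
      exact ⟨(⟨y, hy⟩ : U) ^ p, ⟨⟨y, hy⟩, rfl⟩, by simp⟩
  have hidx : P.relIndex U = p ^ (S.card + InfinitePlace.nrComplexPlaces K) := by
    rw [Subgroup.relIndex, Subgroup.subgroupOf, hP,
      Subgroup.comap_map_eq_self_of_injective (Subgroup.subtype_injective U),
      Subgroup.index_eq_card]
    exact card_sUnit_quotient_pow hp hp2 ζ hζ S
  have hpow : ∀ u ∈ U, u ^ p ∈ P := fun u hu => (hmemP _).2 ⟨u, hu, rfl⟩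
  have hαP : α ∉ P := by
    intro h
    obtain ⟨y, -, hy⟩ := (hmemP α).1 h
    exact hα y hy.symm
  obtain ⟨T, hTgood, hTcard, hTα, hTker, hTsurj⟩ :=
    TSelect.abstract_select (ι := HeightOneSpectrum (𝓞 K)) hp U P hPU hidx hpow α hαS hαP
      (fun v => v ∉ S)
      (fun v => oneModPowSubgroup v.asIdeal 0) (fun v => localPowSubgroupN p v.asIdeal 1)
      (fun v hv x hx => Bridge.isUnitAt_of_mem_unit hx (by simpa using hv))
      (fun v _ u hu => by
        obtain ⟨y, -, rfl⟩ := (hmemP u).1 hu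
        exact Bridge.isLocalPow_pow p v.asIdeal 1 y)
      (fun v _ x hx hxL y hy => TSelect.exists_mul_pow_isLocalPow hp v hx hxL hy)
      (fun B x hxU hxα => by
        obtain ⟨v, hvB, hvS, hvα, hvx⟩ :=
          TSelect.exists_separating_prime hp hp2 ζ hζ S hSp α hαS hα x
            (fun j y hxy => by
              have hyp : y ^ p ∈ U := by
                have : y ^ p = (α ^ j)⁻¹ * x := by rw [hxy]; group
                rw [this]
                exact U.mul_mem (U.inv_mem (U.pow_mem hαS j)) hxU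
              have hyU : y ∈ U := TSelect.mem_unit_of_pow_mem hp.ne_zero hyp
              exact hxα j (y ^ p) (hpow y hyU) hxy) B
        exact ⟨v, hvB, hvS, hvα, hvx⟩)
  refine ⟨T, Finset.disjoint_left.2 hTgood, hTcard, hTα, ?_, hTsurj⟩
  intro x hxU hxT
  obtain ⟨j, u, hu, hxu⟩ := hTker x hxU hxT
  obtain ⟨y, -, rfl⟩ := (hmemP u).1 hu
  exact ⟨j, y, hxu⟩

end Fermat.Agent.S14.SI
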