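/-
T14 / SI package FT (first inequality with a tame modulus).
`K ⊇ μ_p`, `N/K` Galois of degree `p`, `R` a finite set of primes of `K` not above `p`, all ramified in
`N`, and `N/K` unramified outside `R`.  Then NOT every ideal `𝔞` of `K` prime to `R` is of the form
`(y) · N_{N/K}(𝔄)` with `y ∈ Kˣ` a unit and a `p`-th power residue at every `v ∈ R`.
(`R = ∅` is FI-u; see `FirstInequality.lean` for the proof scheme: replace `Cl` by the ray class groups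
`C_N = I_N^R / P_N^(1)`, `C_K = I_K^R / P_K^(1)` modulo `∏_{v∈R} 𝔓_v` resp. `∏ v`; finiteness of ray class
groups; `H^1(G, N^(1)) = 0` where `N^(1) = {y ≡ 1 mod 𝔓_v ∀ v ∈ R}`: if `σw/w ∈ N^(1)` then
`p ∣ ord_𝔓 w` (tameness: `σπ/π ≢ 1 mod 𝔓`, from KU-ram) and `w = c · w₁`, `c ∈ Kˣ`, `w₁ ∈ N^(1)` by CRT;
`(y)` with `y` a `p`-th power residue at `R` lies in `P_K^(1) · N(ideals)`.)
-/
import Fermat.Agent.S14.SI.Defs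
import Fermat.Agent.S14.SI.Kummer
import Fermat.Agent.S14.SI.FT.Final

set_option autoImplicit false

open NumberField IsDedekindDomain

namespace Fermat.Agent.S14.SI

theorem first_inequality_tame {K N : Type*} [Field K] [NumberField K] [Field N] [NumberField N]
    [Algebra K N] [IsGalois K N] {p : ℕ} (hp : p.Prime) (hp2 : p ≠ 2)
    (ζ : K) (hζ : IsPrimitiveRoot ζ p) (hdeg : Module.finrank K N = p)
    (R : Finset (HeightOneSpectrum (𝓞 K)))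
    (hRp : ∀ v ∈ R, (p : 𝓞 K) ∉ v.asIdeal)
    (hRram : ∀ v ∈ R, ∃ P : Ideal (𝓞 N), P.IsPrime ∧ P.under (𝓞 K) = v.asIdeal ∧
      ∃ τ : N ≃ₐ[K] N, τ ≠ 1 ∧ ∀ z : 𝓞 N, τ • z - z ∈ P)
    (hunr : ∀ P : Ideal (𝓞 N), P.IsPrime → P ≠ ⊥ → (∀ v ∈ R, P.under (𝓞 K) ≠ v.asIdeal) →
      ∀ τ : N ≃ₐ[K] N, (∀ z : 𝓞 N, τ • z - z ∈ P) → τ = 1) :
    ∃ 𝔞 : Ideal (𝓞 K), 𝔞 ≠ ⊥ ∧ (∀ v ∈ R, ¬ 𝔞 ≤ v.asIdeal) ∧
      ¬ ∃ (y₁ y₂ : 𝓞 K) (𝔄 : Ideal (𝓞 N)), y₁ ≠ 0 ∧ y₂ ≠ 0 ∧ 𝔄 ≠ ⊥ ∧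
        (∀ v ∈ R, y₁ ∉ v.asIdeal ∧ y₂ ∉ v.asIdeal ∧ ∃ z : 𝓞 K, y₁ - z ^ p * y₂ ∈ v.asIdeal) ∧
        Ideal.span {y₂} * 𝔞 = Ideal.span {y₁} * Ideal.relNorm (𝓞 K) 𝔄 := by
  classical
  have hcard : Nat.card (N ≃ₐ[K] N) = p := by rw [IsGalois.card_aut_eq_finrank, hdeg]
  obtain ⟨σ, hσ⟩ : ∃ σ : N ≃ₐ[K] N, σ ≠ 1 := by
    have h1 : 1 < Nat.card (N ≃ₐ[K] N) := by rw [hcard]; exact hp.one_lt
    have : Finite (N ≃ₐ[K] N) := Nat.finite_of_card_ne_zero (by omega)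
    have : Nontrivial (N ≃ₐ[K] N) := Finite.one_lt_card_iff_nontrivial.mp h1
    exact exists_ne 1
  have hσp : σ ^ p = 1 := UH.pow_finrank_eq_one hp hdeg σ
  have hK := FT.isTotallyComplex_of_isPrimitiveRoot hp hp2 ζ hζ
  obtain ⟨hUH0, hUH⟩ := FT.herbrand_ker_dv hp hdeg hK σ hσ
  have key := FT.not_le_norm_sup (p := p) (σL := FT.sigL σ) (σI := FT.sigI σ) (d := FT.dv N) hp R.card
    (by rw [FT.sigL_pow, hσp, FT.sigL_one]) (by rw [FT.sigI_pow, hσp, FT.sigI_one]) (FT.dv_sigL σ)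
    (FT.h90_sigL hp hdeg σ hσ) (FT.index_range_dv_ne_zero N) hUH0 hUH
    (FT.Jsub K) (FT.JRsub R) (FT.Kpp N p R) (FT.Jsub_le_ker σ) (FT.map_ker_le_Jsub hp hdeg σ hσ)
    (FT.relIndex_Jsub_dvd hp hdeg σ hσ R hRram hunr) (FT.JRsub_le_Jsub R) (FT.Jsub_le_sup σ R)
    (FT.Kpp_le σ p R) (FT.relIndex_Kpp hp hdeg ζ hζ σ hσ R hRp)
    (FT.nrm_mem_Kpp hp hdeg σ hσ R hRram)
  by_contra hcon
  apply key
  refine FT.JRsub_le_Tsub σ R (fun v hv => ?_)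
  have hv0 : v.asIdeal ≠ ⊥ := v.ne_bot
  have hvR : ∀ w ∈ R, ¬ v.asIdeal ≤ w.asIdeal := by
    intro w hw hle
    have hmax : v.asIdeal.IsMaximal := v.isMaximal
    have := hmax.eq_of_le w.isPrime.ne_top hle
    exact hv (by rwa [HeightOneSpectrum.ext this])
  by_contra hno
  apply hcon
  refine ⟨v.asIdeal, hv0, hvR, ?_⟩
  rintro ⟨y₁, y₂, 𝔄, hy₁, hy₂, h𝔄, hres, heq⟩
  exact hno (FT.prime_mem_Tsub hp hdeg σ hσ R v y₁ y₂ 𝔄 hy₁ hy₂ h𝔄 hres heq)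

end Fermat.Agent.S14.SI
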