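/-
T14 / SI package KL (Key Lemma).  `S ⊇ {v ∣ p}` generates `Cl(K)`, `T` as in package TS.
If `x` is an `(S ∪ T)`-unit which is a local `p`-th power (precision `prec p v`) at every `v ∈ S`, then
`x` is a `p`-th power in `K`.
Proof: else `N := kummerExt K p x` has degree `p`, is split at `S` (KU-split), unramified outside `T`
(KU-unram; primes above `p` are in `S`), tamely ramified exactly at `R := {v ∈ T : p ∤ ord_v x}` (KU-ram).
Every ideal `𝔞` prime to `R`: `𝔞 = (y) 𝔰` with `𝔰` supported on `S` (class group generated by `S`);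
by TS-surjectivity multiply `y` by an `S`-unit so that it becomes a `p`-th power residue at all
`v ∈ R ⊆ T`; `𝔰` (changed by an `S`-supported principal ideal) is a norm since the primes of `S` split in `N`.
This contradicts package FT.
-/
import Fermat.Agent.S14.SI.Defs
import Fermat.Agent.S14.SI.Kummer
import Fermat.Agent.S14.SI.FITame
import Fermat.Agent.S14.SI.KL.Local
import Fermat.Agent.S14.SI.KL.Norm
import Fermat.Agent.S14.SI.KL.Class
import Fermat.Agent.S14.SI.KL.Integral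
import Fermat.Agent.S14.SI.KL.Root

set_option autoImplicit false

open NumberField IsDedekindDomain nonZeroDivisors

namespace Fermat.Agent.S14.SI

variable {K : Type*} [Field K] [NumberField K]

namespace KL

/-- The Key Lemma for an abstract Kummer extension `N = K(β)`, `β^p = x`, of degree `p`. -/
theorem key_lemma_aux {N : Type*} [Field N] [NumberField N] [Algebra K N] [IsGalois K N]
    {p : ℕ} (hp : p.Prime) (hp2 : p ≠ 2) (ζ : K) (hζ : IsPrimitiveRoot ζ p)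
    (hdeg : Module.finrank K N = p)
    (S T : Finset (HeightOneSpectrum (𝓞 K))) (hST : Disjoint T S)
    (hSp : ∀ v : HeightOneSpectrum (𝓞 K), (p : 𝓞 K) ∈ v.asIdeal → v ∈ S)
    (hScl : Subgroup.closure (Set.range fun v : S =>
        ClassGroup.mk0 ⟨v.1.asIdeal, mem_nonZeroDivisors_of_ne_zero v.1.ne_bot⟩) = ⊤)
    (hTsurj : ∀ z : HeightOneSpectrum (𝓞 K) → Kˣ, (∀ v ∈ T, IsUnitAt v.asIdeal (z v)) →
        ∃ u ∈ (S : Set (HeightOneSpectrum (𝓞 K))).unit K,
          ∀ v ∈ T, IsLocalPow p v.asIdeal 1 (u / z v))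
    (x : Kˣ) (hx : x ∈ ((S : Set (HeightOneSpectrum (𝓞 K))) ∪
      (T : Set (HeightOneSpectrum (𝓞 K)))).unit K)
    (hloc : ∀ v ∈ S, IsLocalPow p v.asIdeal (prec p v.asIdeal) x)
    (β : N) (hβ : β ^ p = algebraMap K N x) (hL : IntermediateField.adjoin K {β} = ⊤) :
    False := by
  classical
  have hinj : Function.Injective (algebraMap (𝓞 K) (𝓞 N)) :=
    RingOfIntegers.algebraMap.injective K N
  -- the ramified set
  set R : Finset (HeightOneSpectrum (𝓞 K)) :=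
    T.filter (fun v => ¬ ∃ y : Kˣ, IsUnitAt v.asIdeal (x / y ^ p)) with hRdef
  have hRT : ∀ v ∈ R, v ∈ T := fun v hv => (Finset.mem_filter.mp hv).1
  have hRS : ∀ v ∈ R, v ∉ S := fun v hv hvS => Finset.disjoint_left.mp hST (hRT v hv) hvS
  have hRp : ∀ v ∈ R, (p : 𝓞 K) ∉ v.asIdeal := fun v hv hpv => hRS v hv (hSp v hpv)
  -- a prime of `N` not above `p`
  have hnotp : ∀ (P : Ideal (𝓞 N)) (v : HeightOneSpectrum (𝓞 K)), P.under (𝓞 K) = v.asIdeal →
      (p : 𝓞 K) ∉ v.asIdeal → (p : 𝓞 N) ∉ P := by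
    intro P v hPv hpv hmem
    apply hpv
    rw [← hPv, Ideal.under_def, Ideal.mem_comap, map_natCast]
    exact hmem
  -- a nontrivial automorphism
  have hcard : Nat.card (N ≃ₐ[K] N) = p := by
    rw [IsGalois.card_aut_eq_finrank, hdeg]
  obtain ⟨τ₀, hτ₀⟩ : ∃ τ₀ : N ≃ₐ[K] N, τ₀ ≠ 1 := by
    have : Nontrivial (N ≃ₐ[K] N) := by
      rw [← Finite.one_lt_card_iff_nontrivial, hcard]
      exact hp.one_lt
    exact exists_ne 1
  -- ramification at `R`
  have hRram : ∀ v ∈ R, ∃ P : Ideal (𝓞 N), P.IsPrime ∧ P.under (𝓞 K) = v.asIdeal ∧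
      ∃ τ : N ≃ₐ[K] N, τ ≠ 1 ∧ ∀ z : 𝓞 N, τ • z - z ∈ P := by
    intro v hv
    obtain ⟨P, -, hPprime, hPv⟩ := Ideal.exists_ideal_over_prime_of_isIntegral v.asIdeal
      (⊥ : Ideal (𝓞 N)) (by rw [Ideal.comap_bot_of_injective _ hinj]; exact bot_le)
    have hP0 : P ≠ ⊥ := by
      rintro rfl
      rw [Ideal.comap_bot_of_injective _ hinj] at hPv
      exact v.ne_bot hPv.symm
    have hPv' : P.under (𝓞 K) = v.asIdeal := hPv
    refine ⟨P, hPprime, hPv', τ₀, hτ₀, ?_⟩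
    have hord : ¬ ∃ y : Kˣ, IsUnitAt (P.under (𝓞 K)) (x / y ^ p) := by
      rw [hPv']; exact (Finset.mem_filter.mp hv).2
    exact fun z => (tame_of_not_dvd_ord hp ζ hζ hdeg x β hβ P hP0
      (hnotp P v hPv' (hRp v hv)) hord).1 τ₀ z
  -- unramified outside `R`
  have hunr : ∀ P : Ideal (𝓞 N), P.IsPrime → P ≠ ⊥ →
      (∀ v ∈ R, P.under (𝓞 K) ≠ v.asIdeal) →
      ∀ τ : N ≃ₐ[K] N, (∀ z : 𝓞 N, τ • z - z ∈ P) → τ = 1 := by
    intro P hPprime hP0 hPR τ hτ
    have hunder_prime : (P.under (𝓞 K)).IsPrime := Ideal.IsPrime.under (𝓞 K) P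
    have hunder_ne : P.under (𝓞 K) ≠ ⊥ := by
      intro h0
      exact hP0 (Ideal.eq_bot_of_comap_eq_bot (R := 𝓞 K) h0)
    set w : HeightOneSpectrum (𝓞 K) := ⟨P.under (𝓞 K), hunder_prime, hunder_ne⟩ with hw
    have hPw : P.under (𝓞 K) = w.asIdeal := rfl
    by_cases hwS : w ∈ S
    · -- split at `S`
      apply decomposition_trivial_of_isLocalPow hp hp2 ζ hζ x β hβ hL P hP0 (hloc w hwS) τ
      intro z hz
      have : τ • z = (τ • z - z) + z := by ring
      rw [this]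
      exact Ideal.add_mem _ (hτ z) hz
    · have hpw : (p : 𝓞 K) ∉ w.asIdeal := fun h => hwS (hSp w h)
      apply inertia_trivial_of_dvd_ord hp ζ hζ x β hβ hL P hP0 (hnotp P w hPw hpw) _ τ hτ
      by_cases hwT : w ∈ T
      · have hwR : w ∉ R := fun hwR => hPR w hwR hPw
        by_contra hcon
        exact hwR (Finset.mem_filter.mpr ⟨hwT, hcon⟩)
      · refine ⟨1, ?_⟩
        rw [one_pow, div_one]
        apply (isUnitAt_iff w x).mpr
        apply hx w
        simp only [Set.mem_union, Finset.mem_coe, not_or]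
        exact ⟨hwS, hwT⟩
  -- the first inequality with tame modulus
  obtain ⟨𝔞, h𝔞0, h𝔞R, hnot⟩ :=
    first_inequality_tame hp hp2 ζ hζ hdeg R hRp hRram hunr
  apply hnot
  -- the class of `𝔞` is supported on `S`
  obtain ⟨n, c₁, c₂, hc₁, hc₂, hcl⟩ := exists_eq_prod_of_closure_eq_top S hScl 𝔞 h𝔞0
  set 𝔰 : Ideal (𝓞 K) := ∏ w ∈ S, w.asIdeal ^ n w with h𝔰
  have hc₁K : (c₁ : K) ≠ 0 := by
    intro h0; exact hc₁ (coe_injective' (by simpa using h0))
  have hc₂K : (c₂ : K) ≠ 0 := by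
    intro h0; exact hc₂ (coe_injective' (by simpa using h0))
  set y : Kˣ := Units.mk0 ((c₂ : K) / (c₁ : K)) (div_ne_zero hc₂K hc₁K) with hy
  have hyR : ∀ v ∈ R, IsUnitAt v.asIdeal y := by
    intro v hv
    rw [isUnitAt_iff]
    have := intValuation_eq_of_mul_eq v hc₁ hc₂ (h𝔞R v hv) (prod_pow_not_le S n v (hRS v hv)) hcl
    rw [hy, Units.val_mk0, map_div₀]
    change v.valuation K (algebraMap (𝓞 K) K c₂) / v.valuation K (algebraMap (𝓞 K) K c₁) = 1
    rw [v.valuation_of_algebraMap, v.valuation_of_algebraMap, this]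
    exact div_self (v.intValuation_ne_zero c₂ hc₂)
  -- correct by an `S`-unit
  obtain ⟨u, huS, huT⟩ := hTsurj (fun v => if v ∈ R then y else 1) (by
    intro v _
    by_cases hvR : v ∈ R
    · simp only [hvR, if_true]; exact hyR v hvR
    · simp only [hvR, if_false]; exact oneModPow_one _ _)
  have huR : ∀ v ∈ R, IsLocalPow p v.asIdeal 1 (u / y) := by
    intro v hv
    have := huT v (hRT v hv)
    simpa only [hv, if_true] using this
  have huRu : ∀ v ∈ R, IsUnitAt v.asIdeal u := by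
    intro v hv
    rw [isUnitAt_iff]
    exact huS v (by simpa using hRS v hv)
  -- make the `S`-unit integral
  obtain ⟨g, hg0, hgS, hgnS⟩ := exists_generator_prod_pow S
  obtain ⟨M, e, he⟩ := exists_integral_mul_pow S u huS g hgS hp.pos
  have hgK : (g : K) ≠ 0 := by
    intro h0; exact hg0 (coe_injective' (by simpa using h0))
  set gU : Kˣ := Units.mk0 (g : K) hgK with hgU
  have hgR : ∀ v ∈ R, IsUnitAt v.asIdeal gU := by
    intro v hv
    refine ⟨g, 1, hgnS v (hRS v hv), ?_, by simp, by simp [hgU]⟩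
    exact fun h => v.isPrime.ne_top ((Ideal.eq_top_iff_one _).mpr h)
  have heK : (e : K) = ((u * gU ^ (p * M) : Kˣ) : K) := by
    rw [he]; simp [hgU]
  have he0 : e ≠ 0 := by
    rintro rfl
    exact (u * gU ^ (p * M)).ne_zero (by rw [← heK]; simp)
  -- the corrected number
  set y' : Kˣ := y / (u * gU ^ (p * M)) with hy'
  have hy'R : ∀ v ∈ R, IsUnitAt v.asIdeal y' := fun v hv =>
    isUnitAt_div (hyR v hv) (isUnitAt_mul (huRu v hv) (isUnitAt_pow (hgR v hv) _))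
  have hy'loc : ∀ v ∈ R, IsLocalPow p v.asIdeal 1 y' := by
    intro v hv
    have := v.isPrime
    have h1 : (u / y)⁻¹ ∈ localPowSubgroupN p v.asIdeal 1 :=
      Subgroup.inv_mem _ (huR v hv)
    have h2 : ((gU ^ M)⁻¹) ^ p ∈ localPowSubgroupN p v.asIdeal 1 :=
      ⟨(gU ^ M)⁻¹, by rw [div_self']; exact oneModPow_one _ _⟩
    have h3 : y' = (u / y)⁻¹ * ((gU ^ M)⁻¹) ^ p := by
      rw [hy', inv_div, inv_pow, ← pow_mul, mul_comm M p, div_mul_eq_div_div, div_eq_mul_inv _ (gU ^ (p * M))]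
    rw [h3]
    exact Subgroup.mul_mem _ h1 h2
  obtain ⟨y₁, y₂, hy₁0, hy₂0, hrep, hyy⟩ := exists_rep_of_isUnitAt R y' hy'R
  -- the norm ideal
  set 𝔱 : Ideal (𝓞 K) := Ideal.span {e} * 𝔰 with h𝔱
  have h𝔰0 : 𝔰 ≠ ⊥ := by
    rw [h𝔰, ← coe_prodIdeal]
    exact nonZeroDivisors.ne_zero (prodIdeal S n).2
  have h𝔱0 : 𝔱 ≠ ⊥ := by
    rw [h𝔱, Ne, ← Ideal.zero_eq_bot, mul_eq_zero, not_or]
    exact ⟨by simpa [Ideal.span_singleton_eq_bot] using he0, h𝔰0⟩
  have hnorm : ∃ 𝔄 : Ideal (𝓞 N), 𝔄 ≠ ⊥ ∧ Ideal.relNorm (𝓞 K) 𝔄 = 𝔱 := by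
    apply exists_relNorm_eq_of_forall_prime 𝔱 h𝔱0
    intro q hqprime hq0 hle
    set q' : HeightOneSpectrum (𝓞 K) := ⟨q, hqprime, hq0⟩ with hq'
    have hq'S : q' ∈ S := by
      by_contra hq'S
      rcases hqprime.mul_le.mp hle with h1 | h1
      · rw [Ideal.span_singleton_le_iff_mem] at h1
        have hlt : q'.valuation K (e : K) < 1 := (q'.valuation_lt_one_iff_mem e).mpr h1
        have h1u : q'.valuation K (u : K) = 1 := huS q' (by simpa using hq'S)
        have h1g : q'.valuation K (g : K) = 1 :=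
          (q'.valuation_eq_one_iff_notMem (K := K)).mpr (hgnS q' hq'S)
        rw [he, map_mul, map_pow, h1u, h1g, one_pow, one_mul] at hlt
        exact lt_irrefl _ hlt
      · exact prod_pow_not_le S n q' hq'S h1
    obtain ⟨P, hPprime, hP0, hPn⟩ := exists_prime_relNorm_eq (N := N) q hq0 (by
      intro P hPprime hP0 hPq τ hτ
      have := hPprime
      exact decomposition_trivial_of_isLocalPow hp hp2 ζ hζ x β hβ hL P hP0
        (by rw [hPq]; exact hloc q' hq'S) τ hτ)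
    exact ⟨P, hP0, hPn⟩
  obtain ⟨𝔄, h𝔄0, h𝔄⟩ := hnorm
  refine ⟨y₁, y₂, 𝔄, hy₁0, hy₂0, h𝔄0, ?_, ?_⟩
  · intro v hv
    refine ⟨(hyy v hv).1, (hyy v hv).2, ?_⟩
    exact exists_pow_residue v hp.ne_zero y' y₁ y₂ (hyy v hv).1 (hyy v hv).2 hrep (hy'loc v hv)
  · -- the ideal equation
    rw [h𝔄]
    have hrel : c₂ * y₂ = y₁ * c₁ * e := by
      have hK : (c₂ : K) * (y₂ : K) = (y₁ : K) * (c₁ : K) * (e : K) := by
        rw [← hrep, heK, hy', Units.val_div_eq_div_val, hy, Units.val_mk0]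
        have hne : ((u * gU ^ (p * M) : Kˣ) : K) ≠ 0 := (u * gU ^ (p * M)).ne_zero
        field_simp
      exact_mod_cast hK
    have hmul : Ideal.span {c₁} * (Ideal.span {y₂} * 𝔞) =
        Ideal.span {c₁} * (Ideal.span {y₁} * 𝔱) := by
      calc Ideal.span {c₁} * (Ideal.span {y₂} * 𝔞)
          = Ideal.span {y₂} * (Ideal.span {c₁} * 𝔞) := by ring
        _ = Ideal.span {y₂} * (Ideal.span {c₂} * 𝔰) := by rw [hcl]
        _ = Ideal.span {c₂ * y₂} * 𝔰 := by
            rw [← mul_assoc, Ideal.span_singleton_mul_span_singleton, mul_comm y₂ c₂]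
        _ = Ideal.span {y₁ * c₁ * e} * 𝔰 := by rw [hrel]
        _ = Ideal.span {c₁} * (Ideal.span {y₁} * 𝔱) := by
            rw [h𝔱, ← Ideal.span_singleton_mul_span_singleton,
              ← Ideal.span_singleton_mul_span_singleton]
            ring
    have hc₁I : (Ideal.span {c₁} : Ideal (𝓞 K)) ≠ 0 := by
      rw [Ne, Ideal.zero_eq_bot, Ideal.span_singleton_eq_bot]; exact hc₁
    exact mul_left_cancel₀ hc₁I hmul

end KL

theorem key_lemma {p : ℕ} (hp : p.Prime) (hp2 : p ≠ 2) (ζ : K) (hζ : IsPrimitiveRoot ζ p)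
    (S T : Finset (HeightOneSpectrum (𝓞 K))) (hST : Disjoint T S)
    (hSp : ∀ v : HeightOneSpectrum (𝓞 K), (p : 𝓞 K) ∈ v.asIdeal → v ∈ S)
    (hScl : Subgroup.closure (Set.range fun v : S =>
        ClassGroup.mk0 ⟨v.1.asIdeal, mem_nonZeroDivisors_of_ne_zero v.1.ne_bot⟩) = ⊤)
    (hTsurj : ∀ z : HeightOneSpectrum (𝓞 K) → Kˣ, (∀ v ∈ T, IsUnitAt v.asIdeal (z v)) →
        ∃ u ∈ (S : Set (HeightOneSpectrum (𝓞 K))).unit K,
          ∀ v ∈ T, IsLocalPow p v.asIdeal 1 (u / z v))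
    (x : Kˣ) (hx : x ∈ ((S : Set (HeightOneSpectrum (𝓞 K))) ∪
      (T : Set (HeightOneSpectrum (𝓞 K)))).unit K)
    (hloc : ∀ v ∈ S, IsLocalPow p v.asIdeal (prec p v.asIdeal) x) :
    ∃ y : Kˣ, y ^ p = x := by
  by_contra hcon
  push Not at hcon
  have hxK : ∀ y : K, y ^ p ≠ (x : K) := by
    intro y hy
    have hy0 : y ≠ 0 := by
      rintro rfl
      rw [zero_pow hp.ne_zero] at hy
      exact x.ne_zero hy.symm
    exact hcon (Units.mk0 y hy0) (Units.ext (by simpa using hy))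
  have : IsGalois K (kummerExt K p (x : K)) := kummerExt_isGalois hp ζ hζ (x : K)
  have hdeg : Module.finrank K (kummerExt K p (x : K)) = p :=
    finrank_kummerExt hp ζ hζ (x : K) hxK
  obtain ⟨β, hβ⟩ := KL.exists_root_splittingField hp.pos (x : K)
  have hL : IntermediateField.adjoin K {β} = ⊤ :=
    KL.adjoin_eq_top_of_pow_eq hp hdeg _ hxK β hβ
  exact KL.key_lemma_aux (N := kummerExt K p (x : K)) hp hp2 ζ hζ hdeg S T hST hSp hScl hTsurj
    x hx hloc β hβ hL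

end Fermat.Agent.S14.SI
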