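/-
T14 / SI package LC (local count):  `|Kˣ / (local p-th powers at v)| = p² · N(v)^(ord_v p)`.

Math.  `n := prec p v = p e/(p-1) + 1`, `e = ord_v(p)`, `q = N(v)`.  Valuation mod `p` gives
`1 → U/(U ∩ localPow) → Kˣ/localPow → ℤ/p → 0` (`U` = units at `v`), and
`U/(U ∩ localPow) ≅ A/A^p`, `A := (𝓞 K / v^n)ˣ` (finite abelian), `|A/A^p| = |A[p]|`.
`A[p] = {a : a^p ≡ 1 mod v^n} = {a ≡ ζ^i mod v^(n-e)}`:  (⇐) binomial expansion, `(p-1) n ≥ p e`;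
(⇒) `∏ (a - ζ^i) ∈ v^n`, `ord_v(ζ^i - ζ^j) = e/(p-1)`, so exactly one factor is large.  The `p` classes
`ζ^i mod v^(n-e)` are distinct as `n - e > e/(p-1)`, whence `|A[p]| = p q^e`.  (`v ∤ p`: `e = 0`, `n = 1`,
`A = k_vˣ` cyclic of order `q - 1 ≡ 0 mod p`.)
-/
import Fermat.Agent.S14.SI.Defs
import Fermat.Agent.S14.SI.LC.Final

set_option autoImplicit false

open NumberField IsDedekindDomain

namespace Fermat.Agent.S14.SI

theorem card_quotient_localPowSubgroup {K : Type*} [Field K] [NumberField K] {p : ℕ}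
    (hp : p.Prime) (hp2 : p ≠ 2) (ζ : K) (hζ : IsPrimitiveRoot ζ p)
    (v : Ideal (𝓞 K)) [v.IsPrime] (hv : v ≠ ⊥) :
    Nat.card (Kˣ ⧸ localPowSubgroup p v) = p ^ 2 * (Ideal.absNorm v) ^ ordP p v :=
  LC.card_quotient_localPowSubgroup_aux hp ζ hζ v hv

end Fermat.Agent.S14.SI
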