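/-
T14 / SI package KU, theorem (KU-ram) `tame_of_not_dvd_ord` (helper3) -- independent second proof (hedge);
the canonical file wired into SI/Kummer.lean is helper84's SI/KummerRam.lean.

`L/K` Galois of prime degree `p`, `μ_p ⊆ K`, `β ∈ L` with `β^p = x ∈ Kˣ`, `P` a prime of `L` not above
`p`, `v = P ∩ K`, and `p ∤ ord_v x` (in the form: no `y ∈ Kˣ` makes `x / y^p` a unit at `v`).  Then
* every `τ ∈ Gal(L/K)` is in the inertia group of `P` (total ramification), and
* the ramification is tame: for `τ ≠ 1` and a uniformiser `π ∈ P \ P²` we have `τπ - π ∉ P²`.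

Proof.  (A) If the inertia group is not everything it is trivial (`|G| = p`), so `e(P|v) = 1`
(Mathlib `Ideal.card_inertia_eq_ramificationIdxIn`), so `v(x) = w(x) = w(β)^p`
(`HeightOneSpectrum.valuation_liesOver`), so `x / ϖ^(pk)` is a `v`-unit: contradiction.
(B) If `τ` is in the inertia group and `τπ ≡ π mod P²` then `τ b ≡ b mod P^(m+1)` for all
`b ∈ P^m` (`sub_mem_pow_succ`).  Apply this to an integral multiple `b = cβ` (`c ∈ ℤ`) with
`b ∈ P^m \ P^(m+1)`:  `τ b = ξ b` with `ξ ≠ 1` a `p`-th root of unity, so `ξ - 1 ∈ P`, so `p ∈ P`.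
-/
import Fermat.Agent.S14.SI.Defs

set_option autoImplicit false

open NumberField IsDedekindDomain Polynomial

namespace Fermat.Agent.S14.SI.KummerRamAlt

section Tame

variable {B : Type*} [CommRing B]

lemma map_mem_of_sub_mem (P : Ideal B) (f : B →+* B) (hf : ∀ z, f z - z ∈ P) {z : B}
    (hz : z ∈ P) : f z ∈ P := by
  have : f z = (f z - z) + z := by ring
  rw [this]
  exact P.add_mem (hf z) hz

lemma map_mem_pow (P : Ideal B) (f : B →+* B) (hf : ∀ z, f z - z ∈ P) (n : ℕ) {z : B}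
    (hz : z ∈ P ^ n) : f z ∈ P ^ n := by
  have h1 : Ideal.map f P ≤ P := by
    rw [Ideal.map_le_iff_le_comap]
    intro z hz
    exact map_mem_of_sub_mem P f hf hz
  have h2 : Ideal.map f (P ^ n) ≤ P ^ n := by
    rw [Ideal.map_pow]
    exact Ideal.pow_right_mono h1 n
  exact h2 (Ideal.mem_map_of_mem f hz)

variable [IsDedekindDomain B]

lemma sub_mem_sq (P : Ideal B) [P.IsPrime] (hP : P ≠ ⊥) (f : B →+* B)
    (hf : ∀ z, f z - z ∈ P) (π : B) (hπ : π ∈ P) (hπ2 : π ∉ P ^ 2) (hfπ : f π - π ∈ P ^ 2)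
    {d : B} (hd : d ∈ P) : f d - d ∈ P ^ 2 := by
  obtain ⟨t, e, he, hte⟩ := Ideal.exists_mul_add_mem_pow_succ (P := P) hP (i := 1) π d
    (by simpa using hπ) (by simpa using hπ2) (by simpa using hd)
  have he2 : e ∈ P ^ 2 := by simpa using he
  have hfe : f e ∈ P ^ 2 := map_mem_pow P f hf 2 he2
  have : f d - d = (f π - π) * f t + π * (f t - t) + (f e - e) := by
    rw [← hte]; simp only [map_add, map_mul]; ring
  rw [this]
  refine Ideal.add_mem _ (Ideal.add_mem _ (Ideal.mul_mem_right _ _ hfπ) ?_)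
    (Ideal.sub_mem _ hfe he2)
  rw [pow_two]
  exact Ideal.mul_mem_mul hπ (hf t)

/-- If a ring endomorphism `f` of a Dedekind domain acts trivially mod `P` and moves some
uniformiser `π` only by an element of `P²`, then it acts trivially on every `P^m / P^(m+1)`. -/
lemma sub_mem_pow_succ (P : Ideal B) [P.IsPrime] (hP : P ≠ ⊥) (f : B →+* B)
    (hf : ∀ z, f z - z ∈ P) (π : B) (hπ : π ∈ P) (hπ2 : π ∉ P ^ 2) (hfπ : f π - π ∈ P ^ 2)
    (m : ℕ) {b : B} (hb : b ∈ P ^ m) : f b - b ∈ P ^ (m + 1) := by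
  induction m generalizing b with
  | zero => simpa using hf b
  | succ m ih =>
    rw [pow_succ] at hb
    refine Submodule.mul_induction_on hb ?_ ?_
    · intro c hc d hd
      have : f (c * d) - c * d = (f c - c) * f d + c * (f d - d) := by
        simp only [map_mul]; ring
      rw [this]
      refine Ideal.add_mem _ ?_ ?_
      · have : P ^ (m + 1 + 1) = P ^ (m + 1) * P := pow_succ _ _
        rw [this]
        exact Ideal.mul_mem_mul (ih hc) (map_mem_of_sub_mem P f hf hd)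
      · have : P ^ (m + 1 + 1) = P ^ m * P ^ 2 := by rw [← pow_add]
        rw [this]
        exact Ideal.mul_mem_mul hc (sub_mem_sq P hP f hf π hπ hπ2 hfπ hd)
    · intro x y hx hy
      have : f (x + y) - (x + y) = (f x - x) + (f y - y) := by
        simp only [map_add]; ring
      rw [this]
      exact Ideal.add_mem _ hx hy

lemma exists_mem_pow_not_mem_succ (P : Ideal B) (hP : P ≠ ⊤) {b : B} (hb : b ≠ 0) :
    ∃ m, b ∈ P ^ m ∧ b ∉ P ^ (m + 1) := by
  have hex : ∃ n, b ∉ P ^ n := by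
    by_contra h
    push Not at h
    have hmem : b ∈ ⨅ n, P ^ n := (Ideal.mem_iInf).2 h
    rw [Ideal.iInf_pow_eq_bot_of_isDomain P hP] at hmem
    exact hb (by simpa using hmem)
  classical
  have hn : b ∉ P ^ (Nat.find hex) := Nat.find_spec hex
  have hn0 : Nat.find hex ≠ 0 := by
    intro h
    rw [h] at hn
    simp at hn
  obtain ⟨m, hm⟩ := Nat.exists_eq_succ_of_ne_zero hn0
  refine ⟨m, ?_, ?_⟩
  · by_contra h
    exact Nat.find_min hex (by omega : m < Nat.find hex) h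
  · rw [Nat.succ_eq_add_one] at hm
    rw [← hm]
    exact hn

end Tame

variable {K : Type*} [Field K] [NumberField K]
variable {L : Type*} [Field L] [NumberField L] [Algebra K L]

/-- If `e(P|v) = 1` and `x = β^p` in `L`, then `x` is a `p`-th power times a `v`-unit. -/
lemma exists_isUnitAt_of_ramificationIdx_eq_one {p : ℕ} (hp0 : p ≠ 0)
    (x : Kˣ) (β : L) (hβ : β ^ p = algebraMap K L x)
    (P : Ideal (𝓞 L)) [P.IsPrime] (hP : P ≠ ⊥) (he : P.ramificationIdx (𝓞 K) = 1) :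
    ∃ y : Kˣ, IsUnitAt (P.under (𝓞 K)) (x / y ^ p) := by
  have hv : P.under (𝓞 K) ≠ ⊥ := Ideal.IsIntegral.comap_ne_bot (𝓞 K) hP
  let v : HeightOneSpectrum (𝓞 K) := ⟨P.under (𝓞 K), inferInstance, hv⟩
  let w : HeightOneSpectrum (𝓞 L) := ⟨P, inferInstance, hP⟩
  have : w.asIdeal.LiesOver v.asIdeal := ⟨rfl⟩
  have h1 := HeightOneSpectrum.valuation_liesOver L v w (x : K)
  rw [Ideal.ramificationIdx'_eq_ramificationIdx v.asIdeal w.asIdeal hv] at h1
  have he' : w.asIdeal.ramificationIdx (𝓞 K) = 1 := he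
  rw [he', pow_one] at h1
  have h2 : w.valuation L β ^ p = v.valuation K (x : K) := by rw [← map_pow, hβ, h1]
  have hβ0 : β ≠ 0 := by
    rintro rfl
    rw [zero_pow hp0] at hβ
    exact x.ne_zero ((map_eq_zero _).1 hβ.symm)
  have hγ : w.valuation L β ≠ 0 := (Valuation.ne_zero_iff _).2 hβ0
  obtain ⟨ϖ, hϖ⟩ := v.valuation_exists_uniformizer K
  have hϖ0 : ϖ ≠ 0 := by
    rintro rfl
    rw [map_zero] at hϖ
    exact WithZero.exp_ne_zero hϖ.symm
  let k : ℤ := WithZero.log (w.valuation L β)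
  have hk : WithZero.exp k = w.valuation L β := WithZero.exp_log hγ
  let y : Kˣ := (Units.mk0 ϖ hϖ0) ^ (-k)
  have hy : v.valuation K (y : K) = w.valuation L β := by
    simp only [y, Units.val_zpow_eq_zpow_val, Units.val_mk0, map_zpow₀, hϖ]
    rw [← hk, ← WithZero.exp_zsmul]
    simp
  have hval : v.valuation K ((x / y ^ p : Kˣ) : K) = 1 := by
    rw [Units.val_div_eq_div_val, map_div₀, Units.val_pow_eq_pow_val, map_pow, hy, ← h2]
    exact div_self (pow_ne_zero _ hγ)
  obtain ⟨n, d, hnd⟩ := v.exists_primeCompl_mul_eq_of_integer _ hval.le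
  refine ⟨y, n, d, ?_, d.2, by simp, hnd⟩
  have : v.valuation K (algebraMap (𝓞 K) K n) = 1 := by
    rw [← hnd, map_mul, hval, one_mul]
    exact (v.valuation_eq_one_iff_notMem).2 d.2
  exact (v.valuation_eq_one_iff_notMem).1 this

lemma card_inertia_eq_ramificationIdx [IsGalois K L] (P : Ideal (𝓞 L)) [P.IsPrime] (hP : P ≠ ⊥) :
    Nat.card (P.inertia (L ≃ₐ[K] L)) = P.ramificationIdx (𝓞 K) := by
  have hv : P.under (𝓞 K) ≠ ⊥ := Ideal.IsIntegral.comap_ne_bot (𝓞 K) hP
  have : (P.under (𝓞 K)).IsMaximal := Ring.DimensionLEOne.maximalOfPrime hv inferInstance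
  have : Finite (𝓞 K ⧸ P.under (𝓞 K)) := Ideal.finiteQuotientOfFreeOfNeBot _ hv
  rw [Ideal.card_inertia_eq_ramificationIdxIn (G := L ≃ₐ[K] L) (P.under (𝓞 K)) P,
    Ideal.ramificationIdxIn_eq_ramificationIdx (P.under (𝓞 K)) P (L ≃ₐ[K] L)]

/-- (KU-ram), same statement as `Fermat.Agent.S14.SI.tame_of_not_dvd_ord`. -/
theorem tame_of_not_dvd_ord {p : ℕ} (hp : p.Prime) (ζ : K) (hζ : IsPrimitiveRoot ζ p)
    [IsGalois K L] (hdeg : Module.finrank K L = p)
    (x : Kˣ) (β : L) (hβ : β ^ p = algebraMap K L x)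
    (P : Ideal (𝓞 L)) [P.IsPrime] (hP : P ≠ ⊥) (hPp : (p : 𝓞 L) ∉ P)
    (hord : ¬ ∃ y : Kˣ, IsUnitAt (P.under (𝓞 K)) (x / y ^ p)) :
    (∀ (τ : L ≃ₐ[K] L) (z : 𝓞 L), τ • z - z ∈ P) ∧
    (∀ (τ : L ≃ₐ[K] L), τ ≠ 1 → ∀ π : 𝓞 L, π ∈ P → π ∉ P ^ 2 → τ • π - π ∉ P ^ 2) := by
  -- (A) total ramification
  have hA : ∀ (τ : L ≃ₐ[K] L) (z : 𝓞 L), τ • z - z ∈ P := by
    have hcard : Nat.card (L ≃ₐ[K] L) = p := by rw [IsGalois.card_aut_eq_finrank, hdeg]
    have : Fact (Nat.card (L ≃ₐ[K] L)).Prime := ⟨hcard ▸ hp⟩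
    rcases Subgroup.eq_bot_or_eq_top_of_prime_card (P.inertia (L ≃ₐ[K] L)) with h | h
    · exfalso
      apply hord
      apply exists_isUnitAt_of_ramificationIdx_eq_one hp.ne_zero x β hβ P hP
      rw [← card_inertia_eq_ramificationIdx (K := K) P hP, h]
      simp
    · intro τ z
      have hτ : τ ∈ P.inertia (L ≃ₐ[K] L) := h ▸ Subgroup.mem_top τ
      exact hτ z
  refine ⟨hA, ?_⟩
  -- (B) tameness
  intro τ hτ π hπ hπ2 hcontra
  let f : 𝓞 L →+* 𝓞 L := MulSemiringAction.toRingHom (L ≃ₐ[K] L) (𝓞 L) τ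
  have hf : ∀ z, f z - z ∈ P := fun z => hA τ z
  have hβ0 : β ≠ 0 := by
    rintro rfl
    rw [zero_pow hp.ne_zero] at hβ
    exact x.ne_zero ((map_eq_zero _).1 hβ.symm)
  -- `β ∉ K`
  have hβK : β ∉ (⊥ : IntermediateField K L) := by
    intro hmem
    obtain ⟨y₀, rfl⟩ := IntermediateField.mem_bot.1 hmem
    have hy₀ : y₀ ≠ 0 := by
      rintro rfl
      exact hβ0 (map_zero _)
    apply hord
    refine ⟨Units.mk0 y₀ hy₀, ?_⟩
    have hxy : x = (Units.mk0 y₀ hy₀) ^ p := by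
      apply Units.ext
      apply (algebraMap K L).injective
      rw [← hβ]
      simp
    rw [hxy, div_self']
    exact oneModPow_one _ 0
  -- the root of unity `τβ/β`
  have hζL : IsPrimitiveRoot (algebraMap K L ζ) p :=
    hζ.map_of_injective (algebraMap K L).injective
  have h1 : (τ β / β) ^ p = 1 := by
    rw [div_pow, ← map_pow, hβ, AlgEquiv.commutes, div_self]
    rw [← hβ]
    exact pow_ne_zero _ hβ0
  have : NeZero p := ⟨hp.ne_zero⟩
  obtain ⟨i, hi, hiξ⟩ := hζL.eq_pow_of_pow_eq_one h1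
  have hτβ : τ β = (algebraMap K L ζ) ^ i * β := by
    rw [hiξ, div_mul_cancel₀ _ hβ0]
  have hi0 : i ≠ 0 := by
    rintro rfl
    apply hτ
    rw [pow_zero, one_mul] at hτβ
    have : IsSimpleOrder (IntermediateField K L) :=
      IntermediateField.isSimpleOrder_of_finrank_prime K L (hdeg ▸ hp)
    have htop : IntermediateField.adjoin K {β} = ⊤ := by
      rcases eq_bot_or_eq_top (IntermediateField.adjoin K {β}) with h | h
      · exfalso
        apply hβK
        rw [← h]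
        exact IntermediateField.mem_adjoin_simple_self K β
      · exact h
    have hadj : Algebra.adjoin K {β} = ⊤ := by
      rw [← IntermediateField.adjoin_simple_toSubalgebra_of_isAlgebraic
        (Algebra.IsAlgebraic.isAlgebraic β), htop, IntermediateField.top_toSubalgebra]
    have : (τ : L →ₐ[K] L) = AlgHom.id K L := by
      apply AlgHom.ext_of_adjoin_eq_top hadj
      intro z hz
      rw [Set.mem_singleton_iff] at hz
      subst hz
      simpa using hτβ
    ext z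
    have := congrArg (fun g : L →ₐ[K] L => g z) this
    simpa using this
  -- an integral multiple of `β`
  obtain ⟨c, hc0, hcβ⟩ := IsAlgebraic.exists_integral_multiple (R := ℤ)
    ((IsFractionRing.isAlgebraic_iff ℤ ℚ L).2 (Algebra.IsAlgebraic.isAlgebraic β))
  let b : 𝓞 L := ⟨c • β, hcβ⟩
  have hbval : algebraMap (𝓞 L) L b = c • β := rfl
  have hb0 : b ≠ 0 := by
    intro h
    have : algebraMap (𝓞 L) L b = 0 := by rw [h, map_zero]
    rw [hbval, zsmul_eq_mul, mul_eq_zero, Int.cast_eq_zero] at this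
    rcases this with h | h
    exacts [hc0 h, hβ0 h]
  obtain ⟨m, hm, hm'⟩ := exists_mem_pow_not_mem_succ P (Ideal.IsPrime.ne_top ‹_›) hb0
  -- the root of unity as an element of `𝓞 L`
  have hξint : IsIntegral ℤ ((algebraMap K L ζ) ^ i) := by
    apply IsIntegral.of_pow hp.pos
    rw [← pow_mul, mul_comm, pow_mul, hζL.pow_eq_one, one_pow]
    exact isIntegral_one
  let ξ : 𝓞 L := ⟨(algebraMap K L ζ) ^ i, hξint⟩
  have hξval : algebraMap (𝓞 L) L ξ = (algebraMap K L ζ) ^ i := rfl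
  have hfb : f b = ξ * b := by
    apply FaithfulSMul.algebraMap_injective (𝓞 L) L
    change τ (algebraMap (𝓞 L) L b) = _
    rw [map_mul, hbval, hξval, map_zsmul, hτβ, mul_smul_comm]
  have hmem : (ξ - 1) * b ∈ P ^ (m + 1) := by
    have := sub_mem_pow_succ P hP f hf π hπ hπ2 hcontra m hm
    rw [hfb] at this
    have h2 : (ξ - 1) * b = ξ * b - b := by ring
    rw [h2]
    exact this
  have hξP : ξ - 1 ∈ P := by
    rcases Ideal.IsPrime.mul_mem_pow P hmem with h | h
    · exact h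
    · exact absurd h hm'
  -- hence `p ∈ P`
  have hξprim : IsPrimitiveRoot ((algebraMap K L ζ) ^ i) p :=
    hζL.pow_of_coprime i (Nat.coprime_of_lt_prime hi0 hi hp).symm
  have hsum : ∑ j ∈ Finset.range p, ξ ^ j = 0 := by
    apply FaithfulSMul.algebraMap_injective (𝓞 L) L
    rw [map_sum, map_zero]
    simp only [map_pow, hξval]
    exact hξprim.geom_sum_eq_zero hp.one_lt
  apply hPp
  have hp_eq : (p : 𝓞 L) = ∑ j ∈ Finset.range p, (1 - ξ ^ j) := by
    rw [Finset.sum_sub_distrib, hsum, sub_zero]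
    simp
  rw [hp_eq]
  refine Ideal.sum_mem _ fun j _ => ?_
  obtain ⟨t, ht⟩ := one_sub_dvd_one_sub_pow ξ j
  have : 1 - ξ ^ j = -(ξ - 1) * t := by rw [ht]; ring
  rw [this]
  exact Ideal.mul_mem_right _ _ (Ideal.neg_mem_iff _ |>.2 hξP)

end Fermat.Agent.S14.SI.KummerRamAlt
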